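/-
GATE-B / B5, Betti side (helper65): comparison of a coset system with a REFERENCE system along a
map of index sets (a named version of `FibreTools.exists_fibre_fun`), and restriction of the
source group of a coset system.

* `cocycle_eq_of_fibre` : if `S.a i = z * emb (γ i) * S₀.a (f i)` with `S₀` of pairwise distinct
  cosets then `f (σ_g i) = σ⁰_g (f i)` and `c_g i = γ i * c⁰_g (f i) * (γ (σ_g i))⁻¹`;
* `weighted_sum_eq_of_fibre` : `∑ i, w i • φ (c_g i) = ∑ i, w i • φ (c⁰_g (f i))` for `σ_g`-invariant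
  weights;
* `srcRestrict S Γ₁' h` : the same system with source group `Γ₁'`, when the cocycle takes its
  values in `Γ₁'`; `srcRestrict_op_apply`, `wop_srcRestrict_apply`.
-/
import Mathlib
import Fermat.Agent.GM.B.System
import Fermat.Agent.GB.B4.Twist.WSys

set_option autoImplicit false

namespace Fermat.Agent.GB.B5.Betti

open Fermat.Agent.GM.B Fermat.Agent.GB.B4.Twist

variable {H G : Type*} [Group H] [Group G] {emb : H →* G} {Γ₁ Γ₂ : Subgroup H}

theorem cocycle_eq_of_fibre (S S₀ : CosetSys emb Γ₁ Γ₂) (hemb : Function.Injective emb)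
    (hS₀ : S₀.Distinct) (z : G) (hz : ∀ x : G, z * x = x * z) (f : S.ι → S₀.ι) (γ : S.ι → Γ₁)
    (hrep : ∀ i, S.a i = z * emb ((γ i : Γ₁) : H) * S₀.a (f i)) (g : Γ₂) (i : S.ι) :
    f (S.σ g i) = S₀.σ g (f i) ∧
      S.c g i = γ i * S₀.c g (f i) * (γ (S.σ g i))⁻¹ := by
  have h1 := S.rel g i
  rw [hrep i, hrep (S.σ g i)] at h1
  have h0 := S₀.rel g (f i)
  -- `γ i * c⁰ * a⁰ (σ⁰ (f i)) = c * γ (σ i) * a⁰ (f (σ i))`
  have h2 : emb ((γ i : Γ₁) : H) * (emb ((S₀.c g (f i) : Γ₁) : H) * S₀.a (S₀.σ g (f i))) =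
      emb ((S.c g i : Γ₁) : H) * (emb ((γ (S.σ g i) : Γ₁) : H) * S₀.a (f (S.σ g i))) := by
    have h3 : z * (emb ((γ i : Γ₁) : H) * (emb ((S₀.c g (f i) : Γ₁) : H) *
          S₀.a (S₀.σ g (f i)))) =
        z * (emb ((S.c g i : Γ₁) : H) * (emb ((γ (S.σ g i) : Γ₁) : H) *
          S₀.a (f (S.σ g i)))) := by
      calc z * (emb ((γ i : Γ₁) : H) * (emb ((S₀.c g (f i) : Γ₁) : H) * S₀.a (S₀.σ g (f i))))
          = z * (emb ((γ i : Γ₁) : H) * (S₀.a (f i) * emb ((g : Γ₂) : H))) := by rw [h0]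
        _ = z * emb ((γ i : Γ₁) : H) * S₀.a (f i) * emb ((g : Γ₂) : H) := by
            simp only [mul_assoc]
        _ = emb ((S.c g i : Γ₁) : H) * (z * emb ((γ (S.σ g i) : Γ₁) : H) *
              S₀.a (f (S.σ g i))) := h1
        _ = emb ((S.c g i : Γ₁) : H) * z * (emb ((γ (S.σ g i) : Γ₁) : H) *
              S₀.a (f (S.σ g i))) := by simp only [mul_assoc]
        _ = z * emb ((S.c g i : Γ₁) : H) * (emb ((γ (S.σ g i) : Γ₁) : H) *
              S₀.a (f (S.σ g i))) := by rw [hz]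
        _ = _ := by simp only [mul_assoc]
    exact mul_left_cancel h3
  set μ : Γ₁ := (γ i * S₀.c g (f i))⁻¹ * (S.c g i * γ (S.σ g i)) with hμ
  have h4 : S₀.a (S₀.σ g (f i)) = emb ((μ : Γ₁) : H) * S₀.a (f (S.σ g i)) := by
    rw [hμ]
    simp only [Subgroup.coe_mul, Subgroup.coe_inv, map_mul, map_inv, mul_inv_rev]
    rw [mul_assoc, mul_assoc, mul_assoc, ← h2]
    group
  have hidx : S₀.σ g (f i) = f (S.σ g i) := hS₀ _ _ μ h4
  refine ⟨hidx.symm, ?_⟩
  rw [hidx] at h2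
  have h5 : emb ((γ i : Γ₁) : H) * emb ((S₀.c g (f i) : Γ₁) : H) =
      emb ((S.c g i : Γ₁) : H) * emb ((γ (S.σ g i) : Γ₁) : H) := by
    have := h2
    rw [← mul_assoc, ← mul_assoc] at this
    exact mul_right_cancel this
  rw [← map_mul, ← map_mul] at h5
  have h6 : γ i * S₀.c g (f i) = S.c g i * γ (S.σ g i) := Subtype.ext (hemb h5)
  rw [h6, mul_inv_cancel_right]

theorem weighted_sum_eq_of_fibre (S S₀ : CosetSys emb Γ₁ Γ₂) (hemb : Function.Injective emb)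
    (hS₀ : S₀.Distinct) (z : G) (hz : ∀ x : G, z * x = x * z) (f : S.ι → S₀.ι) (γ : S.ι → Γ₁)
    (hrep : ∀ i, S.a i = z * emb ((γ i : Γ₁) : H) * S₀.a (f i)) (g : Γ₂)
    {K A : Type*} [Ring K] [AddCommGroup A] [Module K A] (w : S.ι → K)
    (hw : ∀ i, w (S.σ g i) = w i) (φ : Additive Γ₁ →+ A) :
    ∑ i : S.ι, w i • φ (Additive.ofMul (S.c g i)) =
      ∑ i : S.ι, w i • φ (Additive.ofMul (S₀.c g (f i))) := by
  set F : S.ι → A := fun i => w i • φ (Additive.ofMul (γ i)) with hF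
  have hterm : ∀ i, w i • φ (Additive.ofMul (S.c g i)) =
      F i + w i • φ (Additive.ofMul (S₀.c g (f i))) - F (S.σ g i) := by
    intro i
    rw [(cocycle_eq_of_fibre S S₀ hemb hS₀ z hz f γ hrep g i).2, ofMul_mul, ofMul_mul, ofMul_inv,
      map_add, map_add, map_neg, hF]
    simp only [hw, smul_add, smul_neg]
    abel
  simp_rw [hterm]
  rw [Finset.sum_sub_distrib, Finset.sum_add_distrib, Equiv.sum_comp (S.σ g) F]
  abel

/-! ### restriction of the source group -/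

/-- the same coset system with a smaller source group containing the values of the cocycle -/
def srcRestrict (S : CosetSys emb Γ₁ Γ₂) (Γ₁' : Subgroup H)
    (h : ∀ g i, ((S.c g i : Γ₁) : H) ∈ Γ₁') : CosetSys emb Γ₁' Γ₂ where
  ι := S.ι
  a := S.a
  σ := S.σ
  c g i := ⟨((S.c g i : Γ₁) : H), h g i⟩
  rel g i := S.rel g i
  hσ := S.hσ
  hc g g' i := by
    apply Subtype.ext
    show ((S.c (g * g') i : Γ₁) : H) = ((S.c g i : Γ₁) : H) * ((S.c g' (S.σ g i) : Γ₁) : H)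
    rw [S.hc]
    rfl

section SrcRestrict

variable (S : CosetSys emb Γ₁ Γ₂) (Γ₁' : Subgroup H) (h : ∀ g i, ((S.c g i : Γ₁) : H) ∈ Γ₁')

theorem srcRestrict_a (i : S.ι) : (srcRestrict S Γ₁' h).a i = S.a i := rfl

theorem srcRestrict_σ (g : Γ₂) (i : S.ι) : (srcRestrict S Γ₁' h).σ g i = S.σ g i := rfl

theorem coe_srcRestrict_c (g : Γ₂) (i : S.ι) :
    (((srcRestrict S Γ₁' h).c g i : Γ₁') : H) = ((S.c g i : Γ₁) : H) := rfl

theorem srcRestrict_distinct (hle : Γ₁' ≤ Γ₁) (hd : S.Distinct) :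
    (srcRestrict S Γ₁' h).Distinct :=
  fun i j γ hγ => hd i j ⟨(γ : H), hle γ.2⟩ hγ

theorem inv_srcRestrict {R : Type*} {w : S.ι → R} (hw : WSys.Inv S w) :
    WSys.Inv (srcRestrict S Γ₁' h) w := hw

/-- the weighted operator of the restricted system, indexed by `S.ι` -/
theorem wop_srcRestrict_apply {R : Type*} [CommRing R] {A : Type*} [AddCommGroup A] [Module R A]
    (w : S.ι → R) (hw : WSys.Inv S w) (φ : Additive Γ₁' →+ A) (g : Γ₂) :
    WSys.wop (srcRestrict S Γ₁' h) w (inv_srcRestrict S Γ₁' h hw) φ (Additive.ofMul g) =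
      ∑ i : S.ι, w i • φ (Additive.ofMul (⟨((S.c g i : Γ₁) : H), h g i⟩ : Γ₁')) := rfl

end SrcRestrict

end Fermat.Agent.GB.B5.Betti
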