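/-
GATE-B / B5, Betti side (helper65): two general tools for coset systems (GM/B/System).

* `op_eq_of_reps` : if `S'.a (e i) = z * emb (γ i) * S.a i` for a bijection `e` of the index sets,
  a central `z` and `γ i ∈ Γ₁`, then `S'.op = S.op`.  No compatibility of the permutations and no
  distinctness of the cosets is assumed (`weighted_sum_eq_of_reps` is the pointwise, weighted
  statement).
* `ofDistinct` : a coset system from a family of representatives with pairwise distinct cosets
  (`σ` and the cocycle laws are automatic).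
-/
import Mathlib
import Fermat.Agent.GM.B.System

set_option autoImplicit false
set_option linter.unusedSectionVars false

namespace Fermat.Agent.GB.B5.Betti

open Fermat.Agent.GM.B

variable {H G : Type*} [Group H] [Group G] {emb : H →* G} {Γ₁ Γ₂ : Subgroup H}

section Classes

variable (S : CosetSys emb Γ₁ Γ₂)

/-- two indices are equivalent if their representatives lie in the same `Γ₁`-coset -/
def cosetSetoid : Setoid S.ι where
  r i l := ∃ μ : Γ₁, S.a l = emb ((μ : Γ₁) : H) * S.a i
  iseqv :=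
    ⟨fun i => ⟨1, by rw [Subgroup.coe_one, map_one, one_mul]⟩,
      fun {i l} ⟨μ, h⟩ => ⟨μ⁻¹, by
        rw [h, ← mul_assoc, ← map_mul, Subgroup.coe_inv, inv_mul_cancel, map_one, one_mul]⟩,
      fun {i l m} ⟨μ, h⟩ ⟨ν, h'⟩ => ⟨ν * μ, by
        rw [h', h, ← mul_assoc, ← map_mul, Subgroup.coe_mul]⟩⟩

/-- a chosen index in the coset class of `i` -/
noncomputable def cosetRep (i : S.ι) : S.ι := (Quotient.mk (cosetSetoid S) i).out

theorem cosetRep_rel (i : S.ι) :
    ∃ μ : Γ₁, S.a i = emb ((μ : Γ₁) : H) * S.a (cosetRep S i) :=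
  Quotient.exact (Quotient.out_eq (Quotient.mk (cosetSetoid S) i))

theorem cosetRep_eq {i l : S.ι} (h : ∃ μ : Γ₁, S.a l = emb ((μ : Γ₁) : H) * S.a i) :
    cosetRep S i = cosetRep S l := by
  unfold cosetRep
  rw [Quotient.sound (s := cosetSetoid S) h]

/-- `a i = emb (cosetMu i) * a (cosetRep i)` -/
noncomputable def cosetMu (i : S.ι) : Γ₁ := (cosetRep_rel S i).choose

theorem cosetMu_spec (i : S.ι) :
    S.a i = emb ((cosetMu S i : Γ₁) : H) * S.a (cosetRep S i) :=
  (cosetRep_rel S i).choose_spec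

end Classes

section Reps

variable (S S' : CosetSys emb Γ₁ Γ₂)

/-- the key relation between the cocycles of two systems with the same cosets -/
theorem cocycle_rel_of_reps (hemb : Function.Injective emb) (e : S.ι ≃ S'.ι) (z : G)
    (hz : ∀ x : G, z * x = x * z) (γ : S.ι → Γ₁)
    (hrep : ∀ i, S'.a (e i) = z * emb ((γ i : Γ₁) : H) * S.a i) (g : Γ₂) (i : S.ι) :
    S'.c g (e i) * γ (e.symm (S'.σ g (e i))) * cosetMu S (e.symm (S'.σ g (e i))) =
      γ i * S.c g i * cosetMu S (S.σ g i) := by
  set k : S.ι := e.symm (S'.σ g (e i)) with hk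
  have hek : S'.σ g (e i) = e k := by rw [hk, Equiv.apply_symm_apply]
  have h1 := S'.rel g (e i)
  rw [hek, hrep, hrep, mul_assoc, S.rel g i] at h1
  -- z * emb γ_i * (emb c * a (σ i)) = emb c' * (z * emb γ_k * a k)
  have h2 : z * (emb ((γ i : Γ₁) : H) * (emb ((S.c g i : Γ₁) : H) * S.a (S.σ g i))) =
      z * (emb ((S'.c g (e i) : Γ₁) : H) * (emb ((γ k : Γ₁) : H) * S.a k)) := by
    calc z * (emb ((γ i : Γ₁) : H) * (emb ((S.c g i : Γ₁) : H) * S.a (S.σ g i)))
        = z * emb ((γ i : Γ₁) : H) * (emb ((S.c g i : Γ₁) : H) * S.a (S.σ g i)) :=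
          (mul_assoc _ _ _).symm
      _ = emb ((S'.c g (e i) : Γ₁) : H) * (z * emb ((γ k : Γ₁) : H) * S.a k) := h1
      _ = emb ((S'.c g (e i) : Γ₁) : H) * z * (emb ((γ k : Γ₁) : H) * S.a k) := by
          rw [mul_assoc z, ← mul_assoc]
      _ = z * emb ((S'.c g (e i) : Γ₁) : H) * (emb ((γ k : Γ₁) : H) * S.a k) := by rw [hz]
      _ = z * (emb ((S'.c g (e i) : Γ₁) : H) * (emb ((γ k : Γ₁) : H) * S.a k)) :=
          mul_assoc _ _ _
  have h3 := mul_left_cancel h2
  have h3' : (emb ((S'.c g (e i) : Γ₁) : H) * emb ((γ k : Γ₁) : H)) * S.a k =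
      (emb ((γ i : Γ₁) : H) * emb ((S.c g i : Γ₁) : H)) * S.a (S.σ g i) := by
    rw [mul_assoc, mul_assoc]
    exact h3.symm
  -- the classes of `σ i` and `k` agree
  have hcls : cosetRep S (S.σ g i) = cosetRep S k := by
    refine cosetRep_eq S ⟨(S'.c g (e i) * γ k)⁻¹ * (γ i * S.c g i), ?_⟩
    simp only [Subgroup.coe_mul, Subgroup.coe_inv, map_mul, map_inv]
    rw [mul_assoc, ← h3', inv_mul_cancel_left]
  have h4 := h3
  rw [cosetMu_spec S (S.σ g i), cosetMu_spec S k, hcls, ← mul_assoc, ← mul_assoc, ← mul_assoc,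
    ← mul_assoc] at h4
  have h5 := mul_right_cancel h4
  rw [← map_mul, ← map_mul, ← map_mul, ← map_mul] at h5
  have h6 := hemb h5
  apply Subtype.ext
  rw [Subgroup.coe_mul, Subgroup.coe_mul, Subgroup.coe_mul, Subgroup.coe_mul]
  exact h6.symm

/-- **same cosets, same weighted sums**: pointwise statement -/
theorem weighted_sum_eq_of_reps (hemb : Function.Injective emb) (e : S.ι ≃ S'.ι) (z : G)
    (hz : ∀ x : G, z * x = x * z) (γ : S.ι → Γ₁)
    (hrep : ∀ i, S'.a (e i) = z * emb ((γ i : Γ₁) : H) * S.a i) (g : Γ₂)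
    {K A : Type*} [Ring K] [AddCommGroup A] [Module K A] (w : S.ι → K)
    (hw : ∀ i, w (S.σ g i) = w i) (hw' : ∀ i, w (e.symm (S'.σ g (e i))) = w i)
    (φ : Additive Γ₁ →+ A) :
    ∑ i : S.ι, w i • φ (Additive.ofMul (S'.c g (e i))) =
      ∑ i : S.ι, w i • φ (Additive.ofMul (S.c g i)) := by
  set k : Equiv.Perm S.ι := (e.trans (S'.σ g)).trans e.symm with hk
  have hkapp : ∀ i, k i = e.symm (S'.σ g (e i)) := fun i => rfl
  set F : S.ι → A := fun i => w i • φ (Additive.ofMul (γ i)) with hF
  set M : S.ι → A := fun i => w i • φ (Additive.ofMul (cosetMu S i)) with hM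
  have hterm : ∀ i, w i • φ (Additive.ofMul (S'.c g (e i))) =
      w i • φ (Additive.ofMul (S.c g i)) + F i - F (k i) + M (S.σ g i) - M (k i) := by
    intro i
    have h := cocycle_rel_of_reps S S' hemb e z hz γ hrep g i
    have h' := congrArg (fun x : Γ₁ => φ (Additive.ofMul x)) h
    simp only [ofMul_mul, map_add] at h'
    have h'' : φ (Additive.ofMul (S'.c g (e i))) =
        φ (Additive.ofMul (γ i)) + φ (Additive.ofMul (S.c g i)) +
          φ (Additive.ofMul (cosetMu S (S.σ g i))) -
          φ (Additive.ofMul (γ (e.symm (S'.σ g (e i))))) -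
          φ (Additive.ofMul (cosetMu S (e.symm (S'.σ g (e i))))) := by
      rw [← h']
      abel
    rw [hF, hM]
    simp only [hkapp, hw, hw']
    rw [h'']
    simp only [smul_add, smul_sub]
    abel
  simp_rw [hterm]
  rw [Finset.sum_sub_distrib, Finset.sum_add_distrib, Finset.sum_sub_distrib,
    Finset.sum_add_distrib, Equiv.sum_comp k F, Equiv.sum_comp k M, Equiv.sum_comp (S.σ g) M]
  abel

/-- **Independence of the representatives, general form**: the operator of a coset system only
depends on the family of cosets `Γ₁ a i` (with multiplicities), up to a central element. -/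
theorem op_eq_of_reps (hemb : Function.Injective emb) (e : S.ι ≃ S'.ι) (z : G)
    (hz : ∀ x : G, z * x = x * z) (γ : S.ι → Γ₁)
    (hrep : ∀ i, S'.a (e i) = z * emb ((γ i : Γ₁) : H) * S.a i)
    {A : Type*} [AddCommGroup A] (φ : Additive Γ₁ →+ A) :
    S'.op A φ = S.op A φ := by
  refine AddMonoidHom.ext fun g => ?_
  obtain ⟨g, rfl⟩ : ∃ g' : Γ₂, Additive.ofMul g' = g := ⟨Additive.toMul g, rfl⟩
  rw [CosetSys.op_apply, CosetSys.op_apply, ← Equiv.sum_comp e]
  have h := weighted_sum_eq_of_reps S S' hemb e z hz γ hrep g (K := ℤ) (fun _ => (1 : ℤ))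
    (fun _ => rfl) (fun _ => rfl) φ
  simpa using h

end Reps

section OfDistinct

variable (hemb : Function.Injective emb) {ι : Type} [Fintype ι] (a : ι → G)
  (hex : ∀ (g : Γ₂) (i : ι), ∃ j : ι, ∃ c : Γ₁, a i * emb ((g : Γ₂) : H) = emb ((c : Γ₁) : H) * a j)
  (hdist : ∀ (i j : ι) (γ : Γ₁), a i = emb ((γ : Γ₁) : H) * a j → i = j)

/-- the index reached from `i` by `g` -/
noncomputable def odNext (g : Γ₂) (i : ι) : ι := (hex g i).choose

/-- the cocycle -/
noncomputable def odC (g : Γ₂) (i : ι) : Γ₁ := (hex g i).choose_spec.choose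

theorem od_rel (g : Γ₂) (i : ι) :
    a i * emb ((g : Γ₂) : H) = emb ((odC a hex g i : Γ₁) : H) * a (odNext a hex g i) :=
  (hex g i).choose_spec.choose_spec

include hdist in
theorem odNext_injective (g : Γ₂) : Function.Injective (odNext a hex g) := by
  intro i i' h
  have h1 := od_rel a hex g i
  have h2 := od_rel a hex g i'
  rw [h] at h1
  refine hdist i i' (odC a hex g i * (odC a hex g i')⁻¹) ?_
  have : a i = emb ((odC a hex g i : Γ₁) : H) * a (odNext a hex g i') *
      (emb ((g : Γ₂) : H))⁻¹ := by rw [← h1, mul_inv_cancel_right]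
  rw [this, Subgroup.coe_mul, Subgroup.coe_inv, map_mul, map_inv, mul_assoc, mul_assoc]
  congr 1
  rw [eq_inv_mul_iff_mul_eq, ← mul_assoc, ← h2, mul_inv_cancel_right]

include hemb hdist in
theorem odNext_mul (g h : Γ₂) (i : ι) :
    odNext a hex (g * h) i = odNext a hex h (odNext a hex g i) ∧
      odC a hex (g * h) i = odC a hex g i * odC a hex h (odNext a hex g i) := by
  have h1 := od_rel a hex (g * h) i
  have h2 := od_rel a hex g i
  have h3 := od_rel a hex h (odNext a hex g i)
  have h4 : a i * emb (((g * h : Γ₂) : Γ₂) : H) =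
      emb ((odC a hex g i * odC a hex h (odNext a hex g i) : Γ₁) : H) *
        a (odNext a hex h (odNext a hex g i)) := by
    rw [Subgroup.coe_mul, map_mul, ← mul_assoc, h2, mul_assoc, h3, ← mul_assoc, Subgroup.coe_mul,
      map_mul]
  have hidx : odNext a hex (g * h) i = odNext a hex h (odNext a hex g i) := by
    refine hdist _ _ ((odC a hex (g * h) i)⁻¹ *
      (odC a hex g i * odC a hex h (odNext a hex g i))) ?_
    rw [Subgroup.coe_mul, Subgroup.coe_inv, map_mul, map_inv, mul_assoc, ← h4, h1, ← mul_assoc,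
      inv_mul_cancel, one_mul]
  refine ⟨hidx, ?_⟩
  rw [h1, hidx] at h4
  have h5 := mul_right_cancel h4
  exact Subtype.ext (hemb h5)

/-- **a coset system from representatives with pairwise distinct cosets** -/
noncomputable def ofDistinct : CosetSys emb Γ₁ Γ₂ where
  ι := ι
  a := a
  σ g := Equiv.ofBijective (odNext a hex g)
    (Finite.injective_iff_bijective.mp (odNext_injective a hex hdist g))
  c := odC a hex
  rel g i := od_rel a hex g i
  hσ g h i := (odNext_mul hemb a hex hdist g h i).1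
  hc g h i := (odNext_mul hemb a hex hdist g h i).2

@[simp] theorem ofDistinct_a (i : ι) : (ofDistinct hemb a hex hdist).a i = a i := rfl

theorem ofDistinct_distinct : (ofDistinct hemb a hex hdist).Distinct :=
  fun i j γ h => hdist i j γ h

end OfDistinct

end Fermat.Agent.GB.B5.Betti
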