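/-
GATE-B / B5, Betti side (helper65): the coset systems entering the Betti form of (T2).

`Γ ≤ Γ₀(N r)` a subgroup satisfying `T2Group N r Γ`; on `Γ`:
* `idr Γ` : `r` copies of the identity;
* `diaSys hΓ δ hδ` : the sum of the conjugations by `δ u ∈ Γ₀(N r)`, `u ∈ (ZMod r)ˣ`;
* `s1Sys hrN hΓ` : the system with representatives `[1 b; N, 1 + N b]`, `b ∈ ZMod r`.
-/
import Fermat.Agent.GB.B5.Betti.SysTools
import Fermat.Agent.GB.B5.Betti.T2Mat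

set_option autoImplicit false
set_option linter.unusedSectionVars false

noncomputable section

namespace Fermat.Agent.GB.B5.Betti

open scoped MatrixGroups
open Matrix.SpecialLinearGroup CongruenceSubgroup
open Fermat.Agent.GB.B5 Fermat.Agent.GM.B

/-- the embedding `SL(2, ℤ) → GL(2, ℝ)` -/
local notation "emb" => (mapGL ℝ : SL(2, ℤ) →* GL (Fin 2) ℝ)

/-- the hypotheses on the group `Γ ≤ Γ₀(N r)`: it contains the matrices with `d ≡ 1 mod N r`,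
is normalised by `Γ₀(N r)`, and is stable under inverting `d mod r` (product form at `r`) -/
structure T2Group (N r : ℕ) (Γ : Subgroup SL(2, ℤ)) : Prop where
  le : Γ ≤ Gamma0 (N * r)
  one : ∀ g ∈ Gamma0 (N * r), ((g 1 1 : ℤ) : ZMod N) = 1 → ((g 1 1 : ℤ) : ZMod r) = 1 → g ∈ Γ
  conj : ∀ δ ∈ Gamma0 (N * r), ∀ g ∈ Γ, δ * g * δ⁻¹ ∈ Γ
  inv_r : ∀ g ∈ Γ, ∀ x ∈ Gamma0 (N * r), ((x 1 1 : ℤ) : ZMod N) = ((g 1 1 : ℤ) : ZMod N) →
    ((x 1 1 : ℤ) : ZMod r) * ((g 1 1 : ℤ) : ZMod r) = 1 → x ∈ Γ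

/-! ### entries of products in `SL(2, ℤ)` -/

theorem sl_mul_10 (X Y : SL(2, ℤ)) : (X * Y) 1 0 = X 1 0 * Y 0 0 + X 1 1 * Y 1 0 := by
  rw [Matrix.SpecialLinearGroup.coe_mul, Matrix.mul_apply, Fin.sum_univ_two]

theorem sl_mul_11 (X Y : SL(2, ℤ)) : (X * Y) 1 1 = X 1 0 * Y 0 1 + X 1 1 * Y 1 1 := by
  rw [Matrix.SpecialLinearGroup.coe_mul, Matrix.mul_apply, Fin.sum_univ_two]

theorem sl_inv_00 (Y : SL(2, ℤ)) : (Y⁻¹) 0 0 = Y 1 1 := by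
  rw [Matrix.SpecialLinearGroup.SL2_inv_expl]; rfl

theorem sl_inv_01 (Y : SL(2, ℤ)) : (Y⁻¹) 0 1 = - Y 0 1 := by
  rw [Matrix.SpecialLinearGroup.SL2_inv_expl]; rfl

theorem sl_inv_10 (Y : SL(2, ℤ)) : (Y⁻¹) 1 0 = - Y 1 0 := by
  rw [Matrix.SpecialLinearGroup.SL2_inv_expl]; rfl

theorem sl_inv_11 (Y : SL(2, ℤ)) : (Y⁻¹) 1 1 = Y 0 0 := by
  rw [Matrix.SpecialLinearGroup.SL2_inv_expl]; rfl

theorem sl_det (X : SL(2, ℤ)) : X 0 0 * X 1 1 - X 0 1 * X 1 0 = 1 := by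
  have := X.det_coe
  rwa [Matrix.det_fin_two] at this

theorem mem_Gamma0_iff_dvd {M : ℕ} {X : SL(2, ℤ)} : X ∈ Gamma0 M ↔ (M : ℤ) ∣ X 1 0 := by
  rw [Gamma0_mem]
  exact ZMod.intCast_zmod_eq_zero_iff_dvd _ _

section Systems

variable {N r : ℕ} [Fact r.Prime] {Γ : Subgroup SL(2, ℤ)}

/-- `r` copies of the identity -/
def idr (r : ℕ) [Fact r.Prime] (Γ : Subgroup SL(2, ℤ)) : CosetSys emb Γ Γ where
  ι := ZMod r
  a _ := 1
  σ _ := 1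
  c g _ := g
  rel g _ := by rw [one_mul, mul_one]
  hσ _ _ _ := rfl
  hc _ _ _ := rfl


theorem idr_op {A : Type*} [AddCommGroup A] (φ : Additive Γ →+ A) :
    (idr r Γ).op A φ = r • φ := by
  refine AddMonoidHom.ext fun g => ?_
  obtain ⟨g, rfl⟩ : ∃ g' : Γ, Additive.ofMul g' = g := ⟨Additive.toMul g, rfl⟩
  rw [CosetSys.op_apply]
  show ∑ _i : ZMod r, φ (Additive.ofMul g) = _
  rw [Finset.sum_const, Finset.card_univ, ZMod.card, AddMonoidHom.smul_apply]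

/-- the sum of the conjugations by `δ u`, `u ∈ (ZMod r)ˣ` -/
def diaSys (hΓ : T2Group N r Γ) (δ : (ZMod r)ˣ → SL(2, ℤ)) (hδ : ∀ u, δ u ∈ Gamma0 (N * r)) :
    CosetSys emb Γ Γ where
  ι := (ZMod r)ˣ
  a u := emb (δ u)
  σ _ := 1
  c g u := ⟨δ u * (g : SL(2, ℤ)) * (δ u)⁻¹, hΓ.conj (δ u) (hδ u) g g.2⟩
  rel g u := by
    rw [← map_mul, ← map_mul]
    congr 1
    show δ u * (g : SL(2, ℤ)) = δ u * (g : SL(2, ℤ)) * (δ u)⁻¹ * δ u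
    rw [inv_mul_cancel_right]
  hσ _ _ _ := rfl
  hc g h u := by
    apply Subtype.ext
    show δ u * ((g * h : Γ) : SL(2, ℤ)) * (δ u)⁻¹ =
      (δ u * (g : SL(2, ℤ)) * (δ u)⁻¹) * (δ u * (h : SL(2, ℤ)) * (δ u)⁻¹)
    rw [Subgroup.coe_mul]
    group

theorem diaSys_op_apply (hΓ : T2Group N r Γ) (δ : (ZMod r)ˣ → SL(2, ℤ))
    (hδ : ∀ u, δ u ∈ Gamma0 (N * r)) {A : Type*} [AddCommGroup A] (φ : Additive Γ →+ A) (g : Γ) :
    (diaSys hΓ δ hδ).op A φ (Additive.ofMul g) =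
      ∑ u : (ZMod r)ˣ, φ (Additive.ofMul (⟨δ u * (g : SL(2, ℤ)) * (δ u)⁻¹,
        hΓ.conj (δ u) (hδ u) g g.2⟩ : Γ)) := rfl

/-! ### the system `[1 b; N, 1 + N b]` -/

theorem s1_exists (hrN : ¬ r ∣ N) (hΓ : T2Group N r Γ) (g : Γ) (b : ZMod r) :
    ∃ b' : ZMod r, ∃ c : Γ, emb (gp N 1 ((b.val : ℕ) : ℤ)) * emb ((g : Γ) : SL(2, ℤ)) =
      emb ((c : Γ) : SL(2, ℤ)) * emb (gp N 1 ((b'.val : ℕ) : ℤ)) := by
  have : NeZero r := ⟨(Fact.out : r.Prime).ne_zero⟩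
  have hN : (N : ZMod r) ≠ 0 := by
    rw [Ne, ZMod.natCast_eq_zero_iff]
    exact hrN
  set g' : SL(2, ℤ) := (g : SL(2, ℤ)) with hg'
  have hgΛ : g' ∈ Gamma0 (N * r) := hΓ.le g.2
  obtain ⟨m, hm⟩ := mem_Gamma0_iff_dvd.mp hgΛ
  have hdet := sl_det g'
  set B : ℤ := ((b.val : ℕ) : ℤ) with hB
  set X : SL(2, ℤ) := gp N 1 B * g' with hX
  have hX10 : X 1 0 = (N : ℤ) * 1 * g' 0 0 + (1 + (N : ℤ) * 1 * B) * g' 1 0 := by
    rw [hX, sl_mul_10, gp_apply_10, gp_apply_11]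
  have hX11 : X 1 1 = (N : ℤ) * 1 * g' 0 1 + (1 + (N : ℤ) * 1 * B) * g' 1 1 := by
    rw [hX, sl_mul_11, gp_apply_10, gp_apply_11]
  -- facts modulo `r`
  have hc0r : ((g' 1 0 : ℤ) : ZMod r) = 0 := by
    rw [hm]; push_cast; rw [ZMod.natCast_self]; ring
  have hadr : ((g' 0 0 : ℤ) : ZMod r) * ((g' 1 1 : ℤ) : ZMod r) = 1 := by
    have := congrArg (fun x : ℤ => (x : ZMod r)) hdet
    simp only [Int.cast_sub, Int.cast_mul, Int.cast_one, hc0r, mul_zero, sub_zero] at this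
    exact this
  have ha0 : ((g' 0 0 : ℤ) : ZMod r) ≠ 0 := left_ne_zero_of_mul_eq_one hadr
  set b' : ZMod r := (((X 1 1 : ℤ) : ZMod r) / ((g' 0 0 : ℤ) : ZMod r) - 1) / (N : ZMod r)
    with hb'
  set B' : ℤ := ((b'.val : ℕ) : ℤ) with hB'
  have hB'r : ((B' : ℤ) : ZMod r) = b' := by
    rw [hB', Int.cast_natCast, ZMod.natCast_zmod_val]
  set c : SL(2, ℤ) := X * (gp N 1 B')⁻¹ with hc
  have hc10 : c 1 0 = X 1 0 * (1 + (N : ℤ) * 1 * B') - X 1 1 * ((N : ℤ) * 1) := by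
    rw [hc, sl_mul_10, sl_inv_00, sl_inv_10, gp_apply_11, gp_apply_10]; ring
  have hc11 : c 1 1 = - (X 1 0 * B') + X 1 1 := by
    rw [hc, sl_mul_11, sl_inv_01, sl_inv_11, gp_apply_01, gp_apply_00]; ring
  have hX10r : ((X 1 0 : ℤ) : ZMod r) = (N : ZMod r) * ((g' 0 0 : ℤ) : ZMod r) := by
    rw [hX10]; push_cast; rw [hc0r]; ring
  have hcΛ : c ∈ Gamma0 (N * r) := by
    rw [mem_Gamma0_iff_dvd]
    have hcop : IsCoprime (N : ℤ) (r : ℤ) :=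
      Nat.isCoprime_iff_coprime.mpr
        ((Nat.Prime.coprime_iff_not_dvd (Fact.out : r.Prime)).mpr hrN).symm
    have h1 : (N : ℤ) ∣ c 1 0 := by
      refine ⟨(g' 0 0 + (1 + (N : ℤ) * B) * (r : ℤ) * m) * (1 + (N : ℤ) * B') - X 1 1, ?_⟩
      rw [hc10, hX10, hm]
      push_cast
      ring
    have h2 : (r : ℤ) ∣ c 1 0 := by
      rw [← ZMod.intCast_zmod_eq_zero_iff_dvd, hc10]
      push_cast
      rw [hX10r, hB'r, hb']
      field_simp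
      ring
    have := IsCoprime.mul_dvd hcop h1 h2
    rwa [← Nat.cast_mul] at this
  have hcN : ((c 1 1 : ℤ) : ZMod N) = ((g' 1 1 : ℤ) : ZMod N) := by
    rw [hc11, hX10, hX11, hm]
    push_cast
    rw [ZMod.natCast_self]
    ring
  have hcr : ((c 1 1 : ℤ) : ZMod r) * ((g' 1 1 : ℤ) : ZMod r) = 1 := by
    have h3 : ((c 1 1 : ℤ) : ZMod r) = ((g' 0 0 : ℤ) : ZMod r) := by
      rw [hc11]
      push_cast
      rw [hX10r, hB'r, hb']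
      field_simp
      ring
    rw [h3, hadr]
  refine ⟨b', ⟨c, hΓ.inv_r g' g.2 c hcΛ hcN hcr⟩, ?_⟩
  rw [← map_mul, ← map_mul]
  congr 1
  show gp N 1 B * g' = X * (gp N 1 B')⁻¹ * gp N 1 B'
  rw [inv_mul_cancel_right]

theorem s1_distinct (hrN : ¬ r ∣ N) (hΓ : T2Group N r Γ) (b b' : ZMod r) (γ : Γ)
    (h : emb (gp N 1 ((b.val : ℕ) : ℤ)) =
      emb ((γ : Γ) : SL(2, ℤ)) * emb (gp N 1 ((b'.val : ℕ) : ℤ))) : b = b' := by
  have : NeZero r := ⟨(Fact.out : r.Prime).ne_zero⟩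
  have hN : (N : ZMod r) ≠ 0 := by
    rw [Ne, ZMod.natCast_eq_zero_iff]
    exact hrN
  rw [← map_mul] at h
  have h1 := mapGL_injective (R := ℤ) (S := ℝ) h
  have h2 : ((γ : Γ) : SL(2, ℤ)) =
      gp N 1 ((b.val : ℕ) : ℤ) * (gp N 1 ((b'.val : ℕ) : ℤ))⁻¹ := by
    rw [h1, mul_inv_cancel_right]
  have hγΛ := hΓ.le γ.2
  rw [mem_Gamma0_iff_dvd, h2, sl_mul_10, sl_inv_00, sl_inv_10, gp_apply_10, gp_apply_11,
    gp_apply_11, gp_apply_10] at hγΛ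
  have h3 : (r : ℤ) ∣ (N : ℤ) * 1 * (1 + (N : ℤ) * 1 * ((b'.val : ℕ) : ℤ)) +
      (1 + (N : ℤ) * 1 * ((b.val : ℕ) : ℤ)) * -((N : ℤ) * 1) :=
    Dvd.dvd.trans ⟨N, by push_cast; ring⟩ hγΛ
  rw [← ZMod.intCast_zmod_eq_zero_iff_dvd] at h3
  push_cast at h3
  rw [ZMod.natCast_zmod_val, ZMod.natCast_zmod_val] at h3
  have h4 : (N : ZMod r) * (N : ZMod r) * (b' - b) = 0 := by
    rw [← h3]; ring
  have h5 : b' - b = 0 := by
    rcases mul_eq_zero.mp h4 with h | h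
    · exact absurd (mul_self_eq_zero.mp h) hN
    · exact h
  exact (sub_eq_zero.mp h5).symm

/-- the coset system with representatives `[1 b; N, 1 + N b]`, `b ∈ ZMod r`, on `Γ` -/
def s1Sys (hrN : ¬ r ∣ N) (hΓ : T2Group N r Γ) : CosetSys emb Γ Γ :=
  ofDistinct (mapGL_injective (R := ℤ) (S := ℝ)) (ι := ZMod r)
    (fun b => emb (gp N 1 ((b.val : ℕ) : ℤ))) (s1_exists hrN hΓ)
    (s1_distinct hrN hΓ)

theorem s1Sys_a (hrN : ¬ r ∣ N) (hΓ : T2Group N r Γ) (b : ZMod r) :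
    (s1Sys hrN hΓ).a b = emb (gp N 1 ((b.val : ℕ) : ℤ)) := rfl

end Systems

end Fermat.Agent.GB.B5.Betti

end
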