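/-
GATE-B / B5, Betti side (helper65): **(T2) on `Hom(Γ, A)`**.

`r` prime, `r ∤ N`, `Γ ≤ Γ₀(N r)` with `T2Group N r Γ`.  For ANY coset system `S` from `Γ` to `Γ`
whose representatives are the triple products `[r 0; 0 1] [1 0; N r j 1] [1 b; 0 r]`
(`(j, b) ∈ ZMod r × ZMod r`; this is `U_r ∘ Tr ∘ B_r`):

* `op_eq_refSys_op` : `S.op φ = r • φ + (s1Sys).op ((diaSys δ).op φ)` for all `φ`, where
  `diaSys δ` is the sum of the conjugations by `δ u ∈ Γ₀(N r)`, `d(δ u) ≡ 1 mod N`, `≡ u mod r`;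
* `raise_trace_lower_betti` : `S.op φ = r • φ` when `φ (δ g δ⁻¹) = ε u • φ g` for such `δ` and
  `∑ u, ε u = 0`.
-/
import Fermat.Agent.GB.B5.Betti.T2Sys
import Fermat.Agent.GM.B5.Sum

set_option autoImplicit false
set_option linter.unusedSectionVars false

noncomputable section

namespace Fermat.Agent.GB.B5.Betti

open scoped MatrixGroups
open Matrix.SpecialLinearGroup CongruenceSubgroup
open Fermat.Agent.GB.B5 Fermat.Agent.GM.B Fermat.Agent.GM.B5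

/-- the embedding `SL(2, ℤ) → GL(2, ℝ)` -/
local notation "emb" => (mapGL ℝ : SL(2, ℤ) →* GL (Fin 2) ℝ)

variable {N r : ℕ} [Fact r.Prime] {Γ : Subgroup SL(2, ℤ)}

/-- the index bijection: `(0, b)` on the left, `(u, b0) ↦ (u, b0 + (u - 1) / (N u))` -/
def eMain (N r : ℕ) [Fact r.Prime] : ZMod r ⊕ ((ZMod r)ˣ × ZMod r) ≃ ZMod r × ZMod r where
  toFun := Sum.elim (fun b => (0, b))
    (fun p => ((p.1 : ZMod r), p.2 + ((p.1 : ZMod r) - 1) / ((N : ZMod r) * (p.1 : ZMod r))))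
  invFun q := if h : q.1 = 0 then Sum.inl q.2
    else Sum.inr (Units.mk0 q.1 h, q.2 - (q.1 - 1) / ((N : ZMod r) * q.1))
  left_inv := by
    rintro (b | ⟨u, b0⟩)
    · simp
    · simp [Units.ne_zero u]
  right_inv := by
    rintro ⟨j, b⟩
    by_cases h : j = 0
    · simp [h]
    · simp [h]

theorem eMain_inl (b : ZMod r) : eMain N r (Sum.inl b) = (0, b) := rfl

theorem eMain_inr (u : (ZMod r)ˣ) (b0 : ZMod r) : eMain N r (Sum.inr (u, b0)) =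
    ((u : ZMod r), b0 + ((u : ZMod r) - 1) / ((N : ZMod r) * (u : ZMod r))) := rfl

/-- the comparison system: `r` copies of the identity, plus (conjugations by `δ u`, then
`[1 b; N, 1 + N b]`) -/
def refSys (hrN : ¬ r ∣ N) (hΓ : T2Group N r Γ) (δ : (ZMod r)ˣ → SL(2, ℤ))
    (hδ : ∀ u, δ u ∈ Gamma0 (N * r)) : CosetSys emb Γ Γ :=
  sumSys (idr r Γ) ((diaSys hΓ δ hδ).comp (s1Sys hrN hΓ))

theorem refSys_op (hrN : ¬ r ∣ N) (hΓ : T2Group N r Γ) (δ : (ZMod r)ˣ → SL(2, ℤ))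
    (hδ : ∀ u, δ u ∈ Gamma0 (N * r)) {A : Type*} [AddCommGroup A] (φ : Additive Γ →+ A) :
    (refSys hrN hΓ δ hδ).op A φ =
      r • φ + (s1Sys hrN hΓ).op A ((diaSys hΓ δ hδ).op A φ) := by
  rw [refSys, sumSys_op, idr_op, CosetSys.op_comp]

/-! ### the connecting elements lie in `Γ` -/

theorem gp_zero_mem (hΓ : T2Group N r Γ) (B : ℤ) : gp N 0 B ∈ Γ := by
  refine hΓ.one _ ?_ ?_ ?_
  · rw [mem_Gamma0_iff_dvd, gp_apply_10, mul_zero]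
    exact dvd_zero _
  · rw [gp_apply_11]; simp
  · rw [gp_apply_11]; simp

theorem conn_mem (hrN : ¬ r ∣ N) (hΓ : T2Group N r Γ) (u : (ZMod r)ˣ) (b0 : ZMod r)
    (Y : SL(2, ℤ)) (hY : Y ∈ Gamma0 (N * r)) (hYN : ((Y 1 1 : ℤ) : ZMod N) = 1)
    (hYr : ((Y 1 1 : ℤ) : ZMod r) = (u : ZMod r)) :
    gp N ((((u : ZMod r).val : ℕ) : ℤ))
        ((((b0 + ((u : ZMod r) - 1) / ((N : ZMod r) * (u : ZMod r))).val : ℕ) : ℤ)) *
      (gp N 1 ((b0.val : ℕ) : ℤ))⁻¹ * Y⁻¹ ∈ Γ := by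
  have : NeZero r := ⟨(Fact.out : r.Prime).ne_zero⟩
  have hN : (N : ZMod r) ≠ 0 := by
    rw [Ne, ZMod.natCast_eq_zero_iff]
    exact hrN
  have hu : (u : ZMod r) ≠ 0 := Units.ne_zero u
  set j : ZMod r := (u : ZMod r) with hj
  set b : ZMod r := b0 + (j - 1) / ((N : ZMod r) * j) with hb
  set J : ℤ := ((j.val : ℕ) : ℤ) with hJ
  set B : ℤ := ((b.val : ℕ) : ℤ) with hB
  set B0 : ℤ := ((b0.val : ℕ) : ℤ) with hB0
  have hJr : ((J : ℤ) : ZMod r) = j := by rw [hJ, Int.cast_natCast, ZMod.natCast_zmod_val]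
  have hBr : ((B : ℤ) : ZMod r) = b := by rw [hB, Int.cast_natCast, ZMod.natCast_zmod_val]
  have hB0r : ((B0 : ℤ) : ZMod r) = b0 := by rw [hB0, Int.cast_natCast, ZMod.natCast_zmod_val]
  have hz : ((((J - 1) + (N : ℤ) * J * (B0 - B) : ℤ)) : ZMod r) = 0 := by
    push_cast
    rw [hJr, hBr, hB0r, hb]
    field_simp
    ring
  obtain ⟨e, he⟩ := (ZMod.intCast_zmod_eq_zero_iff_dvd _ _).mp hz
  have hgp : gp N J B * (gp N 1 B0)⁻¹ = dl N r J B B0 e he := by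
    rw [gp_eq_mul N r J B B0 e he, mul_inv_cancel_right]
  rw [hgp]
  set D : SL(2, ℤ) := dl N r J B B0 e he with hD
  have hDΛ : D ∈ Gamma0 (N * r) := by
    rw [mem_Gamma0_iff_dvd, hD, dl_apply_10]
    exact ⟨e, by push_cast; ring⟩
  have hμΛ : D * Y⁻¹ ∈ Gamma0 (N * r) := mul_mem hDΛ (inv_mem hY)
  -- facts on `Y`
  obtain ⟨m, hm⟩ := mem_Gamma0_iff_dvd.mp hY
  have hdetY := sl_det Y
  have hY10N : ((Y 1 0 : ℤ) : ZMod N) = 0 := by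
    rw [hm]; push_cast; rw [ZMod.natCast_self]; ring
  have hY10r : ((Y 1 0 : ℤ) : ZMod r) = 0 := by
    rw [hm]; push_cast; rw [ZMod.natCast_self]; ring
  have hY00N : ((Y 0 0 : ℤ) : ZMod N) = 1 := by
    have := congrArg (fun x : ℤ => (x : ZMod N)) hdetY
    simp only [Int.cast_sub, Int.cast_mul, Int.cast_one, hY10N, mul_zero, sub_zero, hYN,
      mul_one] at this
    exact this
  have hY00r : ((Y 0 0 : ℤ) : ZMod r) * j = 1 := by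
    have := congrArg (fun x : ℤ => (x : ZMod r)) hdetY
    simp only [Int.cast_sub, Int.cast_mul, Int.cast_one, hY10r, mul_zero, sub_zero, hYr] at this
    exact this
  have hμ11 : (D * Y⁻¹) 1 1 = - (D 1 0 * Y 0 1) + D 1 1 * Y 0 0 := by
    rw [sl_mul_11, sl_inv_01, sl_inv_11]; ring
  refine hΓ.one _ hμΛ ?_ ?_
  · rw [hμ11, hD, dl_apply_10, dl_apply_11]
    push_cast
    rw [ZMod.natCast_self, hY00N]
    ring
  · rw [hμ11, hD, dl_apply_10, dl_apply_11]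
    push_cast
    rw [ZMod.natCast_self, hJr, hBr, hB0r, hb]
    have h1 : (1 + (N : ZMod r) * j * (b0 + (j - 1) / ((N : ZMod r) * j) - b0)) = j := by
      field_simp
      ring
    rw [h1, mul_zero, zero_mul, zero_mul, neg_zero, zero_add, mul_comm]
    exact hY00r

/-- the connecting elements `γ i ∈ Γ` -/
def connΓ (hrN : ¬ r ∣ N) (hΓ : T2Group N r Γ) (δ : (ZMod r)ˣ → SL(2, ℤ))
    (hδ : ∀ u, δ u ∈ Gamma0 (N * r)) (hδN : ∀ u, ((δ u 1 1 : ℤ) : ZMod N) = 1)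
    (hδr : ∀ u, ((δ u 1 1 : ℤ) : ZMod r) = (u : ZMod r)) :
    ZMod r ⊕ ((ZMod r)ˣ × ZMod r) → Γ
  | Sum.inl b => ⟨gp N 0 ((b.val : ℕ) : ℤ), gp_zero_mem hΓ _⟩
  | Sum.inr p => ⟨gp N ((((p.1 : ZMod r).val : ℕ) : ℤ))
        ((((p.2 + ((p.1 : ZMod r) - 1) / ((N : ZMod r) * (p.1 : ZMod r))).val : ℕ) : ℤ)) *
      (gp N 1 ((p.2.val : ℕ) : ℤ))⁻¹ * (δ p.1)⁻¹,
      conn_mem hrN hΓ p.1 p.2 (δ p.1) (hδ p.1) (hδN p.1) (hδr p.1)⟩

/-- the representatives of the comparison system -/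
def refA (δ : (ZMod r)ˣ → SL(2, ℤ)) : ZMod r ⊕ ((ZMod r)ˣ × ZMod r) → GL (Fin 2) ℝ :=
  Sum.elim (fun _ => 1) (fun p => emb (δ p.1) * emb (gp N 1 ((p.2.val : ℕ) : ℤ)))

/-- the triple product attached to a pair `(j, b)` -/
def tripleOf (N r : ℕ) (q : ZMod r × ZMod r) : GL (Fin 2) ℝ :=
  glOf r 0 0 1 * glOf 1 0 ((N : ℤ) * (r : ℤ) * ((q.1.val : ℕ) : ℤ)) 1 *
    glOf 1 ((q.2.val : ℕ) : ℤ) 0 r

theorem tripleOf_eMain (hrN : ¬ r ∣ N) (hΓ : T2Group N r Γ) (δ : (ZMod r)ˣ → SL(2, ℤ))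
    (hδ : ∀ u, δ u ∈ Gamma0 (N * r)) (hδN : ∀ u, ((δ u 1 1 : ℤ) : ZMod N) = 1)
    (hδr : ∀ u, ((δ u 1 1 : ℤ) : ZMod r) = (u : ZMod r))
    (i : ZMod r ⊕ ((ZMod r)ˣ × ZMod r)) :
    tripleOf N r (eMain N r i) =
      zr r * emb ((connΓ hrN hΓ δ hδ hδN hδr i : Γ) : SL(2, ℤ)) * refA (N := N) δ i := by
  have hr0 : (r : ℤ) ≠ 0 := by exact_mod_cast (Fact.out : r.Prime).ne_zero
  rcases i with b | ⟨u, b0⟩
  · rw [eMain_inl]
    show glOf r 0 0 1 * glOf 1 0 ((N : ℤ) * (r : ℤ) * ((((0 : ZMod r).val : ℕ) : ℤ))) 1 *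
      glOf 1 ((b.val : ℕ) : ℤ) 0 r = zr r * emb (gp N 0 ((b.val : ℕ) : ℤ)) * 1
    rw [ZMod.val_zero, Nat.cast_zero, mul_one]
    exact triple_eq hr0 N 0 _
  · rw [eMain_inr]
    show glOf r 0 0 1 * glOf 1 0 ((N : ℤ) * (r : ℤ) * ((((u : ZMod r).val : ℕ) : ℤ))) 1 *
      glOf 1 ((((b0 + ((u : ZMod r) - 1) / ((N : ZMod r) * (u : ZMod r))).val : ℕ) : ℤ)) 0 r =
      zr r * emb (gp N ((((u : ZMod r).val : ℕ) : ℤ))
        ((((b0 + ((u : ZMod r) - 1) / ((N : ZMod r) * (u : ZMod r))).val : ℕ) : ℤ)) *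
        (gp N 1 ((b0.val : ℕ) : ℤ))⁻¹ * (δ u)⁻¹) *
        (emb (δ u) * emb (gp N 1 ((b0.val : ℕ) : ℤ)))
    rw [triple_eq hr0, mul_assoc (zr r), ← map_mul, ← map_mul]
    congr 2
    group

/-- **(T2) on `Hom(Γ, A)`, operator form**: any coset system with the representatives of
`U_r ∘ Tr ∘ B_r` defines the same operator as the comparison system. -/
theorem op_eq_refSys_op (hrN : ¬ r ∣ N) (hΓ : T2Group N r Γ) (δ : (ZMod r)ˣ → SL(2, ℤ))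
    (hδ : ∀ u, δ u ∈ Gamma0 (N * r)) (hδN : ∀ u, ((δ u 1 1 : ℤ) : ZMod N) = 1)
    (hδr : ∀ u, ((δ u 1 1 : ℤ) : ZMod r) = (u : ZMod r))
    (S : CosetSys emb Γ Γ) (eS : S.ι ≃ ZMod r × ZMod r)
    (hS : ∀ i, S.a i = tripleOf N r (eS i))
    {A : Type*} [AddCommGroup A] (φ : Additive Γ →+ A) :
    S.op A φ = r • φ + (s1Sys hrN hΓ).op A ((diaSys hΓ δ hδ).op A φ) := by
  have hr0 : (r : ℤ) ≠ 0 := by exact_mod_cast (Fact.out : r.Prime).ne_zero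
  rw [← refSys_op]
  refine op_eq_of_reps (refSys hrN hΓ δ hδ) S (mapGL_injective (R := ℤ) (S := ℝ))
    ((eMain N r).trans eS.symm) (zr r) (zr_comm hr0) (connΓ hrN hΓ δ hδ hδN hδr) ?_ φ
  intro i
  have h1 : eS (((eMain N r).trans eS.symm) i) = eMain N r i := eS.apply_symm_apply _
  exact (hS _).trans ((congrArg (tripleOf N r) h1).trans
    (tripleOf_eMain hrN hΓ δ hδ hδN hδr i))

/-- **(T2) on `Hom(Γ, A)`**: `U_r ∘ Tr ∘ B_r = r` on the classes on which the conjugations by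
`Γ₀(N r)` act through a function `ε` of `d mod r` with `∑ u, ε u = 0` (e.g. a nontrivial
character). -/
theorem raise_trace_lower_betti (hrN : ¬ r ∣ N) (hΓ : T2Group N r Γ)
    (S : CosetSys emb Γ Γ) (eS : S.ι ≃ ZMod r × ZMod r)
    (hS : ∀ i, S.a i = tripleOf N r (eS i))
    {K A : Type*} [CommRing K] [AddCommGroup A] [Module K A]
    (ε : (ZMod r)ˣ → K) (hε : ∑ u, ε u = 0) (φ : Additive Γ →+ A)
    (hφ : ∀ (δ : SL(2, ℤ)) (hδ : δ ∈ Gamma0 (N * r)) (u : (ZMod r)ˣ),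
      ((δ 1 1 : ℤ) : ZMod N) = 1 → ((δ 1 1 : ℤ) : ZMod r) = (u : ZMod r) → ∀ g : Γ,
        φ (Additive.ofMul (⟨δ * (g : SL(2, ℤ)) * δ⁻¹, hΓ.conj δ hδ g g.2⟩ : Γ)) =
          ε u • φ (Additive.ofMul g)) :
    S.op A φ = r • φ := by
  choose δ hδ hδN hδr using fun u : (ZMod r)ˣ => exists_delta (N := N) hrN u
  rw [op_eq_refSys_op hrN hΓ δ hδ hδN hδr S eS hS φ]
  have h0 : (diaSys hΓ δ hδ).op A φ = 0 := by
    refine AddMonoidHom.ext fun g => ?_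
    obtain ⟨g, rfl⟩ : ∃ g' : Γ, Additive.ofMul g' = g := ⟨Additive.toMul g, rfl⟩
    rw [diaSys_op_apply]
    simp_rw [hφ (δ _) (hδ _) _ (hδN _) (hδr _) g]
    rw [← Finset.sum_smul, hε, zero_smul]
    rfl
  rw [h0, map_zero, add_zero]

end Fermat.Agent.GB.B5.Betti

end
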