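/-
GATE-B / B5, Betti side (helper65): **the trace (corestriction) from level `N r` to level `N`
for `r ∣ N`**, on `Γ₀` and on the groups `Γ_H`.

For `r ∣ N` the index of `Γ₀(N r)` in `Γ₀(N)` is `r`, with representatives `[1 0; N j 1]`,
`j ∈ ZMod r`.  (For `r ∤ N` the index is `r + 1`: that case is `GM/B/Degeneracy.coresSys`.)

* `lowT c = [1 0; c 1]`, `trA N r j = emb [1 0; N j 1]`;
* `trSys0 hrN : CosetSys embR (Gamma0 (N * r)) (Gamma0 N)` (built by `SysTools.ofDistinct`),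
  `trSys0_a`, `trSys0_distinct`, `coe_trSys0_c` (the cocycle is `[1 0; N j 1] g [1 0; N j' 1]⁻¹`),
  `trSys0_c_apply_11`, `dUnits_trSys0_c` (the cocycle preserves `d mod N`);
* `trSysH θ hrN : CosetSys embR (GammaH (liftθ θ)) (GammaH θ)` and the operator
  `TrH θ hrN A : Hom(Γ_H(N r), A) → Hom(Γ_H(N), A)`; `TrH_apply`;
* `brSysH θ`, `BrH θ A : Hom(Γ_H(N), A) → Hom(Γ_H(N r), A)` : `B_r` (`φ ↦ φ (δ · δ⁻¹)`,
  `δ = diag(r, 1)`), the kernel version of `GM/B/Degeneracy.resDSys`;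
* `resSysH θ`, `ResH θ A` : restriction, and `TrH_ResH : Tr ∘ Res = r`.
-/
import Fermat.Agent.GB.B5.Betti.T2Sys
import Fermat.Agent.GB.B4.Twist.RPsi

set_option autoImplicit false
set_option linter.unusedSectionVars false

noncomputable section

namespace Fermat.Agent.GB.B5.Betti

open scoped MatrixGroups
open Matrix.SpecialLinearGroup CongruenceSubgroup
open Fermat.Agent.GB.B5 Fermat.Agent.GM.B Fermat.Agent.GM.Amalgam Fermat.Agent.GM.EisClass
open Fermat.Agent.GB.B3 Fermat.Agent.GB.B3.EisGamma0 Fermat.Agent.GB.B3.GamH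
open Fermat.Agent.GB.B4.Twist Fermat.Agent.GB.B4.Twist.KerSys2 Fermat.Agent.GB.B4.Twist.RPsi

/-- the lower unipotent matrix `[1 0; c 1]` -/
def lowT (c : ℤ) : SL(2, ℤ) := slOf 1 0 c 1 (by ring)

@[simp] theorem lowT_apply_00 (c : ℤ) : (lowT c) 0 0 = 1 := rfl
@[simp] theorem lowT_apply_01 (c : ℤ) : (lowT c) 0 1 = 0 := rfl
@[simp] theorem lowT_apply_10 (c : ℤ) : (lowT c) 1 0 = c := rfl
@[simp] theorem lowT_apply_11 (c : ℤ) : (lowT c) 1 1 = 1 := rfl

theorem mapGL_lowT (c : ℤ) : (mapGL ℝ (lowT c) : GL (Fin 2) ℝ) = glOf 1 0 c 1 :=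
  mapGL_slOf _ _ _ _ _

/-- the representatives `[1 0; N j 1]` of `Γ₀(N r) \ Γ₀(N)` -/
def trA (N r : ℕ) (j : ZMod r) : GL (Fin 2) ℝ :=
  embR (lowT ((N : ℤ) * ((j.val : ℕ) : ℤ)))

theorem trA_eq_glOf (N r : ℕ) (j : ZMod r) :
    trA N r j = glOf 1 0 ((N : ℤ) * ((j.val : ℕ) : ℤ)) 1 := mapGL_lowT _

section Sys0

variable {N r : ℕ} [NeZero r] [NeZero N]

theorem trA_exists (hrN : r ∣ N) (g : Gamma0 N) (j : ZMod r) :
    ∃ j' : ZMod r, ∃ c : Gamma0 (N * r),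
      trA N r j * embR ((g : Gamma0 N) : SL(2, ℤ)) =
        embR ((c : Gamma0 (N * r)) : SL(2, ℤ)) * trA N r j' := by
  set g' : SL(2, ℤ) := (g : SL(2, ℤ)) with hg'
  obtain ⟨m, hm⟩ := mem_Gamma0_iff_dvd.mp g.2
  change g' 1 0 = (N : ℤ) * m at hm
  obtain ⟨t, ht⟩ := hrN
  have hdet := sl_det g'
  set J : ℤ := ((j.val : ℕ) : ℤ) with hJ
  have hJr : ((J : ℤ) : ZMod r) = j := by rw [hJ, Int.cast_natCast, ZMod.natCast_zmod_val]
  have hNr : ((N : ℤ) : ZMod r) = 0 := by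
    rw [Int.cast_natCast, ZMod.natCast_eq_zero_iff]
    exact ⟨t, ht⟩
  have h10r : ((g' 1 0 : ℤ) : ZMod r) = 0 := by
    rw [hm]; push_cast; rw [show ((N : ℕ) : ZMod r) = ((N : ℤ) : ZMod r) by push_cast; rfl, hNr]
    ring
  have hadr : ((g' 0 0 : ℤ) : ZMod r) * ((g' 1 1 : ℤ) : ZMod r) = 1 := by
    have := congrArg (fun x : ℤ => (x : ZMod r)) hdet
    simp only [Int.cast_sub, Int.cast_mul, Int.cast_one, h10r, mul_zero, sub_zero] at this
    exact this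
  set j' : ZMod r := (j * ((g' 0 0 : ℤ) : ZMod r) + ((m : ℤ) : ZMod r)) * ((g' 0 0 : ℤ) : ZMod r)
    with hj'
  set J' : ℤ := ((j'.val : ℕ) : ℤ) with hJ'
  have hJ'r : ((J' : ℤ) : ZMod r) = j' := by rw [hJ', Int.cast_natCast, ZMod.natCast_zmod_val]
  set X : SL(2, ℤ) := lowT ((N : ℤ) * J) * g' with hX
  have hX10 : X 1 0 = (N : ℤ) * J * g' 0 0 + g' 1 0 := by
    rw [hX, sl_mul_10, lowT_apply_10, lowT_apply_11]; ring
  have hX11 : X 1 1 = (N : ℤ) * J * g' 0 1 + g' 1 1 := by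
    rw [hX, sl_mul_11, lowT_apply_10, lowT_apply_11]; ring
  set c : SL(2, ℤ) := X * (lowT ((N : ℤ) * J'))⁻¹ with hc
  have hc10 : c 1 0 = X 1 0 - X 1 1 * ((N : ℤ) * J') := by
    rw [hc, sl_mul_10, sl_inv_00, sl_inv_10, lowT_apply_11, lowT_apply_10]; ring
  have hcΛ : c ∈ Gamma0 (N * r) := by
    rw [mem_Gamma0_iff_dvd]
    have h1 : c 1 0 = (N : ℤ) * (J * g' 0 0 + m - X 1 1 * J') := by
      rw [hc10, hX10, hm]; ring
    have h2 : (r : ℤ) ∣ J * g' 0 0 + m - X 1 1 * J' := by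
      rw [← ZMod.intCast_zmod_eq_zero_iff_dvd, hX11]
      push_cast
      rw [hJr, hJ'r, show ((N : ℕ) : ZMod r) = ((N : ℤ) : ZMod r) by push_cast; rfl, hNr, hj']
      have : (j * ((g' 0 0 : ℤ) : ZMod r) + ((m : ℤ) : ZMod r)) -
          (0 * j * ((g' 0 1 : ℤ) : ZMod r) + ((g' 1 1 : ℤ) : ZMod r)) *
            ((j * ((g' 0 0 : ℤ) : ZMod r) + ((m : ℤ) : ZMod r)) * ((g' 0 0 : ℤ) : ZMod r)) =
          (j * ((g' 0 0 : ℤ) : ZMod r) + ((m : ℤ) : ZMod r)) *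
            (1 - ((g' 0 0 : ℤ) : ZMod r) * ((g' 1 1 : ℤ) : ZMod r)) := by ring
      rw [this, hadr, sub_self, mul_zero]
    rw [h1, Nat.cast_mul]
    exact mul_dvd_mul_left _ h2
  refine ⟨j', ⟨c, hcΛ⟩, ?_⟩
  unfold trA
  rw [← map_mul, ← map_mul]
  congr 1
  show lowT ((N : ℤ) * J) * g' = X * (lowT ((N : ℤ) * J'))⁻¹ * lowT ((N : ℤ) * J')
  rw [inv_mul_cancel_right]

theorem trA_distinct (j j' : ZMod r) (γ : Gamma0 (N * r))
    (h : trA N r j = embR ((γ : Gamma0 (N * r)) : SL(2, ℤ)) * trA N r j') : j = j' := by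
  unfold trA at h
  rw [← map_mul] at h
  have h1 := embR_injective h
  have h2 : ((γ : Gamma0 (N * r)) : SL(2, ℤ)) =
      lowT ((N : ℤ) * ((j.val : ℕ) : ℤ)) * (lowT ((N : ℤ) * ((j'.val : ℕ) : ℤ)))⁻¹ := by
    rw [h1, mul_inv_cancel_right]
  have hγ := γ.2
  rw [mem_Gamma0_iff_dvd, h2, sl_mul_10, sl_inv_00, sl_inv_10, lowT_apply_10, lowT_apply_11,
    lowT_apply_11, lowT_apply_10, Nat.cast_mul] at hγ
  have h3 : (N : ℤ) * (r : ℤ) ∣ (N : ℤ) * (((j.val : ℕ) : ℤ) - ((j'.val : ℕ) : ℤ)) := by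
    refine hγ.trans (dvd_of_eq ?_)
    ring
  have hN0 : (N : ℤ) ≠ 0 := by exact_mod_cast NeZero.ne N
  have h4 : (r : ℤ) ∣ ((j.val : ℕ) : ℤ) - ((j'.val : ℕ) : ℤ) :=
    (mul_dvd_mul_iff_left hN0).mp h3
  rw [← ZMod.intCast_zmod_eq_zero_iff_dvd] at h4
  push_cast at h4
  rw [ZMod.natCast_zmod_val, ZMod.natCast_zmod_val] at h4
  exact sub_eq_zero.mp h4

/-- **the trace system** from `Γ₀(N r)` to `Γ₀(N)`, `r ∣ N`: representatives `[1 0; N j 1]` -/
def trSys0 (hrN : r ∣ N) : CosetSys embR (Gamma0 (N * r)) (Gamma0 N) :=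
  ofDistinct embR_injective (ι := ZMod r) (trA N r) (trA_exists hrN) trA_distinct

theorem trSys0_a (hrN : r ∣ N) (j : ZMod r) : (trSys0 hrN).a j = trA N r j := rfl

theorem trSys0_distinct (hrN : r ∣ N) : (trSys0 hrN).Distinct :=
  ofDistinct_distinct _ _ _ _

/-- the cocycle of the trace system is `[1 0; N j 1] g [1 0; N j' 1]⁻¹` -/
theorem coe_trSys0_c (hrN : r ∣ N) (g : Gamma0 N) (j : ZMod r) :
    (((trSys0 hrN).c g j : Gamma0 (N * r)) : SL(2, ℤ)) =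
      lowT ((N : ℤ) * ((j.val : ℕ) : ℤ)) * (g : SL(2, ℤ)) *
        (lowT ((N : ℤ) * (((((trSys0 hrN).σ g j : ZMod r)).val : ℕ) : ℤ)))⁻¹ := by
  have h : trA N r j * embR ((g : Gamma0 N) : SL(2, ℤ)) =
      embR (((trSys0 hrN).c g j : Gamma0 (N * r)) : SL(2, ℤ)) *
        trA N r ((trSys0 hrN).σ g j : ZMod r) := (trSys0 hrN).rel g j
  unfold trA at h
  rw [← map_mul, ← map_mul] at h
  have h1 := embR_injective h
  rw [h1, mul_inv_cancel_right]

theorem trSys0_c_apply_11 (hrN : r ∣ N) (g : Gamma0 N) (j : ZMod r) :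
    (((trSys0 hrN).c g j : Gamma0 (N * r)) : SL(2, ℤ)) 1 1 =
      (N : ℤ) * ((j.val : ℕ) : ℤ) * (g : SL(2, ℤ)) 0 1 + (g : SL(2, ℤ)) 1 1 := by
  rw [coe_trSys0_c, sl_mul_11, sl_inv_01, sl_inv_11, lowT_apply_01, lowT_apply_00, sl_mul_11,
    lowT_apply_10, lowT_apply_11]
  ring

/-- **the cocycle of the trace preserves `d mod N`** -/
theorem dUnits_trSys0_c (hrN : r ∣ N) (g : Gamma0 N) (j : ZMod r) :
    ZMod.unitsMap (Nat.dvd_mul_right N r) (dUnits (N * r) ((trSys0 hrN).c g j)) = dUnits N g := by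
  apply Units.ext
  rw [ZMod.unitsMap_def, Units.coe_map, coe_dUnits, coe_dUnits]
  unfold dN
  rw [MonoidHom.coe_coe, map_intCast, trSys0_c_apply_11]
  push_cast
  rw [ZMod.natCast_self]
  ring

end Sys0

/-! ### the systems on `Γ_H` -/

section SysH

variable {N r : ℕ} {Δ : Type} [CommGroup Δ] (θ : (ZMod N)ˣ →* Δ)

section Tr

variable [NeZero r] [NeZero N]

theorem compat₂_trSys0 (hrN : r ∣ N) :
    Compat₂ (trSys0 hrN) (chi (liftθ (r := r) θ)) (chi θ) := by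
  intro g j
  rw [chi_apply, chi_apply, liftθ_apply]
  exact congrArg θ (dUnits_trSys0_c hrN g j)

/-- **the trace system** from `Γ_H(N r)` to `Γ_H(N)`, `r ∣ N` -/
def trSysH (hrN : r ∣ N) : CosetSys embR (GammaH (liftθ (r := r) θ)) (GammaH θ) :=
  kerSys₂ (trSys0 hrN) (chi (liftθ (r := r) θ)) (chi θ) (compat₂_trSys0 θ hrN)

theorem trSysH_a (hrN : r ∣ N) (j : ZMod r) : (trSysH θ hrN).a j = trA N r j := rfl

theorem trSysH_distinct (hrN : r ∣ N) : (trSysH θ hrN).Distinct :=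
  kerSys₂_distinct _ _ _ _ (trSys0_distinct hrN)

/-- **the trace** `Hom(Γ_H(N r), A) → Hom(Γ_H(N), A)`, `r ∣ N` -/
def TrH (hrN : r ∣ N) (A : Type*) [AddCommGroup A] :
    (Additive (GammaH (liftθ (r := r) θ)) →+ A) →+ (Additive (GammaH θ) →+ A) :=
  (trSysH θ hrN).op A

theorem TrH_comp_hom (hrN : r ∣ N) {A B : Type*} [AddCommGroup A] [AddCommGroup B] (f : A →+ B)
    (φ : Additive (GammaH (liftθ (r := r) θ)) →+ A) :
    TrH θ hrN B (f.comp φ) = f.comp (TrH θ hrN A φ) :=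
  CosetSys.op_comp_hom _ f φ

end Tr

section Br

variable [Fact r.Prime]

theorem compat₂_resDSys : Compat₂ (resDSys N r) (chi θ) (chi (liftθ (r := r) θ)) := by
  intro g _
  show chi θ (degenDelta N r g) = _
  rw [chi_apply, chi_apply, liftθ_apply]
  congr 1
  apply Units.ext
  rw [ZMod.unitsMap_def, Units.coe_map, coe_dUnits, coe_dUnits]
  unfold dN
  rw [MonoidHom.coe_coe, map_intCast, (degenDelta_entries g).2.2.2]

/-- the system of `B_r` from `Γ_H(N)` to `Γ_H(N r)` (representative `diag(r, 1)`) -/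
def brSysH : CosetSys embR (GammaH θ) (GammaH (liftθ (r := r) θ)) :=
  kerSys₂ (resDSys N r) (chi θ) (chi (liftθ (r := r) θ)) (compat₂_resDSys θ)

theorem brSysH_a (i : (brSysH (r := r) θ).ι) : (brSysH (r := r) θ).a i = dlt r := rfl

/-- `B_r : Hom(Γ_H(N), A) → Hom(Γ_H(N r), A)`, `φ ↦ φ (δ · δ⁻¹)`, `δ = diag(r, 1)` -/
def BrH (A : Type*) [AddCommGroup A] :
    (Additive (GammaH θ) →+ A) →+ (Additive (GammaH (liftθ (r := r) θ)) →+ A) :=
  (brSysH (r := r) θ).op A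

end Br

section Res

theorem compat₂_resSys : Compat₂ (resSys N r) (chi θ) (chi (liftθ (r := r) θ)) := by
  intro g _
  show chi θ (degenOne N r g) = _
  rw [chi_apply, chi_apply, liftθ_apply]
  congr 1
  apply Units.ext
  rw [ZMod.unitsMap_def, Units.coe_map, coe_dUnits, coe_dUnits]
  unfold dN
  rw [MonoidHom.coe_coe, map_intCast, degenOne_coe]

/-- the system of the restriction from `Γ_H(N)` to `Γ_H(N r)` -/
def resSysH : CosetSys embR (GammaH θ) (GammaH (liftθ (r := r) θ)) :=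
  kerSys₂ (resSys N r) (chi θ) (chi (liftθ (r := r) θ)) (compat₂_resSys θ)

theorem resSysH_a (i : (resSysH (r := r) θ).ι) : (resSysH (r := r) θ).a i = 1 := rfl

/-- restriction `Hom(Γ_H(N), A) → Hom(Γ_H(N r), A)` -/
def ResH (A : Type*) [AddCommGroup A] :
    (Additive (GammaH θ) →+ A) →+ (Additive (GammaH (liftθ (r := r) θ)) →+ A) :=
  (resSysH (r := r) θ).op A

theorem coe_resSysH_c (g : GammaH (liftθ (r := r) θ)) (i : (resSysH (r := r) θ).ι) :
    (((resSysH (r := r) θ).c g i : GammaH θ) : SL(2, ℤ)) = (g : SL(2, ℤ)) :=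
  degenOne_coe _

theorem ResH_apply {A : Type*} [AddCommGroup A] (φ : Additive (GammaH θ) →+ A)
    (g : GammaH (liftθ (r := r) θ)) (hg : (g : SL(2, ℤ)) ∈ GammaH θ) :
    ResH (r := r) θ A φ (Additive.ofMul g) = φ (Additive.ofMul ⟨(g : SL(2, ℤ)), hg⟩) := by
  unfold ResH
  rw [CosetSys.op_apply]
  show ∑ i : Unit, φ (Additive.ofMul ((resSysH (r := r) θ).c g i)) = _
  rw [Fintype.sum_unique]
  congr 2
  exact Subtype.ext (coe_resSysH_c θ g _)

end Res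

section TrRes

variable [NeZero r] [NeZero N]

theorem lowT_mem_GammaH (c : ℤ) (hc : (N : ℤ) ∣ c) : lowT c ∈ GammaH θ := by
  rw [mem_GammaH_iff]
  have hg : lowT c ∈ Gamma0 N := by
    rw [mem_Gamma0_iff_dvd]
    exact hc
  refine ⟨hg, ?_⟩
  have : dUnits N ⟨lowT c, hg⟩ = 1 := by
    apply Units.ext
    rw [coe_dUnits]
    unfold dN
    show (((lowT c) 1 1 : ℤ) : ZMod N) = ((1 : (ZMod N)ˣ) : ZMod N)
    rw [lowT_apply_11, Int.cast_one, Units.val_one]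
  rw [this, map_one]

/-- the elements `[1 0; N j 1]` of `Γ_H(N)` -/
def lowH (j : ZMod r) : GammaH θ :=
  ⟨lowT ((N : ℤ) * ((j.val : ℕ) : ℤ)), lowT_mem_GammaH θ _ (dvd_mul_right _ _)⟩

/-- an abstract telescoping sum -/
theorem sum_add_sub_perm {ι A : Type*} [Fintype ι] [AddCommGroup A] (σ : Equiv.Perm ι)
    (F : ι → A) (x : A) : ∑ j : ι, (F j + x - F (σ j)) = Fintype.card ι • x := by
  rw [Finset.sum_sub_distrib, Finset.sum_add_distrib, Equiv.sum_comp σ F, add_sub_cancel_left,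
    Finset.sum_const, Finset.card_univ]

/-- **`Tr ∘ Res = r`** -/
theorem TrH_ResH (hrN : r ∣ N) {A : Type*} [AddCommGroup A] (φ : Additive (GammaH θ) →+ A) :
    TrH θ hrN A (ResH (r := r) θ A φ) = r • φ := by
  refine AddMonoidHom.ext fun g => ?_
  obtain ⟨g, rfl⟩ : ∃ g' : GammaH θ, Additive.ofMul g' = g := ⟨Additive.toMul g, rfl⟩
  unfold TrH
  rw [CosetSys.op_apply]
  set σ' : Equiv.Perm (ZMod r) := (trSys0 hrN).σ (kerIncl (chi θ) g) with hσ'
  have key : ∀ j : ZMod r, ResH (r := r) θ A φ (Additive.ofMul ((trSysH θ hrN).c g j)) =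
      φ (Additive.ofMul (lowH (r := r) θ j)) + φ (Additive.ofMul g) -
        φ (Additive.ofMul (lowH (r := r) θ (σ' j))) := by
    intro j
    have hc : ((((trSysH θ hrN).c g j : GammaH (liftθ (r := r) θ))) : SL(2, ℤ)) =
        ((lowH (r := r) θ j * g * (lowH (r := r) θ (σ' j))⁻¹ : GammaH θ) : SL(2, ℤ)) :=
      coe_trSys0_c hrN (kerIncl (chi θ) g) j
    have hmem : ((((trSysH θ hrN).c g j : GammaH (liftθ (r := r) θ))) : SL(2, ℤ)) ∈ GammaH θ := by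
      rw [hc]; exact SetLike.coe_mem _
    rw [ResH_apply θ φ _ hmem]
    have : (⟨_, hmem⟩ : GammaH θ) = lowH (r := r) θ j * g * (lowH (r := r) θ (σ' j))⁻¹ :=
      Subtype.ext hc
    rw [this, ofMul_mul, ofMul_mul, ofMul_inv, map_add, map_add, map_neg, sub_eq_add_neg]
  have hsum := sum_add_sub_perm σ' (fun j : ZMod r => φ (Additive.ofMul (lowH (r := r) θ j)))
    (φ (Additive.ofMul g))
  rw [ZMod.card] at hsum
  rw [AddMonoidHom.smul_apply]
  exact (Finset.sum_congr rfl fun j _ => key j).trans hsum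

end TrRes

end SysH

end Fermat.Agent.GB.B5.Betti

end
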