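/-
GATE-B / B5, Betti side (helper65): **(T2) in the `Γ_H` vocabulary** (helper2's `GammaH θ`,
`UH`, `diaH`; `TrH`, `BrH` of `TrSys.lean`).

`r` prime, `r ∤ N`, `θ : (ZMod (N r))ˣ →* Δ` a quotient whose kernel is stable under inverting the
`r`-component (`InvStable`, e.g. `ker θ = ker f × ker h`: `invStable_of_prod`).  Then

* `t2Group_GammaH` : `T2Group N r (GammaH θ)`;
* `utbSys θ` : the composite system `U_r ∘ Tr ∘ B_r` on `Γ_H(N r)`, `utbSys_op`, `utbSys_a`;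
* `UH_TrH_BrH` : **`U_r (Tr (B_r φ)) = r • φ`** for every class `φ ∈ Hom(Γ_H, A)` on which the
  diamond operators `⟨d⟩`, `d ≡ 1 mod N`, act through a function `ε` of `d mod r` with
  `∑ u, ε u = 0` (e.g. a nontrivial character of `(ZMod r)ˣ`).
-/
import Fermat.Agent.GB.B5.Betti.T2Betti
import Fermat.Agent.GB.B5.Betti.TrSys

set_option autoImplicit false
set_option linter.unusedSectionVars false

noncomputable section

namespace Fermat.Agent.GB.B5.Betti

open scoped MatrixGroups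
open Matrix.SpecialLinearGroup CongruenceSubgroup
open Fermat.Agent.GB.B5 Fermat.Agent.GM.B Fermat.Agent.GM.Amalgam Fermat.Agent.GM.EisClass
open Fermat.Agent.GM.B5
open Fermat.Agent.GB.B3 Fermat.Agent.GB.B3.EisGamma0 Fermat.Agent.GB.B3.GamH
open Fermat.Agent.GB.B4.Twist Fermat.Agent.GB.B4.Twist.KerSys2 Fermat.Agent.GB.B4.Twist.RPsi

/-- `d mod M'` of an element of `Γ₀(M)`, `M' ∣ M`, through `dUnits` -/
theorem coe_unitsMap_dUnits {M M' : ℕ} (h : M' ∣ M) (g : Gamma0 M) :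
    ((ZMod.unitsMap h (dUnits M g) : (ZMod M')ˣ) : ZMod M') =
      ((((g : SL(2, ℤ)) 1 1 : ℤ)) : ZMod M') := by
  rw [ZMod.unitsMap_def, Units.coe_map, coe_dUnits]
  unfold dN
  rw [MonoidHom.coe_coe, map_intCast]

variable {N r : ℕ} {Δ : Type} [CommGroup Δ]

/-- the kernel of `θ` is stable under inverting the `r`-component -/
def InvStable (N r : ℕ) (θ : (ZMod (N * r))ˣ →* Δ) : Prop :=
  ∀ u v : (ZMod (N * r))ˣ, θ u = 1 →
    ZMod.unitsMap (Nat.dvd_mul_right N r) v = ZMod.unitsMap (Nat.dvd_mul_right N r) u →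
    ZMod.unitsMap (Nat.dvd_mul_left r N) v * ZMod.unitsMap (Nat.dvd_mul_left r N) u = 1 →
    θ v = 1

/-- a kernel of product form is stable -/
theorem invStable_of_prod {Δ₁ Δ₂ : Type*} [Group Δ₁] [Group Δ₂] (θ : (ZMod (N * r))ˣ →* Δ)
    (f : (ZMod N)ˣ →* Δ₁) (h : (ZMod r)ˣ →* Δ₂)
    (hker : ∀ u, θ u = 1 ↔ f (ZMod.unitsMap (Nat.dvd_mul_right N r) u) = 1 ∧
      h (ZMod.unitsMap (Nat.dvd_mul_left r N) u) = 1) : InvStable N r θ := by
  intro u v hu hN hr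
  rw [hker] at hu ⊢
  refine ⟨by rw [hN]; exact hu.1, ?_⟩
  have h1 := congrArg h hr
  rw [map_mul, hu.2, mul_one, map_one] at h1
  exact h1

section Inst

variable [Fact r.Prime]

theorem t2Group_GammaH (hrN : ¬ r ∣ N) (θ : (ZMod (N * r))ˣ →* Δ) (hθ : InvStable N r θ) :
    T2Group N r (GammaH θ) where
  le := GammaH_le θ
  one := by
    intro g hg hN hr
    rw [mem_GammaH_iff]
    refine ⟨hg, ?_⟩
    have h1 : dUnits (N * r) ⟨g, hg⟩ = 1 := by
      apply Units.ext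
      rw [coe_dUnits, Units.val_one]
      unfold dN
      show (((g 1 1 : ℤ)) : ZMod (N * r)) = 1
      have hcop : IsCoprime (N : ℤ) (r : ℤ) :=
        Nat.isCoprime_iff_coprime.mpr
          ((Nat.Prime.coprime_iff_not_dvd (Fact.out : r.Prime)).mpr hrN).symm
      have d1 : (N : ℤ) ∣ g 1 1 - 1 := by
        rw [← ZMod.intCast_zmod_eq_zero_iff_dvd]; push_cast; rw [hN]; ring
      have d2 : (r : ℤ) ∣ g 1 1 - 1 := by
        rw [← ZMod.intCast_zmod_eq_zero_iff_dvd]; push_cast; rw [hr]; ring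
      have d3 : ((N * r : ℕ) : ℤ) ∣ g 1 1 - 1 := by
        rw [Nat.cast_mul]
        exact IsCoprime.mul_dvd hcop d1 d2
      rw [← ZMod.intCast_zmod_eq_zero_iff_dvd] at d3
      push_cast at d3
      exact sub_eq_zero.mp d3
    rw [h1, map_one]
  conj := by
    intro δ hδ g hg
    rw [mem_GammaH_iff] at hg ⊢
    obtain ⟨hg0, hg1⟩ := hg
    have hmem : δ * g * δ⁻¹ ∈ Gamma0 (N * r) := mul_mem (mul_mem hδ hg0) (inv_mem hδ)
    refine ⟨hmem, ?_⟩
    have : (⟨δ * g * δ⁻¹, hmem⟩ : Gamma0 (N * r)) = ⟨δ, hδ⟩ * ⟨g, hg0⟩ * (⟨δ, hδ⟩)⁻¹ := rfl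
    rw [this, map_mul, map_mul, map_inv, map_mul, map_mul, map_inv, hg1, mul_one,
      mul_inv_cancel]
  inv_r := by
    intro g hg x hx hN hr
    rw [mem_GammaH_iff] at hg ⊢
    obtain ⟨hg0, hg1⟩ := hg
    refine ⟨hx, ?_⟩
    refine hθ _ _ hg1 ?_ ?_
    · apply Units.ext
      rw [coe_unitsMap_dUnits, coe_unitsMap_dUnits]
      exact hN
    · apply Units.ext
      rw [Units.val_mul, coe_unitsMap_dUnits, coe_unitsMap_dUnits, Units.val_one]
      exact hr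

end Inst

/-! ### the composite `U_r ∘ Tr ∘ B_r` -/

section Plug

variable [Fact r.Prime] [NeZero N]

variable (θ : (ZMod (N * r))ˣ →* Δ)

/-- the composite system `U_r ∘ Tr ∘ B_r` on `Γ_H(N r)` -/
def utbSys : CosetSys embR (GammaH θ) (GammaH θ) :=
  ((brSysH (r := r) θ).comp (trSysH θ (Nat.dvd_mul_left r N))).comp
    (uSysH θ (Nat.dvd_mul_left r N))

theorem utbSys_op (A : Type*) [AddCommGroup A] (φ : Additive (GammaH θ) →+ A) :
    (utbSys θ).op A φ =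
      UH θ A (Nat.dvd_mul_left r N) (TrH θ (Nat.dvd_mul_left r N) A (BrH (r := r) θ A φ)) := by
  unfold utbSys
  rw [CosetSys.op_comp, CosetSys.op_comp]
  rfl

/-- the index equivalence of `utbSys` -/
def utbEquiv : (utbSys θ).ι ≃ ZMod r × ZMod r :=
  (Equiv.punitProd (ZMod r)).prodCongr (Equiv.refl (ZMod r))

omit [NeZero N] in
theorem triple_rep_eq (j b : ZMod r) :
    dlt r * trA (N * r) r j * ModularForm.heckeMatrix r b.val = tripleOf N r (j, b) := by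
  have hr0 : r ≠ 0 := (Fact.out : r.Prime).ne_zero
  show dlt r * trA (N * r) r j * ModularForm.heckeMatrix r b.val =
    glOf r 0 0 1 * glOf 1 0 ((N : ℤ) * (r : ℤ) * ((j.val : ℕ) : ℤ)) 1 *
      glOf 1 ((b.val : ℕ) : ℤ) 0 r
  rw [trA_eq_glOf, glOf_eq_heckeDiagMatrix hr0, glOf_eq_heckeMatrix hr0, Nat.cast_mul]

theorem utbSys_a (i : (utbSys θ).ι) : (utbSys θ).a i = tripleOf N r (utbEquiv θ i) :=
  triple_rep_eq i.1.2 i.2

/-- **(T2) in the `Γ_H` vocabulary**: `U_r (Tr (B_r φ)) = r • φ` on the classes on which the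
diamond operators `⟨d⟩`, `d ≡ 1 mod N`, act through a function `ε` of `d mod r` with
`∑ u, ε u = 0`. -/
theorem UH_TrH_BrH (hrN : ¬ r ∣ N) (hθ : InvStable N r θ)
    {K A : Type*} [CommRing K] [AddCommGroup A] [Module K A]
    (ε : (ZMod r)ˣ → K) (hε : ∑ u, ε u = 0) (φ : Additive (GammaH θ) →+ A)
    (hφ : ∀ (d : Gamma0 (N * r)) (u : (ZMod r)ˣ),
      ((((d : SL(2, ℤ)) 1 1 : ℤ)) : ZMod N) = 1 →
      ((((d : SL(2, ℤ)) 1 1 : ℤ)) : ZMod r) = (u : ZMod r) → diaH θ A d φ = ε u • φ) :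
    UH θ A (Nat.dvd_mul_left r N) (TrH θ (Nat.dvd_mul_left r N) A (BrH (r := r) θ A φ)) =
      r • φ := by
  rw [← utbSys_op]
  refine raise_trace_lower_betti hrN (t2Group_GammaH hrN θ hθ) (utbSys θ) (utbEquiv θ)
    (utbSys_a θ) ε hε φ ?_
  intro δ hδ u hN hr g
  have h := congrArg (fun ψ : Additive (GammaH θ) →+ A => ψ (Additive.ofMul g))
    (hφ ⟨δ, hδ⟩ u hN hr)
  simp only [AddMonoidHom.smul_apply] at h
  rw [← h, diaH_apply]
  rfl

end Plug

end Fermat.Agent.GB.B5.Betti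

end
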