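/-
GATE-B / B5, Betti side (helper65): **the twist at the SAME level** `M r` (`r² ∣ M r`) and its
relations with helper97's level raising twist `Rpsi`, with `B_r`, and with itself (Jacobi).

`r` prime, `r ∣ M`, `θ : (ZMod M)ˣ →* Δ`.  The cocycle `α_x g α_{d² x}⁻¹` of helper97's twist
system `twSys θ hr` has the same lower left entry as `g ∈ Γ_H(M r)`, so it takes its values in
`Γ_H(M r)`: this gives a coset system `twSame θ hr` from `Γ_H(M r)` to itself and the operator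

  `TwH θ hr ψ hψ : Hom(Γ_H(M r), A) → Hom(Γ_H(M r), A)`,  `(TwH φ)(g) = ∑ x, ψ x • φ (α_x g α_{d² x}⁻¹)`.

* `TwH_ResH` : `TwH ψ (Res φ) = R_ψ φ` for `φ ∈ Hom(Γ_H(M), A)`;
* `TwH_BrH`  : `TwH ψ (B_r φ) = 0` when `∑ x, ψ x = 0`;
* `TwH_Rpsi` : **Jacobi**: `TwH ν (R_{ν⁻¹} φ) = ν(-1) • (r • Res φ - B_r (U_r φ))` for `ν ≠ 1`.
-/
import Fermat.Agent.GB.B5.Betti.FibreCmp
import Fermat.Agent.GB.B5.Betti.T2Inst
import Fermat.Agent.GB.B5.Betti.T1Inst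
import Fermat.Agent.GB.B4.Twist.RPsiU

set_option autoImplicit false
set_option linter.unusedSectionVars false

noncomputable section

namespace Fermat.Agent.GB.B5.Betti

open scoped MatrixGroups
open Matrix.SpecialLinearGroup CongruenceSubgroup
open Fermat.Agent.GB.B5 Fermat.Agent.GM.B Fermat.Agent.GM.Amalgam Fermat.Agent.GM.EisClass
open Fermat.Agent.GM.B5
open Fermat.Agent.GB.B3 Fermat.Agent.GB.B3.EisGamma0 Fermat.Agent.GB.B3.GamH
open Fermat.Agent.GB.B4.Twist Fermat.Agent.GB.B4.Twist.KerSys2 Fermat.Agent.GB.B4.Twist.RPsi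
open Fermat.Agent.GB.B4.Twist.RPsiU

/-! ### integer matrices -/

/-- the entries of `c` in a relation `[r x; 0 r] g = c [r x'; 0 r]` -/
theorem upper_rel_entries {r : ℤ} (hr : r ≠ 0) {x x' : ℤ} (g c : SL(2, ℤ))
    (h : glOf r x 0 r * embR g = embR c * glOf r x' 0 r) :
    c 1 0 = g 1 0 ∧ r * c 1 1 = r * g 1 1 - g 1 0 * x' := by
  have hrr : ∀ V : ℤ, r * r - V * 0 ≠ 0 := fun V => by simpa using mul_ne_zero hr hr
  have hg : g 0 0 * g 1 1 - g 0 1 * g 1 0 ≠ 0 := by rw [sl_det]; norm_num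
  have hc : c 0 0 * c 1 1 - c 0 1 * c 1 0 ≠ 0 := by rw [sl_det]; norm_num
  have e1 : embR g = glOf (g 0 0) (g 0 1) (g 1 0) (g 1 1) := mapGL_eq_glOf g
  have e2 : embR c = glOf (c 0 0) (c 0 1) (c 1 0) (c 1 1) := mapGL_eq_glOf c
  rw [e1, e2, glOf_mul_glOf (hrr x) hg, glOf_mul_glOf hc (hrr x')] at h
  have hd1 : (r * g 0 0 + x * g 1 0) * (0 * g 0 1 + r * g 1 1) -
      (r * g 0 1 + x * g 1 1) * (0 * g 0 0 + r * g 1 0) ≠ 0 := by
    have : (r * g 0 0 + x * g 1 0) * (0 * g 0 1 + r * g 1 1) -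
        (r * g 0 1 + x * g 1 1) * (0 * g 0 0 + r * g 1 0) =
        (r * r) * (g 0 0 * g 1 1 - g 0 1 * g 1 0) := by ring
    rw [this, sl_det, mul_one]
    exact mul_ne_zero hr hr
  have hd2 : (c 0 0 * r + c 0 1 * 0) * (c 1 0 * x' + c 1 1 * r) -
      (c 0 0 * x' + c 0 1 * r) * (c 1 0 * r + c 1 1 * 0) ≠ 0 := by
    have : (c 0 0 * r + c 0 1 * 0) * (c 1 0 * x' + c 1 1 * r) -
        (c 0 0 * x' + c 0 1 * r) * (c 1 0 * r + c 1 1 * 0) =
        (r * r) * (c 0 0 * c 1 1 - c 0 1 * c 1 0) := by ring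
    rw [this, sl_det, mul_one]
    exact mul_ne_zero hr hr
  obtain ⟨-, -, h10, h11⟩ := glOf_inj hd1 hd2 h
  have h10' : c 1 0 = g 1 0 := by
    have : r * c 1 0 = r * g 1 0 := by linear_combination -h10
    exact mul_left_cancel₀ hr this
  refine ⟨h10', ?_⟩
  rw [h10'] at h11
  linear_combination -h11

theorem embR_Tn (n : ℤ) : embR (Tn n) = glOf 1 n 0 1 := by
  rw [show embR (Tn n) = glOf ((Tn n) 0 0) ((Tn n) 0 1) ((Tn n) 1 0) ((Tn n) 1 1) from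
    mapGL_eq_glOf (Tn n)]
  rfl

variable {N r : ℕ} [Fact r.Prime] {Δ : Type} [CommGroup Δ]

/-- `[r 0; 0 1] [r x; 0 r] = r · T^x · [r 0; 0 1]` -/
theorem dlt_mul_twA (x : ZMod r) :
    dlt r * twA r x = zr r * embR (Tn ((x.val : ℕ) : ℤ)) * dlt r := by
  have hr0 : r ≠ 0 := (Fact.out : r.Prime).ne_zero
  have hrz : (r : ℤ) ≠ 0 := by exact_mod_cast hr0
  have h1 : (r : ℤ) * 1 - 0 * 0 ≠ 0 := by simpa using hrz
  have h2 : (r : ℤ) * (r : ℤ) - ((x.val : ℕ) : ℤ) * 0 ≠ 0 := by simpa using mul_ne_zero hrz hrz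
  have h3 : (r : ℤ) * (r : ℤ) - 0 * 0 ≠ 0 := by simpa using mul_ne_zero hrz hrz
  have h4 : (1 : ℤ) * 1 - ((x.val : ℕ) : ℤ) * 0 ≠ 0 := by norm_num
  have h5 : ((r : ℤ) * 1 + 0 * 0) * (0 * ((x.val : ℕ) : ℤ) + (r : ℤ) * 1) -
      ((r : ℤ) * ((x.val : ℕ) : ℤ) + 0 * 1) * (0 * 1 + (r : ℤ) * 0) ≠ 0 := by
    have : ((r : ℤ) * 1 + 0 * 0) * (0 * ((x.val : ℕ) : ℤ) + (r : ℤ) * 1) -
      ((r : ℤ) * ((x.val : ℕ) : ℤ) + 0 * 1) * (0 * 1 + (r : ℤ) * 0) = (r : ℤ) * (r : ℤ) := by ring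
    rw [this]; exact mul_ne_zero hrz hrz
  show ModularForm.heckeDiagMatrix r * twA r x =
    zr r * embR (Tn ((x.val : ℕ) : ℤ)) * ModularForm.heckeDiagMatrix r
  rw [twA_eq_glOf, embR_Tn, ← glOf_eq_heckeDiagMatrix hr0, zr, glOf_mul_glOf h1 h2,
    glOf_mul_glOf h3 h4, glOf_mul_glOf h5 h1]
  exact glOf_eq_of_eq (by ring) (by ring) (by ring) (by ring)

/-- the carry of an addition in `ZMod r` -/
def carryAdd (x y : ZMod r) : ℕ := (x.val + y.val) / r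

theorem val_add_carry (x y : ZMod r) : (x + y).val + r * carryAdd x y = x.val + y.val := by
  unfold carryAdd
  rw [ZMod.val_add]
  exact Nat.mod_add_div _ _

/-- `[r x; 0 r] [r y; 0 r] = r · T^carry · [r (x+y); 0 r]` -/
theorem twA_mul_twA (x y : ZMod r) :
    twA r x * twA r y =
      zr r * embR (Tn ((carryAdd x y : ℕ) : ℤ)) * twA r (x + y) := by
  have hr0 : r ≠ 0 := (Fact.out : r.Prime).ne_zero
  have hrz : (r : ℤ) ≠ 0 := by exact_mod_cast hr0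
  have hrr : ∀ V : ℤ, (r : ℤ) * (r : ℤ) - V * 0 ≠ 0 := fun V => by
    simpa using mul_ne_zero hrz hrz
  have h4 : (1 : ℤ) * 1 - ((carryAdd x y : ℕ) : ℤ) * 0 ≠ 0 := by norm_num
  have h5 : ((r : ℤ) * 1 + 0 * 0) * (0 * ((carryAdd x y : ℕ) : ℤ) + (r : ℤ) * 1) -
      ((r : ℤ) * ((carryAdd x y : ℕ) : ℤ) + 0 * 1) * (0 * 1 + (r : ℤ) * 0) ≠ 0 := by
    have : ((r : ℤ) * 1 + 0 * 0) * (0 * ((carryAdd x y : ℕ) : ℤ) + (r : ℤ) * 1) -
      ((r : ℤ) * ((carryAdd x y : ℕ) : ℤ) + 0 * 1) * (0 * 1 + (r : ℤ) * 0) =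
        (r : ℤ) * (r : ℤ) := by ring
    rw [this]; exact mul_ne_zero hrz hrz
  have hc : (((x + y).val : ℕ) : ℤ) + (r : ℤ) * ((carryAdd x y : ℕ) : ℤ) =
      ((x.val : ℕ) : ℤ) + ((y.val : ℕ) : ℤ) := by exact_mod_cast val_add_carry x y
  rw [twA_eq_glOf, twA_eq_glOf, twA_eq_glOf, embR_Tn, zr, glOf_mul_glOf (hrr _) (hrr _),
    glOf_mul_glOf (hrr 0) h4, glOf_mul_glOf h5 (hrr _)]
  refine glOf_eq_of_eq (by ring) ?_ (by ring) (by ring)
  linear_combination (-(r : ℤ)) * hc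

/-! ### distinctness of the twist system -/

theorem twA_distinct (x x' : ZMod r) (μ : SL(2, ℤ)) (h : twA r x = embR μ * twA r x') :
    x = x' := by
  have hr1 : ¬ r ∣ 1 := (Fact.out : r.Prime).not_dvd_one
  rw [twA_eq_glOf, twA_eq_glOf] at h
  exact Option.some.inj (bT1_distinct (N := 1) hr1 (some x) (some x') μ h)

section Same

variable (θ : (ZMod N)ˣ →* Δ)

theorem twSys_distinct (hr : r ∣ N) : (twSys θ hr).Distinct :=
  fun x x' γ h => twA_distinct x x' (γ : SL(2, ℤ)) h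

/-- the cocycle of the twist system takes its values in `Γ_H(N r)` -/
theorem coe_twSys_c_mem (hr : r ∣ N) (g : GammaH (liftθ (r := r) θ)) (x : ZMod r) :
    (((twSys θ hr).c g x : GammaH θ) : SL(2, ℤ)) ∈ GammaH (liftθ (r := r) θ) := by
  have hrz : (r : ℤ) ≠ 0 := by exact_mod_cast (Fact.out : r.Prime).ne_zero
  set k : Gamma0 (N * r) := kerIncl (chi (liftθ (r := r) θ)) g with hk
  set c : Gamma0 N := twC0 hr k x with hc
  have hcoe : (((twSys θ hr).c g x : GammaH θ) : SL(2, ℤ)) = ((c : Gamma0 N) : SL(2, ℤ)) := rfl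
  rw [hcoe]
  have hrel := twA_rel hr k x
  rw [twA_eq_glOf, twA_eq_glOf] at hrel
  obtain ⟨h10, -⟩ := upper_rel_entries hrz (k : SL(2, ℤ)) (c : SL(2, ℤ)) hrel
  have hmem : ((c : Gamma0 N) : SL(2, ℤ)) ∈ Gamma0 (N * r) := by
    rw [mem_Gamma0_iff_dvd, h10]
    exact mem_Gamma0_iff_dvd.mp k.2
  rw [mem_GammaH_iff]
  refine ⟨hmem, ?_⟩
  rw [liftθ_apply]
  have e1 : ZMod.unitsMap (Nat.dvd_mul_right N r)
      (dUnits (N * r) ⟨((c : Gamma0 N) : SL(2, ℤ)), hmem⟩) = dUnits N c := by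
    apply Units.ext
    rw [coe_unitsMap_dUnits, coe_dUnits]
    rfl
  rw [e1, hc, dUnits_twC0, ← liftθ_apply, ← chi_apply]
  exact chi_kerIncl _ g

/-- **the twist system at the same level** `N r` -/
def twSame (hr : r ∣ N) :
    CosetSys embR (GammaH (liftθ (r := r) θ)) (GammaH (liftθ (r := r) θ)) :=
  srcRestrict (twSys θ hr) (GammaH (liftθ (r := r) θ)) (coe_twSys_c_mem θ hr)

theorem twSame_a (hr : r ∣ N) (x : ZMod r) : (twSame θ hr).a x = twA r x := rfl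

theorem twSame_distinct (hr : r ∣ N) : (twSame θ hr).Distinct :=
  fun x x' γ h => twA_distinct x x' (γ : SL(2, ℤ)) h

theorem coe_twSame_c (hr : r ∣ N) (g : GammaH (liftθ (r := r) θ)) (x : ZMod r) :
    (((twSame θ hr).c g x : GammaH (liftθ (r := r) θ)) : SL(2, ℤ)) =
      ((twC θ hr g x : GammaH θ) : SL(2, ℤ)) := rfl

section Op

variable {K : Type*} [CommRing K] {A : Type*} [AddCommGroup A] [Module K A]

theorem inv_wψ_same (hr : r ∣ N) (ψ : MulChar (ZMod r) K)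
    (hψ : ∀ g : GammaH (liftθ (r := r) θ), ψ (dr r (g : SL(2, ℤ))) ^ 2 = 1) :
    WSys.Inv (twSame θ hr) (wψ ψ) :=
  inv_srcRestrict _ _ _ (inv_wψ θ hr ψ hψ)

/-- **the twist at the same level**: `(TwH φ)(g) = ∑ x, ψ x • φ (α_x g α_{d² x}⁻¹)` -/
def TwH (hr : r ∣ N) (ψ : MulChar (ZMod r) K)
    (hψ : ∀ g : GammaH (liftθ (r := r) θ), ψ (dr r (g : SL(2, ℤ))) ^ 2 = 1) :
    (Additive (GammaH (liftθ (r := r) θ)) →+ A) →+ (Additive (GammaH (liftθ (r := r) θ)) →+ A) :=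
  WSys.wop (twSame θ hr) (wψ ψ) (inv_wψ_same θ hr ψ hψ)

theorem TwH_apply (hr : r ∣ N) (ψ : MulChar (ZMod r) K)
    (hψ : ∀ g : GammaH (liftθ (r := r) θ), ψ (dr r (g : SL(2, ℤ))) ^ 2 = 1)
    (φ : Additive (GammaH (liftθ (r := r) θ)) →+ A) (g : GammaH (liftθ (r := r) θ)) :
    TwH θ hr ψ hψ φ (Additive.ofMul g) =
      ∑ x : ZMod r, ψ x • φ (Additive.ofMul ((twSame θ hr).c g x)) := rfl

/-- **`TwH ψ ∘ Res = R_ψ`** -/
theorem TwH_ResH (hr : r ∣ N) (ψ : MulChar (ZMod r) K)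
    (hψ : ∀ g : GammaH (liftθ (r := r) θ), ψ (dr r (g : SL(2, ℤ))) ^ 2 = 1)
    (φ : Additive (GammaH θ) →+ A) :
    TwH θ hr ψ hψ (ResH (r := r) θ A φ) = Rpsi θ hr ψ hψ φ := by
  refine AddMonoidHom.ext fun g => ?_
  obtain ⟨g, rfl⟩ : ∃ g' : GammaH (liftθ (r := r) θ), Additive.ofMul g' = g :=
    ⟨Additive.toMul g, rfl⟩
  rw [TwH_apply, Rpsi_apply]
  refine Finset.sum_congr rfl fun x _ => ?_
  congr 1
  have hmem : (((twSame θ hr).c g x : GammaH (liftθ (r := r) θ)) : SL(2, ℤ)) ∈ GammaH θ := by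
    rw [coe_twSame_c]; exact SetLike.coe_mem _
  rw [ResH_apply θ φ _ hmem]
  congr 2

end Op

end Same

end Fermat.Agent.GB.B5.Betti

end
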