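/-
GATE-B / B5, Betti side (helper65): the cocycle of a coset system whose representatives are
`a i = z * emb (γ i) * b (f i)`, with `b p` (`p : P`) of pairwise distinct `Γ₁`-cosets.

* `exists_fibre_fun` : `φ (c g i) = φ (γ i) + Φ (f i) - φ (γ (σ_g i))` for a function `Φ : P → A`;
* `weighted_sum_eq_fibre_sum` : `∑ i, w i • φ (c g i) = ∑ i, w i • Φ (f i)` for `σ_g`-invariant
  weights.
-/
import Mathlib
import Fermat.Agent.GM.B.System

set_option autoImplicit false

namespace Fermat.Agent.GB.B5.Betti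

open Fermat.Agent.GM.B

variable {H G : Type*} [Group H] [Group G] {emb : H →* G} {Γ₁ Γ₂ : Subgroup H}

theorem exists_fibre_fun (S : CosetSys emb Γ₁ Γ₂) (hemb : Function.Injective emb) (z : G)
    (hz : ∀ x : G, z * x = x * z) {P : Type*} (f : S.ι → P) (b : P → G) (γ : S.ι → Γ₁)
    (hrep : ∀ i, S.a i = z * emb ((γ i : Γ₁) : H) * b (f i))
    (hdist : ∀ (p q : P) (μ : Γ₁), b p = emb ((μ : Γ₁) : H) * b q → p = q)
    (g : Γ₂) {A : Type*} [AddCommGroup A] (φ : Additive Γ₁ →+ A) :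
    ∃ Φ : P → A, ∀ i, φ (Additive.ofMul (S.c g i)) =
      φ (Additive.ofMul (γ i)) + Φ (f i) - φ (Additive.ofMul (γ (S.σ g i))) := by
  classical
  set D : S.ι → Γ₁ := fun i => (γ i)⁻¹ * S.c g i * γ (S.σ g i) with hD
  -- `b (f i) * emb g = emb (D i) * b (f (σ i))`
  have hkey : ∀ i, b (f i) * emb ((g : Γ₂) : H) =
      emb ((D i : Γ₁) : H) * b (f (S.σ g i)) := by
    intro i
    have h1 := S.rel g i
    rw [hrep i, hrep (S.σ g i)] at h1
    have h2 : z * (emb ((γ i : Γ₁) : H) * (b (f i) * emb ((g : Γ₂) : H))) =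
        z * (emb ((S.c g i : Γ₁) : H) * (emb ((γ (S.σ g i) : Γ₁) : H) * b (f (S.σ g i)))) := by
      calc z * (emb ((γ i : Γ₁) : H) * (b (f i) * emb ((g : Γ₂) : H)))
          = z * emb ((γ i : Γ₁) : H) * b (f i) * emb ((g : Γ₂) : H) := by
            simp only [mul_assoc]
        _ = emb ((S.c g i : Γ₁) : H) * (z * emb ((γ (S.σ g i) : Γ₁) : H) * b (f (S.σ g i))) := h1
        _ = emb ((S.c g i : Γ₁) : H) * z * (emb ((γ (S.σ g i) : Γ₁) : H) * b (f (S.σ g i))) := by
            simp only [mul_assoc]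
        _ = z * emb ((S.c g i : Γ₁) : H) * (emb ((γ (S.σ g i) : Γ₁) : H) * b (f (S.σ g i))) := by
            rw [hz]
        _ = _ := by simp only [mul_assoc]
    have h3 := mul_left_cancel h2
    rw [hD]
    simp only [Subgroup.coe_mul, Subgroup.coe_inv, map_mul, map_inv]
    rw [mul_assoc, mul_assoc, ← h3, inv_mul_cancel_left]
  -- `D` is constant on the fibres of `f`
  have hconst : ∀ i i', f i = f i' → D i = D i' := by
    intro i i' hii
    have h1 := hkey i
    have h2 := hkey i'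
    rw [hii, h2] at h1
    have hσ : f (S.σ g i') = f (S.σ g i) := by
      refine hdist _ _ ((D i')⁻¹ * D i) ?_
      rw [Subgroup.coe_mul, Subgroup.coe_inv, map_mul, map_inv, mul_assoc, ← h1,
        inv_mul_cancel_left]
    rw [hσ] at h1
    have h4 := mul_right_cancel h1
    exact (Subtype.ext (hemb h4)).symm
  refine ⟨fun p => if h : ∃ i, f i = p then φ (Additive.ofMul (D h.choose)) else 0, fun i => ?_⟩
  have hex : ∃ i', f i' = f i := ⟨i, rfl⟩
  show φ (Additive.ofMul (S.c g i)) = φ (Additive.ofMul (γ i)) +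
    (if h : ∃ i', f i' = f i then φ (Additive.ofMul (D h.choose)) else 0) -
      φ (Additive.ofMul (γ (S.σ g i)))
  rw [dif_pos hex, hconst _ i hex.choose_spec]
  have hc : S.c g i = γ i * D i * (γ (S.σ g i))⁻¹ := by
    rw [hD]; group
  rw [hc, ofMul_mul, ofMul_mul, ofMul_inv, map_add, map_add, map_neg]
  abel

theorem weighted_sum_eq_fibre_sum (S : CosetSys emb Γ₁ Γ₂) (hemb : Function.Injective emb)
    (z : G) (hz : ∀ x : G, z * x = x * z) {P : Type*} (f : S.ι → P) (b : P → G) (γ : S.ι → Γ₁)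
    (hrep : ∀ i, S.a i = z * emb ((γ i : Γ₁) : H) * b (f i))
    (hdist : ∀ (p q : P) (μ : Γ₁), b p = emb ((μ : Γ₁) : H) * b q → p = q)
    (g : Γ₂) {K A : Type*} [Ring K] [AddCommGroup A] [Module K A] (w : S.ι → K)
    (hw : ∀ i, w (S.σ g i) = w i) (φ : Additive Γ₁ →+ A) :
    ∃ Φ : P → A, ∑ i : S.ι, w i • φ (Additive.ofMul (S.c g i)) = ∑ i : S.ι, w i • Φ (f i) := by
  obtain ⟨Φ, hΦ⟩ := exists_fibre_fun S hemb z hz f b γ hrep hdist g φ
  refine ⟨Φ, ?_⟩
  set F : S.ι → A := fun i => w i • φ (Additive.ofMul (γ i)) with hF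
  have hterm : ∀ i, w i • φ (Additive.ofMul (S.c g i)) = F i + w i • Φ (f i) - F (S.σ g i) := by
    intro i
    rw [hΦ i, hF]
    simp only [hw, smul_add, smul_sub]
  simp_rw [hterm]
  rw [Finset.sum_sub_distrib, Finset.sum_add_distrib, Equiv.sum_comp (S.σ g) F]
  abel

end Fermat.Agent.GB.B5.Betti
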