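/-
GATE-B / B5, Betti side (helper65): the matrices of (T1).

* `glOf_inj` : `glOf` is injective on matrices of nonzero determinant;
* `ulOf N r (u, j) = [r u; 0 r] [1 0; N r j 1]`;
* `ul_generic`, `ul_exceptional` : the two coset computations as identities in `GL (Fin 2) ℝ`;
* `fT1`, `bT1` : the coset map `ZMod r × ZMod r → Option (ZMod r)` and the representatives
  `[r v; 0 r]` (`some v`), `[r 1; 0 r] [1 0; N r j₀ 1]` (`none`, `j₀ = -1/N`);
* `exists_conn_T1` : `ulOf N r q = emb γ * bT1 N r (fT1 N q)` with `γ ∈ Γ₀(N r)`, `d(γ) ≡ 1 mod N`;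
* `bT1_distinct` : the `bT1 p` lie in pairwise distinct `SL(2, ℤ)`-cosets.
-/
import Fermat.Agent.GB.B5.Adapter

set_option autoImplicit false

noncomputable section

namespace Fermat.Agent.GB.B5.Betti

open scoped MatrixGroups
open Matrix.SpecialLinearGroup CongruenceSubgroup
open Fermat.Agent.GB.B5

theorem glOf_inj {a b c d a' b' c' d' : ℤ} (h : a * d - b * c ≠ 0) (h' : a' * d' - b' * c' ≠ 0)
    (he : glOf a b c d = glOf a' b' c' d') : a = a' ∧ b = b' ∧ c = c' ∧ d = d' := by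
  have h1 := congrArg (fun g : GL (Fin 2) ℝ => (g : Matrix (Fin 2) (Fin 2) ℝ)) he
  simp only [val_glOf h, val_glOf h'] at h1
  have e00 := congrFun (congrFun h1 0) 0
  have e01 := congrFun (congrFun h1 0) 1
  have e10 := congrFun (congrFun h1 1) 0
  have e11 := congrFun (congrFun h1 1) 1
  simp at e00 e01 e10 e11
  exact ⟨e00, e01, e10, e11⟩

/-- generic cosets, as an identity of matrices -/
theorem ul_generic {r N : ℤ} (hr : r ≠ 0) {u j u' e : ℤ}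
    (h : u - u' * (1 + u * N * j) = r * e) :
    glOf r u 0 r * glOf 1 0 (N * r * j) 1 =
      glOf (1 + u * N * j) e (N * r * j) (1 - u' * N * j) * glOf r u' 0 r := by
  have h1 : r * r - u' * 0 ≠ 0 := by simpa using mul_ne_zero hr hr
  have hδ : (1 + u * N * j) * (1 - u' * N * j) - e * (N * r * j) = 1 := by
    linear_combination (N * j) * h
  have hδ' : (1 + u * N * j) * (1 - u' * N * j) - e * (N * r * j) ≠ 0 := by
    rw [hδ]; norm_num
  rw [glOf_mul_lower hr, glOf_mul_glOf hδ' h1]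
  apply glOf_eq_of_eq
  · ring
  · linear_combination h
  · ring
  · ring

theorem ul_generic_det {r N u j u' e : ℤ} (h : u - u' * (1 + u * N * j) = r * e) :
    (1 + u * N * j) * (1 - u' * N * j) - e * (N * r * j) = 1 := by
  linear_combination (N * j) * h

/-- exceptional cosets, as an identity of matrices -/
theorem ul_exceptional {r N : ℤ} (hr : r ≠ 0) {u j m u0 j0 m0 : ℤ} (h : 1 + u * N * j = r * m)
    (h0 : 1 + u0 * N * j0 = r * m0) :
    glOf r u 0 r * glOf 1 0 (N * r * j) 1 =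
      glOf (r * m - u * N * j0) (u * m0 - m * u0) (N * r * (j - j0)) (r * m0 - N * j * u0) *
        (glOf r u0 0 r * glOf 1 0 (N * r * j0) 1) := by
  have hδ : (r * m - u * N * j0) * (r * m0 - N * j * u0) -
      (u * m0 - m * u0) * (N * r * (j - j0)) = 1 := by
    linear_combination (-(r * m0 - N * j0 * u0)) * h - h0
  have hδ' : (r * m - u * N * j0) * (r * m0 - N * j * u0) -
      (u * m0 - m * u0) * (N * r * (j - j0)) ≠ 0 := by
    rw [hδ]; norm_num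
  rw [glOf_mul_lower hr, glOf_mul_lower hr, glOf_mul_glOf hδ' (det_lower hr N u0 j0)]
  apply glOf_eq_of_eq
  · linear_combination (r) * h + (r * u * N * j0) * h0
  · linear_combination (u) * h0
  · linear_combination (N * r * r * j0) * h0
  · linear_combination (r) * h0

theorem ul_exceptional_det {r N u j m u0 j0 m0 : ℤ} (h : 1 + u * N * j = r * m)
    (h0 : 1 + u0 * N * j0 = r * m0) :
    (r * m - u * N * j0) * (r * m0 - N * j * u0) -
      (u * m0 - m * u0) * (N * r * (j - j0)) = 1 := by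
  linear_combination (-(r * m0 - N * j0 * u0)) * h - h0

/-! ### residue classes -/

section ZModLevel

variable {N r : ℕ} [Fact r.Prime]

/-- the embedding `SL(2, ℤ) → GL(2, ℝ)` -/
local notation "emb" => (mapGL ℝ : SL(2, ℤ) →* GL (Fin 2) ℝ)

/-- `[r u; 0 r] [1 0; N r j 1]` for `(u, j) ∈ ZMod r × ZMod r` -/
def ulOf (N r : ℕ) (q : ZMod r × ZMod r) : GL (Fin 2) ℝ :=
  glOf r ((q.1.val : ℕ) : ℤ) 0 r * glOf 1 0 ((N : ℤ) * (r : ℤ) * ((q.2.val : ℕ) : ℤ)) 1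

/-- the coset of `ulOf N r (u, j)`: `some (u / (1 + u N j))`, or `none` if `1 + u N j = 0` -/
def fT1 (N : ℕ) (q : ZMod r × ZMod r) : Option (ZMod r) :=
  if 1 + q.1 * (N : ZMod r) * q.2 = 0 then none
  else some (q.1 / (1 + q.1 * (N : ZMod r) * q.2))

/-- representatives of the cosets -/
def bT1 (N r : ℕ) [Fact r.Prime] : Option (ZMod r) → GL (Fin 2) ℝ
  | some v => glOf r ((v.val : ℕ) : ℤ) 0 r
  | none => ulOf N r (1, -(N : ZMod r)⁻¹)

theorem bT1_some (v : ZMod r) : bT1 N r (some v) = glOf r ((v.val : ℕ) : ℤ) 0 r := rfl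

theorem exists_conn_T1 (hrN : ¬ r ∣ N) (Γ₁ : Subgroup SL(2, ℤ))
    (hΓ₁ : ∀ g ∈ Gamma0 (N * r), ((g 1 1 : ℤ) : ZMod N) = 1 → g ∈ Γ₁) (q : ZMod r × ZMod r) :
    ∃ γ : Γ₁, ulOf N r q = emb ((γ : Γ₁) : SL(2, ℤ)) * bT1 N r (fT1 N q) := by
  have : NeZero r := ⟨(Fact.out : r.Prime).ne_zero⟩
  have hr0 : (r : ℤ) ≠ 0 := by exact_mod_cast (Fact.out : r.Prime).ne_zero
  have hN : (N : ZMod r) ≠ 0 := by
    rw [Ne, ZMod.natCast_eq_zero_iff]
    exact hrN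
  obtain ⟨u, j⟩ := q
  set U : ℤ := ((u.val : ℕ) : ℤ) with hU
  set J : ℤ := ((j.val : ℕ) : ℤ) with hJ
  have hUr : ((U : ℤ) : ZMod r) = u := by rw [hU, Int.cast_natCast, ZMod.natCast_zmod_val]
  have hJr : ((J : ℤ) : ZMod r) = j := by rw [hJ, Int.cast_natCast, ZMod.natCast_zmod_val]
  by_cases hx : 1 + u * (N : ZMod r) * j = 0
  · -- exceptional
    have hf : fT1 N (u, j) = none := if_pos hx
    rw [hf]
    set U0 : ℤ := ((((1 : ZMod r)).val : ℕ) : ℤ) with hU0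
    set J0 : ℤ := ((((-(N : ZMod r)⁻¹ : ZMod r)).val : ℕ) : ℤ) with hJ0
    have hU0r : ((U0 : ℤ) : ZMod r) = 1 := by rw [hU0, Int.cast_natCast, ZMod.natCast_zmod_val]
    have hJ0r : ((J0 : ℤ) : ZMod r) = -(N : ZMod r)⁻¹ := by
      rw [hJ0, Int.cast_natCast, ZMod.natCast_zmod_val]
    have hz : (((1 + U * (N : ℤ) * J : ℤ)) : ZMod r) = 0 := by
      push_cast; rw [hUr, hJr]; exact hx
    have hz0 : (((1 + U0 * (N : ℤ) * J0 : ℤ)) : ZMod r) = 0 := by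
      push_cast; rw [hU0r, hJ0r]; field_simp; ring
    obtain ⟨m, hm⟩ := (ZMod.intCast_zmod_eq_zero_iff_dvd _ _).mp hz
    obtain ⟨m0, hm0⟩ := (ZMod.intCast_zmod_eq_zero_iff_dvd _ _).mp hz0
    set δ : SL(2, ℤ) := slOf ((r : ℤ) * m - U * (N : ℤ) * J0) (U * m0 - m * U0)
      ((N : ℤ) * (r : ℤ) * (J - J0)) ((r : ℤ) * m0 - (N : ℤ) * J * U0)
      (ul_exceptional_det hm hm0) with hδ
    have hδmem : δ ∈ Γ₁ := by
      refine hΓ₁ δ ?_ ?_
      · rw [hδ, slOf_mem_Gamma0]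
        exact ⟨J - J0, by push_cast; ring⟩
      · have h11 : δ 1 1 = (r : ℤ) * m0 - (N : ℤ) * J * U0 := rfl
        have h12 : (r : ℤ) * m0 - (N : ℤ) * J * U0 = 1 + (N : ℤ) * (U0 * J0 - J * U0) := by
          linear_combination (-1 : ℤ) * hm0
        rw [h11, h12]
        push_cast
        rw [ZMod.natCast_self]
        ring
    refine ⟨⟨δ, hδmem⟩, ?_⟩
    show glOf r U 0 r * glOf 1 0 ((N : ℤ) * (r : ℤ) * J) 1 =
      emb δ * (glOf r U0 0 r * glOf 1 0 ((N : ℤ) * (r : ℤ) * J0) 1)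
    rw [hδ, mapGL_slOf]
    exact ul_exceptional hr0 hm hm0
  · -- generic
    have hf : fT1 N (u, j) = some (u / (1 + u * (N : ZMod r) * j)) := if_neg hx
    rw [hf]
    set v : ZMod r := u / (1 + u * (N : ZMod r) * j) with hv
    set U' : ℤ := ((v.val : ℕ) : ℤ) with hU'
    have hU'r : ((U' : ℤ) : ZMod r) = v := by rw [hU', Int.cast_natCast, ZMod.natCast_zmod_val]
    have hz : (((U - U' * (1 + U * (N : ℤ) * J) : ℤ)) : ZMod r) = 0 := by
      push_cast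
      rw [hUr, hJr, hU'r, hv]
      field_simp
      ring
    obtain ⟨e, he⟩ := (ZMod.intCast_zmod_eq_zero_iff_dvd _ _).mp hz
    set δ : SL(2, ℤ) := slOf (1 + U * (N : ℤ) * J) e ((N : ℤ) * (r : ℤ) * J)
      (1 - U' * (N : ℤ) * J) (ul_generic_det he) with hδ
    have hδmem : δ ∈ Γ₁ := by
      refine hΓ₁ δ ?_ ?_
      · rw [hδ, slOf_mem_Gamma0]
        exact ⟨J, by push_cast; ring⟩
      · have h11 : δ 1 1 = 1 - U' * (N : ℤ) * J := rfl
        rw [h11]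
        push_cast
        rw [ZMod.natCast_self]
        ring
    refine ⟨⟨δ, hδmem⟩, ?_⟩
    show glOf r U 0 r * glOf 1 0 ((N : ℤ) * (r : ℤ) * J) 1 = emb δ * glOf r U' 0 r
    rw [hδ, mapGL_slOf]
    exact ul_generic hr0 he


theorem bT1_distinct (hrN : ¬ r ∣ N) (p p' : Option (ZMod r)) (μ : SL(2, ℤ))
    (h : bT1 N r p = emb μ * bT1 N r p') : p = p' := by
  have : NeZero r := ⟨(Fact.out : r.Prime).ne_zero⟩
  have hr0 : (r : ℤ) ≠ 0 := by exact_mod_cast (Fact.out : r.Prime).ne_zero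
  have hN : (N : ZMod r) ≠ 0 := by
    rw [Ne, ZMod.natCast_eq_zero_iff]
    exact hrN
  have hdetμ : μ 0 0 * μ 1 1 - μ 0 1 * μ 1 0 = 1 := by
    have := μ.det_coe
    rwa [Matrix.det_fin_two] at this
  have hdetμ' : μ 0 0 * μ 1 1 - μ 0 1 * μ 1 0 ≠ 0 := by rw [hdetμ]; norm_num
  have hrr : ∀ V : ℤ, (r : ℤ) * (r : ℤ) - V * 0 ≠ 0 := fun V => by
    simpa using mul_ne_zero hr0 hr0
  set U0 : ℤ := ((((1 : ZMod r)).val : ℕ) : ℤ) with hU0
  set J0 : ℤ := ((((-(N : ZMod r)⁻¹ : ZMod r)).val : ℕ) : ℤ) with hJ0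
  have hU0r : ((U0 : ℤ) : ZMod r) = 1 := by rw [hU0, Int.cast_natCast, ZMod.natCast_zmod_val]
  have hJ0r : ((J0 : ℤ) : ZMod r) = -(N : ZMod r)⁻¹ := by
    rw [hJ0, Int.cast_natCast, ZMod.natCast_zmod_val]
  have hz0 : (1 : ZMod r) + 1 * (N : ZMod r) * (-(N : ZMod r)⁻¹) = 0 := by
    field_simp; ring
  have hnone : bT1 N r none =
      glOf ((r : ℤ) + U0 * (N : ℤ) * (r : ℤ) * J0) U0 ((N : ℤ) * (r : ℤ) * (r : ℤ) * J0) r := by
    show glOf r U0 0 r * glOf 1 0 ((N : ℤ) * (r : ℤ) * J0) 1 = _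
    exact glOf_mul_lower hr0 _ _ _
  rw [mapGL_eq_glOf] at h
  rcases p with _ | v <;> rcases p' with _ | v'
  · rfl
  · -- `none = μ * some v'`
    exfalso
    rw [hnone] at h
    rw [bT1_some, glOf_mul_glOf hdetμ' (hrr _)] at h
    have hd : (μ 0 0 * (r : ℤ) + μ 0 1 * 0) * (μ 1 0 * ((v'.val : ℕ) : ℤ) + μ 1 1 * (r : ℤ)) -
        (μ 0 0 * ((v'.val : ℕ) : ℤ) + μ 0 1 * (r : ℤ)) * (μ 1 0 * (r : ℤ) + μ 1 1 * 0) ≠ 0 := by
      have : (μ 0 0 * (r : ℤ) + μ 0 1 * 0) * (μ 1 0 * ((v'.val : ℕ) : ℤ) + μ 1 1 * (r : ℤ)) -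
        (μ 0 0 * ((v'.val : ℕ) : ℤ) + μ 0 1 * (r : ℤ)) * (μ 1 0 * (r : ℤ) + μ 1 1 * 0) =
          (μ 0 0 * μ 1 1 - μ 0 1 * μ 1 0) * ((r : ℤ) * (r : ℤ)) := by ring
      rw [this, hdetμ, one_mul]
      exact mul_ne_zero hr0 hr0
    obtain ⟨e00, e01, -, -⟩ := glOf_inj (det_lower hr0 _ _ _) hd h
    have h1 : μ 0 0 = 1 + U0 * (N : ℤ) * J0 := by
      have : (r : ℤ) * (μ 0 0) = (r : ℤ) * (1 + U0 * (N : ℤ) * J0) := by linarith
      exact mul_left_cancel₀ hr0 this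
    have h2 := congrArg (fun x : ℤ => (x : ZMod r)) e01
    simp only [Int.cast_add, Int.cast_mul, Int.cast_natCast, ZMod.natCast_self, mul_zero,
      add_zero] at h2
    rw [h1] at h2
    push_cast at h2
    rw [hU0r, hJ0r, hz0, zero_mul] at h2
    exact one_ne_zero h2
  · -- `some v = μ * none`
    exfalso
    rw [hnone] at h
    rw [bT1_some, glOf_mul_glOf hdetμ' (det_lower hr0 _ _ _)] at h
    have hd : (μ 0 0 * ((r : ℤ) + U0 * (N : ℤ) * (r : ℤ) * J0) +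
          μ 0 1 * ((N : ℤ) * (r : ℤ) * (r : ℤ) * J0)) * (μ 1 0 * U0 + μ 1 1 * (r : ℤ)) -
        (μ 0 0 * U0 + μ 0 1 * (r : ℤ)) * (μ 1 0 * ((r : ℤ) + U0 * (N : ℤ) * (r : ℤ) * J0) +
          μ 1 1 * ((N : ℤ) * (r : ℤ) * (r : ℤ) * J0)) ≠ 0 := by
      have : (μ 0 0 * ((r : ℤ) + U0 * (N : ℤ) * (r : ℤ) * J0) +
          μ 0 1 * ((N : ℤ) * (r : ℤ) * (r : ℤ) * J0)) * (μ 1 0 * U0 + μ 1 1 * (r : ℤ)) -
        (μ 0 0 * U0 + μ 0 1 * (r : ℤ)) * (μ 1 0 * ((r : ℤ) + U0 * (N : ℤ) * (r : ℤ) * J0) +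
          μ 1 1 * ((N : ℤ) * (r : ℤ) * (r : ℤ) * J0)) =
          (μ 0 0 * μ 1 1 - μ 0 1 * μ 1 0) * ((r : ℤ) * (r : ℤ)) := by ring
      rw [this, hdetμ, one_mul]
      exact mul_ne_zero hr0 hr0
    obtain ⟨e00, -, -, -⟩ := glOf_inj (hrr _) hd h
    have h1 : (1 : ℤ) = μ 0 0 * (1 + U0 * (N : ℤ) * J0) + μ 0 1 * ((N : ℤ) * (r : ℤ) * J0) := by
      have : (r : ℤ) * 1 = (r : ℤ) * (μ 0 0 * (1 + U0 * (N : ℤ) * J0) +
          μ 0 1 * ((N : ℤ) * (r : ℤ) * J0)) := by linarith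
      exact mul_left_cancel₀ hr0 this
    have h2 := congrArg (fun x : ℤ => (x : ZMod r)) h1
    push_cast at h2
    rw [hU0r, hJ0r, hz0, ZMod.natCast_self] at h2
    simp at h2
  · -- `some v = μ * some v'`
    rw [bT1_some, bT1_some, glOf_mul_glOf hdetμ' (hrr _)] at h
    have hd : (μ 0 0 * (r : ℤ) + μ 0 1 * 0) * (μ 1 0 * ((v'.val : ℕ) : ℤ) + μ 1 1 * (r : ℤ)) -
        (μ 0 0 * ((v'.val : ℕ) : ℤ) + μ 0 1 * (r : ℤ)) * (μ 1 0 * (r : ℤ) + μ 1 1 * 0) ≠ 0 := by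
      have : (μ 0 0 * (r : ℤ) + μ 0 1 * 0) * (μ 1 0 * ((v'.val : ℕ) : ℤ) + μ 1 1 * (r : ℤ)) -
        (μ 0 0 * ((v'.val : ℕ) : ℤ) + μ 0 1 * (r : ℤ)) * (μ 1 0 * (r : ℤ) + μ 1 1 * 0) =
          (μ 0 0 * μ 1 1 - μ 0 1 * μ 1 0) * ((r : ℤ) * (r : ℤ)) := by ring
      rw [this, hdetμ, one_mul]
      exact mul_ne_zero hr0 hr0
    obtain ⟨e00, e01, -, -⟩ := glOf_inj (hrr _) hd h
    have h1 : μ 0 0 = 1 := by
      have : (r : ℤ) * (μ 0 0) = (r : ℤ) * 1 := by linarith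
      exact mul_left_cancel₀ hr0 this
    have h2 := congrArg (fun x : ℤ => (x : ZMod r)) e01
    simp only [Int.cast_add, Int.cast_mul, Int.cast_natCast, ZMod.natCast_self, mul_zero,
      add_zero, ZMod.natCast_zmod_val] at h2
    rw [h1] at h2
    push_cast at h2
    rw [one_mul] at h2
    rw [h2]

end ZModLevel

end Fermat.Agent.GB.B5.Betti

end
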