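/-
GATE-B / B5, Betti side (helper65): **(T1) on `Hom(Γ, A)`**.

`r` prime, `r ∤ N`; `Γ₁ ≤ SL(2, ℤ)` containing the matrices of `Γ₀(N r)` with `d ≡ 1 mod N`
("trivial character at `r`"), `Γ₂` arbitrary.  For ANY coset system `S` from `Γ₁` to `Γ₂` whose
representatives are `z * [r u; 0 r] [1 0; N r j 1]` (`(u, j) ∈ ZMod r × ZMod r`, `z` central; this is
`Tr ∘ (twist)`), and weights `ν(u)` with `ν` multiplicative, `ν 0 = 0`, `∑ ν = 0`, invariant under
`σ_g`:  `∑ i, ν (u i) • φ (S.c g i) = 0` for every `φ : Hom(Γ₁, A)`.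
-/
import Fermat.Agent.GB.B5.Betti.FibreTools
import Fermat.Agent.GB.B5.Betti.T1Mat

set_option autoImplicit false
set_option linter.unusedSectionVars false

noncomputable section

namespace Fermat.Agent.GB.B5.Betti

open scoped MatrixGroups
open Matrix.SpecialLinearGroup CongruenceSubgroup
open Fermat.Agent.GB.B5 Fermat.Agent.GM.B

/-- the embedding `SL(2, ℤ) → GL(2, ℝ)` -/
local notation "emb" => (mapGL ℝ : SL(2, ℤ) →* GL (Fin 2) ℝ)

variable {N r : ℕ} [Fact r.Prime]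

/-- the character sum behind (T1): for ANY function `Φ` of the coset -/
theorem char_fibre_sum_eq_zero (hrN : ¬ r ∣ N) {K A : Type*} [CommRing K] [AddCommGroup A]
    [Module K A] (ν : ZMod r → K) (hν0 : ν 0 = 0) (hνmul : ∀ x y, ν (x * y) = ν x * ν y)
    (hνsum : ∑ x : ZMod r, ν x = 0) (Φ : Option (ZMod r) → A) :
    ∑ q : ZMod r × ZMod r, ν q.1 • Φ (fT1 N q) = 0 := by
  have hN : (N : ZMod r) ≠ 0 := by
    rw [Ne, ZMod.natCast_eq_zero_iff]
    exact hrN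
  rw [Fintype.sum_prod_type]
  set T : A := ∑ v : ZMod r, ν v • Φ (some v) with hT
  have step2 : ∀ u : ZMod r, ∑ j : ZMod r, ν u • Φ (fT1 N (u, j)) =
      ∑ x : ZMod r, ν u • (if x = 0 then Φ none else Φ (some (u / x))) := by
    intro u
    by_cases hu : u = 0
    · subst hu
      simp [hν0]
    · have huN : u * (N : ZMod r) ≠ 0 := mul_ne_zero hu hN
      refine Fintype.sum_equiv ((Equiv.mulLeft₀ (u * (N : ZMod r)) huN).trans (Equiv.addLeft 1))
        _ _ fun j => ?_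
      have hσ : ((Equiv.mulLeft₀ (u * (N : ZMod r)) huN).trans (Equiv.addLeft 1)) j =
          1 + u * (N : ZMod r) * j := rfl
      rw [hσ]
      by_cases hx : 1 + u * (N : ZMod r) * j = 0
      · rw [if_pos hx]
        congr 2
        exact if_pos hx
      · rw [if_neg hx]
        congr 2
        exact if_neg hx
  simp_rw [step2]
  rw [Finset.sum_comm]
  have step3 : ∀ x : ZMod r,
      ∑ u : ZMod r, ν u • (if x = 0 then Φ none else Φ (some (u / x))) = ν x • T := by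
    intro x
    by_cases hx : x = 0
    · subst hx
      simp only [if_true, hν0, zero_smul]
      rw [← Finset.sum_smul, hνsum, zero_smul]
    · simp only [if_neg hx]
      rw [hT, Finset.smul_sum]
      symm
      refine Fintype.sum_equiv (Equiv.mulRight₀ x hx) _ _ fun v => ?_
      have hσ : (Equiv.mulRight₀ x hx) v = v * x := rfl
      rw [hσ, hνmul, mul_div_cancel_right₀ v hx, smul_smul, mul_comm]
  simp_rw [step3]
  rw [← Finset.sum_smul, hνsum, zero_smul]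

/-- **(T1) on `Hom(Γ₁, A)`**, pointwise weighted form. -/
theorem twist_trace_betti (hrN : ¬ r ∣ N) {Γ₁ Γ₂ : Subgroup SL(2, ℤ)}
    (hΓ₁ : ∀ g ∈ Gamma0 (N * r), ((g 1 1 : ℤ) : ZMod N) = 1 → g ∈ Γ₁)
    (S : CosetSys emb Γ₁ Γ₂) (eS : S.ι ≃ ZMod r × ZMod r) (z : GL (Fin 2) ℝ)
    (hz : ∀ x : GL (Fin 2) ℝ, z * x = x * z) (hS : ∀ i, S.a i = z * ulOf N r (eS i))
    {K A : Type*} [CommRing K] [AddCommGroup A] [Module K A]
    (ν : ZMod r → K) (hν0 : ν 0 = 0) (hνmul : ∀ x y, ν (x * y) = ν x * ν y)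
    (hνsum : ∑ x : ZMod r, ν x = 0) (g : Γ₂)
    (hw : ∀ i, ν (eS (S.σ g i)).1 = ν (eS i).1) (φ : Additive Γ₁ →+ A) :
    ∑ i : S.ι, ν (eS i).1 • φ (Additive.ofMul (S.c g i)) = 0 := by
  choose γ hγ using fun i : S.ι => exists_conn_T1 hrN Γ₁ hΓ₁ (eS i)
  have hrep : ∀ i, S.a i = z * emb ((γ i : Γ₁) : SL(2, ℤ)) * bT1 N r (fT1 N (eS i)) := by
    intro i
    rw [hS, hγ i, mul_assoc]
  obtain ⟨Φ, hΦ⟩ := weighted_sum_eq_fibre_sum S (mapGL_injective (R := ℤ) (S := ℝ)) z hz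
    (fun i => fT1 N (eS i)) (bT1 N r) γ hrep
    (fun p q μ h => bT1_distinct hrN p q (μ : SL(2, ℤ)) h) g (fun i => ν (eS i).1) hw φ
  rw [hΦ]
  rw [← Equiv.sum_comp eS.symm]
  simp only [Equiv.apply_symm_apply]
  exact char_fibre_sum_eq_zero hrN ν hν0 hνmul hνsum Φ

/-- (T1) on `Hom(Γ₁, A)` for a nontrivial multiplicative character -/
theorem twist_trace_betti_mulChar (hrN : ¬ r ∣ N) {Γ₁ Γ₂ : Subgroup SL(2, ℤ)}
    (hΓ₁ : ∀ g ∈ Gamma0 (N * r), ((g 1 1 : ℤ) : ZMod N) = 1 → g ∈ Γ₁)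
    (S : CosetSys emb Γ₁ Γ₂) (eS : S.ι ≃ ZMod r × ZMod r) (z : GL (Fin 2) ℝ)
    (hz : ∀ x : GL (Fin 2) ℝ, z * x = x * z) (hS : ∀ i, S.a i = z * ulOf N r (eS i))
    {K A : Type*} [CommRing K] [IsDomain K] [AddCommGroup A] [Module K A]
    (ψ : MulChar (ZMod r) K) (hψ : ψ ≠ 1) (g : Γ₂)
    (hw : ∀ i, ψ (eS (S.σ g i)).1 = ψ (eS i).1) (φ : Additive Γ₁ →+ A) :
    ∑ i : S.ι, ψ (eS i).1 • φ (Additive.ofMul (S.c g i)) = 0 :=
  twist_trace_betti hrN hΓ₁ S eS z hz hS (fun x => ψ x) (MulChar.map_zero ψ)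
    (fun x y => map_mul ψ x y) (MulChar.sum_eq_zero_of_ne_one hψ) g hw φ

end Fermat.Agent.GB.B5.Betti

end
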