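/-
GATE-B / B5, Betti side (helper65): (T1) and the general comparison lemma in the vocabulary of
weighted coset systems (GB/B4/Twist/WSys).

* `wop_eq_of_reps` : weighted systems with the same cosets and matching weights define the same
  operator (no compatibility of the permutations, no distinctness);
* `wop_twist_trace_eq_zero` : (T1) as `wop S (ψ ∘ u) _ φ = 0`.
-/
import Fermat.Agent.GB.B5.Betti.SysTools
import Fermat.Agent.GB.B5.Betti.T1Betti
import Fermat.Agent.GB.B4.Twist.WSys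

set_option autoImplicit false
set_option linter.unusedSectionVars false

noncomputable section

namespace Fermat.Agent.GB.B5.Betti

open scoped MatrixGroups
open Matrix.SpecialLinearGroup CongruenceSubgroup
open Fermat.Agent.GB.B5 Fermat.Agent.GM.B Fermat.Agent.GB.B4.Twist

section General

variable {H G : Type*} [Group H] [Group G] {emb : H →* G} {Γ₁ Γ₂ : Subgroup H}

/-- weighted systems with the same cosets (with multiplicities) and matching weights define the
same operator -/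
theorem wop_eq_of_reps (S S' : CosetSys emb Γ₁ Γ₂) (hemb : Function.Injective emb)
    (e : S.ι ≃ S'.ι) (z : G) (hz : ∀ x : G, z * x = x * z) (γ : S.ι → Γ₁)
    (hrep : ∀ i, S'.a (e i) = z * emb ((γ i : Γ₁) : H) * S.a i)
    {R : Type*} [CommRing R] {A : Type*} [AddCommGroup A] [Module R A]
    (w : S.ι → R) (w' : S'.ι → R) (hw : WSys.Inv S w) (hw' : WSys.Inv S' w')
    (hww : ∀ i, w' (e i) = w i) (φ : Additive Γ₁ →+ A) :
    WSys.wop S' w' hw' φ = WSys.wop S w hw φ := by
  refine AddMonoidHom.ext fun g => ?_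
  obtain ⟨g, rfl⟩ : ∃ g' : Γ₂, Additive.ofMul g' = g := ⟨Additive.toMul g, rfl⟩
  rw [WSys.wop_apply, WSys.wop_apply, ← Equiv.sum_comp e]
  simp_rw [hww]
  refine weighted_sum_eq_of_reps S S' hemb e z hz γ hrep g w (hw g) (fun i => ?_) φ
  rw [← hww, Equiv.apply_symm_apply, hw' g, hww]

end General

/-- the embedding `SL(2, ℤ) → GL(2, ℝ)` -/
local notation "emb" => (mapGL ℝ : SL(2, ℤ) →* GL (Fin 2) ℝ)

variable {N r : ℕ} [Fact r.Prime]

/-- **(T1) on `Hom(Γ₁, A)`**: the weighted operator of any system with representatives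
`z * [r u; 0 r] [1 0; N r j 1]` and weights `ψ u`, `ψ` a nontrivial character, vanishes. -/
theorem wop_twist_trace_eq_zero (hrN : ¬ r ∣ N) {Γ₁ Γ₂ : Subgroup SL(2, ℤ)}
    (hΓ₁ : ∀ g ∈ Gamma0 (N * r), ((g 1 1 : ℤ) : ZMod N) = 1 → g ∈ Γ₁)
    (S : CosetSys emb Γ₁ Γ₂) (eS : S.ι ≃ ZMod r × ZMod r) (z : GL (Fin 2) ℝ)
    (hz : ∀ x : GL (Fin 2) ℝ, z * x = x * z) (hS : ∀ i, S.a i = z * ulOf N r (eS i))
    {K A : Type*} [CommRing K] [IsDomain K] [AddCommGroup A] [Module K A]
    (ψ : MulChar (ZMod r) K) (hψ : ψ ≠ 1)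
    (hInv : WSys.Inv S (fun i => ψ (eS i).1)) (φ : Additive Γ₁ →+ A) :
    WSys.wop S (fun i => ψ (eS i).1) hInv φ = 0 := by
  refine AddMonoidHom.ext fun g => ?_
  obtain ⟨g, rfl⟩ : ∃ g' : Γ₂, Additive.ofMul g' = g := ⟨Additive.toMul g, rfl⟩
  rw [WSys.wop_apply]
  exact twist_trace_betti_mulChar hrN hΓ₁ S eS z hz hS ψ hψ g (fun i => hInv g i) φ

end Fermat.Agent.GB.B5.Betti

end
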