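/-
GATE-B / B5, Betti side (helper65): **(T1) in the `Γ_H` / `Rpsi` vocabulary** (helper2's
`GammaH θ`, helper97's `Rpsi`; `TrH` of `TrSys.lean`).

`r` prime, `r ∤ N`, `θ : (ZMod (N r))ˣ →* Δ` a quotient which is trivial on the units `≡ 1 mod N`
(`θ` factors through `(ZMod N)ˣ`: the classes on `Γ_H(N r)` have level `r¹` and trivial
`r`-character).  For a nontrivial character `ψ` of `ZMod r`

* `TrH_Rpsi` : **`Tr (R_ψ φ) = 0`** for every `φ ∈ Hom(Γ_H(N r), A)`: the trace from level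
  `N r²` to level `N r` kills the twists of the classes of level `N r`.
-/
import Fermat.Agent.GB.B5.Betti.T1BettiW
import Fermat.Agent.GB.B5.Betti.TrSys
import Fermat.Agent.GB.B4.Twist.WSys2

set_option autoImplicit false
set_option linter.unusedSectionVars false

noncomputable section

namespace Fermat.Agent.GB.B5.Betti

open scoped MatrixGroups
open Matrix.SpecialLinearGroup CongruenceSubgroup
open Fermat.Agent.GB.B5 Fermat.Agent.GM.B Fermat.Agent.GM.Amalgam Fermat.Agent.GM.EisClass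
open Fermat.Agent.GB.B3 Fermat.Agent.GB.B3.EisGamma0 Fermat.Agent.GB.B3.GamH
open Fermat.Agent.GB.B4.Twist Fermat.Agent.GB.B4.Twist.KerSys2 Fermat.Agent.GB.B4.Twist.RPsi

variable {N r : ℕ} [Fact r.Prime] {Δ : Type} [CommGroup Δ]

/-- the representative of the twist system as an integer matrix: `[r x; 0 r]` -/
theorem twA_eq_glOf (x : ZMod r) : twA r x = glOf r ((x.val : ℕ) : ℤ) 0 r := by
  have hr0 : r ≠ 0 := (Fact.out : r.Prime).ne_zero
  have hrz : (r : ℤ) ≠ 0 := by exact_mod_cast hr0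
  show ModularForm.heckeMatrix r x.val * ModularForm.heckeDiagMatrix r = _
  rw [← glOf_eq_heckeMatrix hr0, ← glOf_eq_heckeDiagMatrix hr0,
    glOf_mul_glOf (by simpa using hrz) (by simpa using hrz)]
  exact glOf_eq_of_eq (by ring) (by ring) (by ring) (by ring)

theorem twA_mul_trA (x j : ZMod r) :
    twA r x * trA (N * r) r j = 1 * ulOf N r (x, j) := by
  rw [one_mul, twA_eq_glOf, trA_eq_glOf, Nat.cast_mul]
  rfl

section Plug

variable [NeZero N] (θ : (ZMod (N * r))ˣ →* Δ)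

/-- the composite system `Tr ∘ R` on `Γ_H(N r)` -/
def trTwSys : CosetSys embR (GammaH θ) (GammaH θ) :=
  (twSys θ (Nat.dvd_mul_left r N)).comp (trSysH θ (Nat.dvd_mul_left r N))

theorem trTwSys_a (i : (trTwSys θ).ι) :
    (trTwSys θ).a i = 1 * ulOf N r ((Equiv.refl (ZMod r × ZMod r)) i) :=
  twA_mul_trA i.1 i.2

/-- `Γ_H(N r)` contains the matrices of `Γ₀(N r)` with `d ≡ 1 mod N` when `θ` is trivial on the
units `≡ 1 mod N` -/
theorem mem_GammaH_of_trivial_at
    (hθ : ∀ u : (ZMod (N * r))ˣ, ZMod.unitsMap (Nat.dvd_mul_right N r) u = 1 → θ u = 1)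
    (g : SL(2, ℤ)) (hg : g ∈ Gamma0 (N * r)) (h1 : ((g 1 1 : ℤ) : ZMod N) = 1) :
    g ∈ GammaH θ := by
  rw [mem_GammaH_iff]
  refine ⟨hg, hθ _ ?_⟩
  apply Units.ext
  rw [ZMod.unitsMap_def, Units.coe_map, coe_dUnits, Units.val_one]
  unfold dN
  rw [MonoidHom.coe_coe, map_intCast]
  exact h1

/-- **(T1) in the `Γ_H` vocabulary**: the trace from level `N r²` to level `N r` kills the
`ψ`-twists (`ψ ≠ 1` a character of `ZMod r`) of the classes on `Γ_H(N r)` with trivial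
`r`-character. -/
theorem TrH_Rpsi (hrN : ¬ r ∣ N)
    (hθ : ∀ u : (ZMod (N * r))ˣ, ZMod.unitsMap (Nat.dvd_mul_right N r) u = 1 → θ u = 1)
    {K A : Type*} [CommRing K] [IsDomain K] [AddCommGroup A] [Module K A]
    (ψ : MulChar (ZMod r) K) (hψ1 : ψ ≠ 1)
    (hψ : ∀ g : GammaH (liftθ (r := r) θ), ψ (dr r (g : SL(2, ℤ))) ^ 2 = 1)
    (φ : Additive (GammaH θ) →+ A) :
    TrH θ (Nat.dvd_mul_left r N) A (Rpsi θ (Nat.dvd_mul_left r N) ψ hψ φ) = 0 := by
  have h1 := WSys.op_wop (twSys θ (Nat.dvd_mul_left r N)) (trSysH θ (Nat.dvd_mul_left r N))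
    (inv_wψ θ (Nat.dvd_mul_left r N) ψ hψ) φ
  refine Eq.trans h1 ?_
  have hInv : WSys.Inv (trTwSys θ)
      (fun i => ψ ((Equiv.refl (ZMod r × ZMod r)) i).1) := by
    intro g i
    exact inv_wψ θ (Nat.dvd_mul_left r N) ψ hψ _ i.1
  have h0 := wop_twist_trace_eq_zero hrN (mem_GammaH_of_trivial_at θ hθ) (trTwSys θ)
    (Equiv.refl _) 1 (fun x => by rw [one_mul, mul_one]) (trTwSys_a θ) ψ hψ1 hInv φ
  refine (WSys.wop_congr _ _ hInv ?_ φ).trans h0
  funext i
  show ψ i.1 * 1 = ψ i.1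
  rw [mul_one]

end Plug

end Fermat.Agent.GB.B5.Betti

end
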