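/-
GATE-B / B5, Betti side (helper65): **(T1) in the `Γ_H` / `Rpsi` vocabulary, general form**.

`r` prime, `r ∤ N`, `θ : (ZMod (N r))ˣ →* Δ` ANY quotient, `ψ ≠ 1` a character of `ZMod r` with
`ψ(d)² = 1` on `Γ_H(N r²)` (helper97's hypothesis of `Rpsi`).  For every class `y` on `Γ₀(N r)`
(level `r¹`, trivial character at `r`)

* `TrH_Rpsi_resH` : **`Tr (R_ψ (y|Γ_H)) = 0`** in `Hom(Γ_H(N r), A)`.

(`T1Inst.TrH_Rpsi` is the special case where `θ` is trivial at `r`; there `hψ` forces `ψ² = 1`.)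
-/
import Fermat.Agent.GB.B5.Betti.T1Inst

set_option autoImplicit false
set_option linter.unusedSectionVars false

noncomputable section

namespace Fermat.Agent.GB.B5.Betti

open scoped MatrixGroups
open Matrix.SpecialLinearGroup CongruenceSubgroup
open Fermat.Agent.GB.B5 Fermat.Agent.GM.B Fermat.Agent.GM.Amalgam Fermat.Agent.GM.EisClass
open Fermat.Agent.GB.B3 Fermat.Agent.GB.B3.EisGamma0 Fermat.Agent.GB.B3.GamH
open Fermat.Agent.GB.B4.Twist Fermat.Agent.GB.B4.Twist.KerSys2 Fermat.Agent.GB.B4.Twist.RPsi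

variable {N r : ℕ} [Fact r.Prime] {Δ : Type} [CommGroup Δ]

theorem one_mul_twA_mul_trA (x j : ZMod r) :
    (1 : GL (Fin 2) ℝ) * twA r x * trA (N * r) r j = 1 * ulOf N r (x, j) := by
  rw [one_mul]
  exact twA_mul_trA x j

section Plug

variable [NeZero N] (θ : (ZMod (N * r))ˣ →* Δ)

/-- the composite system `Tr ∘ R ∘ res` from `Γ₀(N r)` to `Γ_H(N r)` -/
def trTwResSys : CosetSys embR (Gamma0 (N * r)) (GammaH θ) :=
  ((resK embR (chi θ)).comp (twSys θ (Nat.dvd_mul_left r N))).comp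
    (trSysH θ (Nat.dvd_mul_left r N))

/-- the index equivalence of `trTwResSys` -/
def trTwResEquiv : (trTwResSys θ).ι ≃ ZMod r × ZMod r :=
  (Equiv.punitProd (ZMod r)).prodCongr (Equiv.refl (ZMod r))

theorem trTwResSys_a (i : (trTwResSys θ).ι) :
    (trTwResSys θ).a i = 1 * ulOf N r (trTwResEquiv θ i) :=
  one_mul_twA_mul_trA i.1.2 i.2

/-- **(T1), general form**: the trace from level `N r²` to level `N r` kills the `ψ`-twist of the
restriction to `Γ_H(N r)` of any class on `Γ₀(N r)`. -/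
theorem TrH_Rpsi_resH (hrN : ¬ r ∣ N)
    {K A : Type*} [CommRing K] [IsDomain K] [AddCommGroup A] [Module K A]
    (ψ : MulChar (ZMod r) K) (hψ1 : ψ ≠ 1)
    (hψ : ∀ g : GammaH (liftθ (r := r) θ), ψ (dr r (g : SL(2, ℤ))) ^ 2 = 1)
    (y : Additive (Gamma0 (N * r)) →+ A) :
    TrH θ (Nat.dvd_mul_left r N) A (Rpsi θ (Nat.dvd_mul_left r N) ψ hψ (resH θ A y)) = 0 := by
  have h1 := WSys.wop_op (resK embR (chi θ)) (twSys θ (Nat.dvd_mul_left r N))
    (inv_wψ θ (Nat.dvd_mul_left r N) ψ hψ) y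
  have h2 := WSys.op_wop ((resK embR (chi θ)).comp (twSys θ (Nat.dvd_mul_left r N)))
    (trSysH θ (Nat.dvd_mul_left r N))
    (WSys.inv_prodW _ _ (WSys.inv_one (resK embR (chi θ)))
      (inv_wψ θ (Nat.dvd_mul_left r N) ψ hψ)) y
  have h3 : TrH θ (Nat.dvd_mul_left r N) A (Rpsi θ (Nat.dvd_mul_left r N) ψ hψ (resH θ A y)) =
      (trSysH θ (Nat.dvd_mul_left r N)).op A
        (WSys.wop ((resK embR (chi θ)).comp (twSys θ (Nat.dvd_mul_left r N)))
          (WSys.prodW _ _ (fun _ => (1 : K)) (wψ ψ))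
          (WSys.inv_prodW _ _ (WSys.inv_one (resK embR (chi θ)))
            (inv_wψ θ (Nat.dvd_mul_left r N) ψ hψ)) y) :=
    congrArg ((trSysH θ (Nat.dvd_mul_left r N)).op A) h1
  refine h3.trans (h2.trans ?_)
  have hInv : WSys.Inv (trTwResSys θ) (fun i => ψ ((trTwResEquiv θ) i).1) := by
    intro g i
    exact inv_wψ θ (Nat.dvd_mul_left r N) ψ hψ _ i.1.2
  have h0 := wop_twist_trace_eq_zero hrN (Γ₁ := Gamma0 (N * r)) (fun g hg _ => hg)
    (trTwResSys θ) (trTwResEquiv θ) 1 (fun x => by rw [one_mul, mul_one]) (trTwResSys_a θ)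
    ψ hψ1 hInv y
  refine (WSys.wop_congr _ _ hInv ?_ y).trans h0
  funext i
  show (1 * ψ i.1.2) * 1 = ψ i.1.2
  rw [one_mul, mul_one]

end Plug

end Fermat.Agent.GB.B5.Betti

end
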