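/-
GATE-B / B5, Betti side (helper65): the twist at the same level (`TwSame.lean`) composed with
`B_r` and with helper97's level raising twist.

* `jacobi_conv` : `∑ x, ν⁻¹ x * ν (w - x) = ν(-1) * ((if w = 0 then r else 0) - 1)` (`ν ≠ 1`);
* `TwH_BrH`  : `TwH ψ (B_r φ) = 0` when `∑ x, ψ x = 0`;
* `TwH_Rpsi` : **Jacobi at class level**:
    `TwH ν (R_{ν⁻¹} φ) = ν(-1) • (r • Res φ - B_r (U_r φ))` for `ν ≠ 1`;
* `hψ_inv` : helper97's hypothesis `hψ` for `ν⁻¹` from the one for `ν`.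
-/
import Fermat.Agent.GB.B5.Betti.TwSame

set_option autoImplicit false
set_option linter.unusedSectionVars false

noncomputable section

namespace Fermat.Agent.GB.B5.Betti

open scoped MatrixGroups
open Matrix.SpecialLinearGroup CongruenceSubgroup
open Fermat.Agent.GB.B5 Fermat.Agent.GM.B Fermat.Agent.GM.Amalgam Fermat.Agent.GM.EisClass
open Fermat.Agent.GM.B5
open Fermat.Agent.GB.B3 Fermat.Agent.GB.B3.EisGamma0 Fermat.Agent.GB.B3.GamH
open Fermat.Agent.GB.B4.Twist Fermat.Agent.GB.B4.Twist.KerSys2 Fermat.Agent.GB.B4.Twist.RPsi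
open Fermat.Agent.GB.B4.Twist.RPsiU

/-! ### character sums -/

theorem mulChar_inv_neg_one' {r : ℕ} [Fact r.Prime] {K : Type*} [CommRing K]
    (ν : MulChar (ZMod r) K) : ν⁻¹ (-1) = ν (-1) := by
  rw [MulChar.inv_apply']
  congr 1
  rw [inv_neg, inv_one]

theorem sum_one_char {r : ℕ} [Fact r.Prime] {K : Type*} [CommRing K] :
    ∑ x : ZMod r, (1 : MulChar (ZMod r) K) x = (r : K) - 1 := by
  classical
  have h : ∀ x : ZMod r, (1 : MulChar (ZMod r) K) x = if x = 0 then 0 else 1 := by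
    intro x
    by_cases hx : x = 0
    · rw [if_pos hx, hx]; exact MulChar.map_zero _
    · rw [if_neg hx]; exact MulChar.one_apply (isUnit_iff_ne_zero.mpr hx)
  simp_rw [h]
  rw [Finset.sum_ite, Finset.sum_const_zero, zero_add, Finset.sum_const, nsmul_eq_mul, mul_one]
  have : (Finset.univ.filter fun x : ZMod r => ¬ x = 0).card = r - 1 := by
    rw [Finset.filter_not, Finset.card_sdiff_of_subset (Finset.subset_univ _), Finset.card_univ, ZMod.card,
      Finset.filter_eq', if_pos (Finset.mem_univ _), Finset.card_singleton]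
  rw [this, Nat.cast_sub (Fact.out : r.Prime).one_le, Nat.cast_one]

/-- the Jacobi-type sums `∑ x, ν⁻¹ x * ν (w - x)` -/
theorem jacobi_conv {r : ℕ} [Fact r.Prime] {K : Type*} [CommRing K] [IsDomain K]
    (ν : MulChar (ZMod r) K) (hν : ν ≠ 1) (w : ZMod r) :
    ∑ x : ZMod r, ν⁻¹ x * ν (w - x) = ν (-1) * ((if w = 0 then (r : K) else 0) - 1) := by
  by_cases hw : w = 0
  · rw [if_pos hw, hw]
    have h1 : ∀ x : ZMod r, ν⁻¹ x * ν (0 - x) = ν (-1) * (1 : MulChar (ZMod r) K) x := by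
      intro x
      rw [zero_sub, ← neg_one_mul x, map_mul, ← MulChar.inv_mul ν, MulChar.mul_apply]
      ring
    simp_rw [h1]
    rw [← Finset.mul_sum, sum_one_char]
  · rw [if_neg hw, zero_sub, mul_neg, mul_one]
    have hν' : ν⁻¹ ≠ 1 := by
      intro h
      apply hν
      rw [← inv_inv ν, h, inv_one]
    have hJ := jacobiSum_nontrivial_inv hν'
    rw [inv_inv, mulChar_inv_neg_one', jacobiSum] at hJ
    rw [← hJ, ← Equiv.sum_comp (Equiv.mulLeft₀ w hw)]
    refine Finset.sum_congr rfl fun t _ => ?_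
    have e1 : (Equiv.mulLeft₀ w hw) t = w * t := rfl
    have e2 : w - w * t = w * (1 - t) := by ring
    rw [e1, e2, map_mul, map_mul]
    have h3 : ν⁻¹ w * ν w = 1 := by
      rw [← MulChar.mul_apply, MulChar.inv_mul]
      exact MulChar.one_apply (isUnit_iff_ne_zero.mpr hw)
    calc ν⁻¹ w * ν⁻¹ t * (ν w * ν (1 - t)) = (ν⁻¹ w * ν w) * (ν⁻¹ t * ν (1 - t)) := by ring
      _ = ν⁻¹ t * ν (1 - t) := by rw [h3, one_mul]

theorem sum_unit_prod {α M : Type*} [Fintype α] [AddCommMonoid M] (G : Unit × α → M) :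
    ∑ i : Unit × α, G i = ∑ x : α, G ((), x) := by
  rw [Fintype.sum_prod_type, Fintype.sum_unique]

variable {N r : ℕ} [Fact r.Prime] {Δ : Type} [CommGroup Δ] (θ : (ZMod N)ˣ →* Δ)

/-! ### `B_r` and `U_r` pointwise -/

section Pointwise

variable {A : Type*} [AddCommGroup A]

theorem BrH_apply (φ : Additive (GammaH θ) →+ A) (g : GammaH (liftθ (r := r) θ)) :
    BrH (r := r) θ A φ (Additive.ofMul g) =
      φ (Additive.ofMul ((brSysH (r := r) θ).c g ())) := by
  unfold BrH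
  rw [CosetSys.op_apply]
  show ∑ i : Unit, φ (Additive.ofMul ((brSysH (r := r) θ).c g i)) = _
  rw [Fintype.sum_unique]

/-- `B_r (U_r φ)` is the unweighted operator of the twist system -/
theorem BrH_UH_apply (hr : r ∣ N) (φ : Additive (GammaH θ) →+ A)
    (g : GammaH (liftθ (r := r) θ)) :
    BrH (r := r) θ A (UH θ A hr φ) (Additive.ofMul g) =
      ∑ x : ZMod r, φ (Additive.ofMul (twC θ hr g x)) := by
  rw [BrH_apply]
  unfold UH
  rw [CosetSys.op_apply]
  rfl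

/-- the cocycle of the twist at `x = 0` is the identity -/
theorem coe_twC_zero (hr : r ∣ N) (g : GammaH (liftθ (r := r) θ)) :
    ((twC θ hr g 0 : GammaH θ) : SL(2, ℤ)) = (g : SL(2, ℤ)) := by
  have hrz : (r : ℤ) ≠ 0 := by exact_mod_cast (Fact.out : r.Prime).ne_zero
  have h := twC_rel θ hr g 0
  rw [mul_zero] at h
  have h0 : twA r (0 : ZMod r) = zr r := by
    rw [twA_eq_glOf, ZMod.val_zero]
    rfl
  rw [h0, zr_comm hrz] at h
  exact (embR_injective (mul_right_cancel h)).symm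

end Pointwise

section Ops

variable {K : Type*} [CommRing K] {A : Type*} [AddCommGroup A] [Module K A]

/-- helper97's hypothesis `hψ` for `ν⁻¹` follows from the one for `ν` -/
theorem hψ_inv (ν : MulChar (ZMod r) K)
    (hν : ∀ g : GammaH (liftθ (r := r) θ), ν (dr r (g : SL(2, ℤ))) ^ 2 = 1)
    (g : GammaH (liftθ (r := r) θ)) : ν⁻¹ (dr r (g : SL(2, ℤ))) ^ 2 = 1 := by
  have h := hν g
  set a : ZMod r := dr r (g : SL(2, ℤ)) with ha
  rw [MulChar.inv_apply']
  by_cases h0 : a = 0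
  · rw [h0, MulChar.map_zero, zero_pow two_ne_zero] at h
    rw [h0, inv_zero, MulChar.map_zero, zero_pow two_ne_zero]
    exact h
  · have h1 : ν a⁻¹ * ν a = 1 := by
      rw [← map_mul, inv_mul_cancel₀ h0, map_one]
    calc ν a⁻¹ ^ 2 = ν a⁻¹ ^ 2 * ν a ^ 2 := by rw [h, mul_one]
      _ = (ν a⁻¹ * ν a) ^ 2 := by ring
      _ = 1 := by rw [h1, one_pow]

/-- **`TwH ψ ∘ B_r = 0`** when `∑ x, ψ x = 0` -/
theorem TwH_BrH (hr : r ∣ N) (ψ : MulChar (ZMod r) K)
    (hψ : ∀ g : GammaH (liftθ (r := r) θ), ψ (dr r (g : SL(2, ℤ))) ^ 2 = 1)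
    (hsum : ∑ x : ZMod r, ψ x = 0) (φ : Additive (GammaH θ) →+ A) :
    TwH θ hr ψ hψ (BrH (r := r) θ A φ) = 0 := by
  have hrz : (r : ℤ) ≠ 0 := by exact_mod_cast (Fact.out : r.Prime).ne_zero
  refine AddMonoidHom.ext fun g => ?_
  obtain ⟨g, rfl⟩ : ∃ g' : GammaH (liftθ (r := r) θ), Additive.ofMul g' = g :=
    ⟨Additive.toMul g, rfl⟩
  rw [TwH_apply]
  simp_rw [BrH_apply]
  set S : CosetSys embR (GammaH θ) (GammaH (liftθ (r := r) θ)) :=
    (brSysH (r := r) θ).comp (twSame θ hr) with hS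
  have key := weighted_sum_eq_of_fibre S (brSysH (r := r) θ) embR_injective
    (fun i j _ _ => rfl) (zr r) (zr_comm hrz) (fun _ => ())
    (fun i => tnH θ ((i.2.val : ℕ) : ℤ)) (fun i => dlt_mul_twA i.2) g
    (fun i => ψ i.2) (fun i => inv_wψ θ hr ψ hψ g i.2) φ
  have e1 : ∑ x : ZMod r, ψ x •
      φ (Additive.ofMul ((brSysH (r := r) θ).c ((twSame θ hr).c g x) ())) =
      ∑ i : Unit × ZMod r, ψ i.2 • φ (Additive.ofMul (S.c g i)) :=
    (sum_unit_prod (fun i : Unit × ZMod r => ψ i.2 • φ (Additive.ofMul (S.c g i)))).symm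
  have e2 : ∑ i : Unit × ZMod r, ψ i.2 •
      φ (Additive.ofMul ((brSysH (r := r) θ).c g ())) = 0 := by
    rw [← Finset.sum_smul, sum_unit_prod (fun i : Unit × ZMod r => ψ i.2), hsum, zero_smul]
  exact e1.trans (key.trans e2)

variable [IsDomain K]

/-- **Jacobi at class level**: twisting back at the same level the `ν⁻¹`-twist of `φ` gives
`ν(-1) • (r • Res φ - B_r (U_r φ))`, the `r`-depletion of `φ`. -/
theorem TwH_Rpsi (hr : r ∣ N) (ν : MulChar (ZMod r) K) (hν1 : ν ≠ 1)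
    (hν : ∀ g : GammaH (liftθ (r := r) θ), ν (dr r (g : SL(2, ℤ))) ^ 2 = 1)
    (hν' : ∀ g : GammaH (liftθ (r := r) θ), ν⁻¹ (dr r (g : SL(2, ℤ))) ^ 2 = 1)
    (φ : Additive (GammaH θ) →+ A) :
    TwH θ hr ν hν (Rpsi θ hr ν⁻¹ hν' φ) =
      ν (-1) • ((r : K) • ResH (r := r) θ A φ - BrH (r := r) θ A (UH θ A hr φ)) := by
  have hrz : (r : ℤ) ≠ 0 := by exact_mod_cast (Fact.out : r.Prime).ne_zero
  refine AddMonoidHom.ext fun g => ?_
  obtain ⟨g, rfl⟩ : ∃ g' : GammaH (liftθ (r := r) θ), Additive.ofMul g' = g :=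
    ⟨Additive.toMul g, rfl⟩
  rw [TwH_apply]
  simp_rw [Rpsi_apply, Finset.smul_sum, smul_smul]
  set S : CosetSys embR (GammaH θ) (GammaH (liftθ (r := r) θ)) :=
    (twSys θ hr).comp (twSame θ hr) with hS
  set F : ZMod r → A := fun w => φ (Additive.ofMul (twC θ hr g w)) with hF
  have key := weighted_sum_eq_of_fibre S (twSys θ hr) embR_injective (twSys_distinct θ hr)
    (zr r) (zr_comm hrz) (fun i : ZMod r × ZMod r => i.1 + i.2)
    (fun i : ZMod r × ZMod r => tnH θ ((carryAdd i.1 i.2 : ℕ) : ℤ))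
    (fun i : ZMod r × ZMod r => twA_mul_twA i.1 i.2) g
    (fun i : ZMod r × ZMod r => ν⁻¹ i.1 * ν i.2)
    (fun i : ZMod r × ZMod r => congrArg₂ (· * ·)
      (inv_wψ θ hr ν⁻¹ hν' ((twSame θ hr).c g i.2) i.1) (inv_wψ_same θ hr ν hν g i.2)) φ
  have e1 : ∑ y : ZMod r, ∑ x : ZMod r, (ν y * ν⁻¹ x) •
      φ (Additive.ofMul (twC θ hr ((twSame θ hr).c g y) x)) =
      ∑ i : ZMod r × ZMod r, (ν⁻¹ i.1 * ν i.2) • φ (Additive.ofMul (S.c g i)) := by
    rw [Fintype.sum_prod_type, Finset.sum_comm]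
    refine Finset.sum_congr rfl fun x _ => Finset.sum_congr rfl fun y _ => ?_
    rw [mul_comm]
    rfl
  have e2 : ∑ i : ZMod r × ZMod r, (ν⁻¹ i.1 * ν i.2) •
      φ (Additive.ofMul ((twSys θ hr).c g (i.1 + i.2))) =
      ∑ w : ZMod r, (∑ x : ZMod r, ν⁻¹ x * ν (w - x)) • F w := by
    rw [Fintype.sum_prod_type]
    have hsm : ∀ w : ZMod r, (∑ x : ZMod r, ν⁻¹ x * ν (w - x)) • F w =
        ∑ x : ZMod r, (ν⁻¹ x * ν (w - x)) • F w := fun w => Finset.sum_smul
    simp_rw [hsm]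
    rw [Finset.sum_comm (f := fun w x : ZMod r => (ν⁻¹ x * ν (w - x)) • F w)]
    refine Finset.sum_congr rfl fun x _ => ?_
    rw [← Equiv.sum_comp (Equiv.addLeft x) (fun w => (ν⁻¹ x * ν (w - x)) • F w)]
    refine Finset.sum_congr rfl fun y _ => ?_
    show (ν⁻¹ x * ν y) • F (x + y) = (ν⁻¹ x * ν (x + y - x)) • F (x + y)
    rw [add_sub_cancel_left]
  refine e1.trans (key.trans (e2.trans ?_))
  simp_rw [jacobi_conv ν hν1]
  have e3 : ∀ w : ZMod r, (ν (-1) * ((if w = 0 then (r : K) else 0) - 1)) • F w =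
      ν (-1) • ((if w = 0 then (r : K) • F w else 0) - F w) := by
    intro w
    by_cases hw : w = 0
    · rw [if_pos hw, if_pos hw, mul_smul, sub_smul, one_smul]
    · rw [if_neg hw, if_neg hw, mul_smul, sub_smul, one_smul, zero_smul]
  simp_rw [e3]
  rw [← Finset.smul_sum, Finset.sum_sub_distrib, Finset.sum_ite_eq' Finset.univ (0 : ZMod r),
    if_pos (Finset.mem_univ _)]
  rw [AddMonoidHom.smul_apply, AddMonoidHom.sub_apply, AddMonoidHom.smul_apply, BrH_UH_apply]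
  congr 2
  have hmem : (g : SL(2, ℤ)) ∈ GammaH θ := by
    rw [← coe_twC_zero θ hr g]; exact SetLike.coe_mem _
  rw [ResH_apply θ φ g hmem, hF]
  show (r : K) • φ (Additive.ofMul (twC θ hr g 0)) = _
  have : twC θ hr g 0 = ⟨(g : SL(2, ℤ)), hmem⟩ := Subtype.ext (coe_twC_zero θ hr g)
  rw [this]

end Ops

end Fermat.Agent.GB.B5.Betti

end
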