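/-
GATE-B / B5, Betti side (helper65): **the operator `Φ = U_r ∘ Tr ∘ (twist back) ∘ res`** and its
two properties (the class-level content of (C3), (C4) of the B5 package).

Level `N r` with `r` prime, `r ∤ N`; `θ : (ZMod (N r))ˣ →* Δ`; `ν ≠ 1` a character of `ZMod r`
with `ν(d)² = 1` on `Γ_H(N r²)`.

  `PhiH θ ν hν : Hom(Γ₀(N r²), A) → Hom(Γ_H(N r), A)`,
  `PhiH = UH θ ∘ TrH θ ∘ TwH θ ν ∘ resH (liftθ θ)`.

* `op_smul`, `ResH_resH`, `BrH_resH` : linearity of coset operators, restriction commutes with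
  `Res` and `B_r`;
* `PhiH_of_twist` : if `X|Γ_H(N r²) = R_{ν⁻¹} φ` with `φ` an `ε`-eigenvector of the diamond
  operators (`∑ u, ε u = 0`), `InvStable N r θ` and `U_r φ = a • φ`, then
  `PhiH X = (ν(-1) * (r * r * a - r * a)) • φ`;
* `PhiH_depl` : `PhiH (r • res y - B_r (U_r y)) = 0` for every class `y` on `Γ₀(N r)`.
-/
import Fermat.Agent.GB.B5.Betti.TwJacobi
import Fermat.Agent.GB.B5.Betti.T1Gen

set_option autoImplicit false
set_option linter.unusedSectionVars false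

noncomputable section

namespace Fermat.Agent.GB.B5.Betti

open scoped MatrixGroups
open Matrix.SpecialLinearGroup CongruenceSubgroup
open Fermat.Agent.S16_helper49
open Fermat.Agent.GB.B5 Fermat.Agent.GM.B Fermat.Agent.GM.Amalgam Fermat.Agent.GM.EisClass
open Fermat.Agent.GM.B5
open Fermat.Agent.GB.B3 Fermat.Agent.GB.B3.EisGamma0 Fermat.Agent.GB.B3.GamH
open Fermat.Agent.GB.B4.Twist Fermat.Agent.GB.B4.Twist.KerSys2 Fermat.Agent.GB.B4.Twist.RPsi
open Fermat.Agent.GB.B4.Twist.RPsiU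

/-! ### linearity of coset operators -/

section Lin

variable {H G : Type*} [Group H] [Group G] {emb : H →* G} {Γ₁ Γ₂ : Subgroup H}

theorem op_smul (S : CosetSys emb Γ₁ Γ₂) {K A : Type*} [Monoid K] [AddCommGroup A]
    [DistribMulAction K A] (c : K) (φ : Additive Γ₁ →+ A) :
    S.op A (c • φ) = c • S.op A φ := by
  have h := CosetSys.op_comp_hom S (DistribSMul.toAddMonoidHom A c) φ
  exact h

end Lin

variable {N r : ℕ} [Fact r.Prime] {Δ : Type} [CommGroup Δ]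

/-! ### restriction commutes with `Res` and `B_r` -/

section Comm

variable (θ : (ZMod N)ˣ →* Δ) {A : Type*} [AddCommGroup A]

/-- `Res (y|Γ_H(N)) = (res y)|Γ_H(N r)` -/
theorem ResH_resH (y : Additive (Gamma0 N) →+ A) :
    ResH (r := r) θ A (resH θ A y) = resH (liftθ (r := r) θ) A ((resSys N r).op A y) :=
  kerSys₂_op_res (resSys N r) (chi θ) (chi (liftθ (r := r) θ)) (compat₂_resSys θ) y

/-- `B_r (y|Γ_H(N)) = (B_r y)|Γ_H(N r)` -/
theorem BrH_resH (y : Additive (Gamma0 N) →+ A) :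
    BrH (r := r) θ A (resH θ A y) = resH (liftθ (r := r) θ) A ((resDSys N r).op A y) :=
  kerSys₂_op_res (resDSys N r) (chi θ) (chi (liftθ (r := r) θ)) (compat₂_resDSys θ) y

end Comm

/-! ### the operator `Φ` -/

section Phi

variable [NeZero N] (θ : (ZMod (N * r))ˣ →* Δ)
  {K : Type*} [CommRing K] [IsDomain K] {A : Type*} [AddCommGroup A] [Module K A]

/-- **`Φ = U_r ∘ Tr ∘ (twist back by ν) ∘ res`** from `Hom(Γ₀(N r²), A)` to `Hom(Γ_H(N r), A)` -/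
def PhiH (ν : MulChar (ZMod r) K)
    (hν : ∀ g : GammaH (liftθ (r := r) θ), ν (dr r (g : SL(2, ℤ))) ^ 2 = 1) :
    (Additive (Gamma0 (N * r * r)) →+ A) →+ (Additive (GammaH θ) →+ A) :=
  (UH θ A (Nat.dvd_mul_left r N)).comp ((TrH θ (Nat.dvd_mul_left r N) A).comp
    ((TwH θ (Nat.dvd_mul_left r N) ν hν).comp (resH (liftθ (r := r) θ) A)))

theorem PhiH_apply (ν : MulChar (ZMod r) K)
    (hν : ∀ g : GammaH (liftθ (r := r) θ), ν (dr r (g : SL(2, ℤ))) ^ 2 = 1)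
    (X : Additive (Gamma0 (N * r * r)) →+ A) :
    PhiH θ ν hν X = UH θ A (Nat.dvd_mul_left r N) (TrH θ (Nat.dvd_mul_left r N) A
      (TwH θ (Nat.dvd_mul_left r N) ν hν (resH (liftθ (r := r) θ) A X))) := rfl

/-- **(C3)**: `Φ` recovers `φ`, up to the nonzero factor `ν(-1) r (r - 1) a`, from any class `X` on
`Γ₀(N r²)` restricting to the `ν⁻¹`-twist of `φ`. -/
theorem PhiH_of_twist (hrN : ¬ r ∣ N) (hθ : InvStable N r θ) (ν : MulChar (ZMod r) K)
    (hν1 : ν ≠ 1)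
    (hν : ∀ g : GammaH (liftθ (r := r) θ), ν (dr r (g : SL(2, ℤ))) ^ 2 = 1)
    (hν' : ∀ g : GammaH (liftθ (r := r) θ), ν⁻¹ (dr r (g : SL(2, ℤ))) ^ 2 = 1)
    (ε : (ZMod r)ˣ → K) (hε : ∑ u, ε u = 0) (φ : Additive (GammaH θ) →+ A)
    (hφ : ∀ (d : Gamma0 (N * r)) (u : (ZMod r)ˣ),
      ((((d : SL(2, ℤ)) 1 1 : ℤ)) : ZMod N) = 1 →
      ((((d : SL(2, ℤ)) 1 1 : ℤ)) : ZMod r) = (u : ZMod r) → diaH θ A d φ = ε u • φ)
    (a : K) (ha : UH θ A (Nat.dvd_mul_left r N) φ = a • φ)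
    (X : Additive (Gamma0 (N * r * r)) →+ A)
    (hX : resH (liftθ (r := r) θ) A X = Rpsi θ (Nat.dvd_mul_left r N) ν⁻¹ hν' φ) :
    PhiH θ ν hν X = (ν (-1) * ((r : K) * (r : K) * a - (r : K) * a)) • φ := by
  rw [PhiH_apply, hX, TwH_Rpsi θ (Nat.dvd_mul_left r N) ν hν1 hν hν' φ]
  -- linearity
  have hTr : ∀ (c : K) (ψ : Additive (GammaH (liftθ (r := r) θ)) →+ A),
      TrH θ (Nat.dvd_mul_left r N) A (c • ψ) = c • TrH θ (Nat.dvd_mul_left r N) A ψ :=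
    fun c ψ => op_smul _ c ψ
  have hUH : ∀ (c : K) (ψ : Additive (GammaH θ) →+ A),
      UH θ A (Nat.dvd_mul_left r N) (c • ψ) = c • UH θ A (Nat.dvd_mul_left r N) ψ :=
    fun c ψ => op_smul _ c ψ
  have hBr : ∀ (c : K) (ψ : Additive (GammaH θ) →+ A),
      BrH (r := r) θ A (c • ψ) = c • BrH (r := r) θ A ψ :=
    fun c ψ => op_smul _ c ψ
  -- the `ε`-part is stable under scalars
  have hφa : ∀ (d : Gamma0 (N * r)) (u : (ZMod r)ˣ),
      ((((d : SL(2, ℤ)) 1 1 : ℤ)) : ZMod N) = 1 →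
      ((((d : SL(2, ℤ)) 1 1 : ℤ)) : ZMod r) = (u : ZMod r) →
        diaH θ A d (a • φ) = ε u • (a • φ) := by
    intro d u h1 h2
    have : diaH θ A d (a • φ) = a • diaH θ A d φ := op_smul _ a φ
    rw [this, hφ d u h1 h2, smul_comm]
  have h2 := UH_TrH_BrH θ hrN hθ ε hε (a • φ) hφa
  have h1 := TrH_ResH θ (Nat.dvd_mul_left r N) (A := A) φ
  rw [hTr, hUH, map_sub, map_sub, hTr, hUH, h1, ha, h2]
  rw [← Nat.cast_smul_eq_nsmul K r φ, ← Nat.cast_smul_eq_nsmul K r (a • φ), hUH, ha]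
  simp only [smul_smul, ← sub_smul]
  congr 1
  ring

/-- **(C4)**: `Φ` kills the `r`-depletions `r • res y - B_r (U_r y)` of the classes `y` of level
`N r` with trivial character. -/
theorem PhiH_depl (hrN : ¬ r ∣ N) (ν : MulChar (ZMod r) K) (hν1 : ν ≠ 1)
    (hν : ∀ g : GammaH (liftθ (r := r) θ), ν (dr r (g : SL(2, ℤ))) ^ 2 = 1)
    (y : Additive (Gamma0 (N * r)) →+ A) :
    PhiH θ ν hν (r • (resSys (N * r) r).op A y -
      (resDSys (N * r) r).op A (cohU (Nat.dvd_mul_left r N) A y)) = 0 := by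
  rw [PhiH_apply, map_sub, map_nsmul, ← ResH_resH, ← BrH_resH, ← UH_resH, map_sub, map_nsmul,
    TwH_ResH, TwH_BrH θ (Nat.dvd_mul_left r N) ν hν (MulChar.sum_eq_zero_of_ne_one hν1), sub_zero,
    map_nsmul, TrH_Rpsi_resH θ hrN ν hν1 hν y, smul_zero, map_zero]

end Phi

end Fermat.Agent.GB.B5.Betti

end
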