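/-
GATE-B / B5, Betti side (helper65): **(C2)** — the building blocks `Res_ℓ` and
`(twSys θ hℓ).op = B_ℓ ∘ U_ℓ` of the class-level `ℓ`-depletion commute with `U_r` (`ℓ ≠ r`) and
preserve the eigenvectors of the conjugation action (diamond operators).

`θ : (ZMod N)ˣ →* Δ`, `ℓ` prime, `ℓ ∣ N`, `r ∣ N` with `(r, ℓ) = 1`.

* `UH_ResH`    : `U_r (Res_ℓ φ) = Res_ℓ (U_r φ)`;
* `UH_twOp`    : `U_r ((twSys θ hℓ).op φ) = (twSys θ hℓ).op (U_r φ)`;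
* `twOp_eq`    : `(twSys θ hℓ).op φ = B_ℓ (U_ℓ φ)`;
* `kerSys₂_op_eigen` : every kernel system maps `ε`-eigenvectors of the conjugations to
  `ε`-eigenvectors; `ResH_eigen`, `twOp_eigen`, `BrH_eigen`;
* helper8's `Depl.deplOpH θ hℓ = ℓ • Res_ℓ - (twSys θ hℓ).op` (ClassDepl.lean): `deplOpH_resH`
  (restriction of the `Γ₀`-depletion), **`deplOpH_UH`** (commutes with `U_r`, `(r, ℓ) = 1`),
  **`deplOpH_UH_eigen`**, **`deplOpH_conjEigen`**, **`deplOpH_diaH_eigen`** (B4 spelling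
  `diaH θ A d φ = ε (chi θ d) • φ`), `ResH_diaH_eigen`, `conjEigen_iff_diaH`;
* `diaH_binder_of_eigen(_at)` : the eigenvector binder of `UH_TrH_BrH` / `PhiH_of_twist` /
  helper41's `package_concrete` from the `ε' (chi θ d)` spelling.
-/
import Fermat.Agent.GB.B5.Betti.Phi
import Fermat.Agent.GB.B5.Depl.ClassDepl

set_option autoImplicit false
set_option linter.unusedSectionVars false

noncomputable section

namespace Fermat.Agent.GB.B5.Betti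

open scoped MatrixGroups
open Matrix.SpecialLinearGroup CongruenceSubgroup
open Fermat.Agent.S16_helper49
open Fermat.Agent.GB.B5 Fermat.Agent.GM.B Fermat.Agent.GM.Amalgam Fermat.Agent.GM.EisClass
open Fermat.Agent.GM.B5
open Fermat.Agent.GB.B3 Fermat.Agent.GB.B3.EisGamma0 Fermat.Agent.GB.B3.GamH
open Fermat.Agent.GB.B4.Twist Fermat.Agent.GB.B4.Twist.KerSys2 Fermat.Agent.GB.B4.Twist.RPsi
open Fermat.Agent.GB.B4.Twist.RPsiU
open Fermat.Agent.GB.B5.Depl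

/-! ### kernel systems preserve eigenvectors of the conjugations -/

section Eigen

variable {H G : Type*} [Group H] [Group G] {emb : H →* G} {Γ₁ Γ₂ : Subgroup H}
  {Δ : Type} [Group Δ] {R : Type*} [CommRing R] {A : Type*} [AddCommGroup A] [Module R A]

theorem kerSys₂_op_eigen (S : CosetSys emb Γ₁ Γ₂) (χ₁ : Γ₁ →* Δ) (χ₂ : Γ₂ →* Δ)
    (h : Compat₂ S χ₁ χ₂) (ε : Δ → R) (φ : Additive (kerSub χ₁) →+ A)
    (hφ : ∀ (x : Γ₁) (k : kerSub χ₁),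
      φ (Additive.ofMul (conjK χ₁ x k)) = ε (χ₁ x) • φ (Additive.ofMul k))
    (δ : Γ₂) (k : kerSub χ₂) :
    (kerSys₂ S χ₁ χ₂ h).op A φ (Additive.ofMul (conjK χ₂ δ k)) =
      ε (χ₂ δ) • (kerSys₂ S χ₁ χ₂ h).op A φ (Additive.ofMul k) := by
  have h2 := WSys.wop_one (R := R) (kerSys₂ S χ₁ χ₂ h) φ
  rw [← h2]
  refine (wop_conj S χ₁ χ₂ h (fun _ => (1 : R)) (WSys.inv_one _) ε φ hφ δ k).trans ?_
  congr 1

end Eigen

variable {N ℓ : ℕ} [Fact ℓ.Prime] {Δ : Type} [CommGroup Δ] (θ : (ZMod N)ˣ →* Δ)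

/-! ### `U_r` commutes with the building blocks -/

section UComm

variable {r : ℕ} [NeZero r] {A : Type*} [AddCommGroup A]

/-- **`U_r ∘ Res_ℓ = Res_ℓ ∘ U_r`** -/
theorem UH_ResH (hrN : r ∣ N) (φ : Additive (GammaH θ) →+ A) :
    UH (liftθ (r := ℓ) θ) A (Dvd.dvd.mul_right hrN ℓ) (ResH (r := ℓ) θ A φ) =
      ResH (r := ℓ) θ A (UH θ A hrN φ) := by
  have h1 : UH (liftθ (r := ℓ) θ) A (Dvd.dvd.mul_right hrN ℓ) (ResH (r := ℓ) θ A φ) =
      ((resSysH (r := ℓ) θ).comp (uSysH (liftθ (r := ℓ) θ) (Dvd.dvd.mul_right hrN ℓ))).op A φ :=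
    (CosetSys.op_comp _ _ φ).symm
  have h2 : ResH (r := ℓ) θ A (UH θ A hrN φ) =
      ((uSysH θ hrN).comp (resSysH (r := ℓ) θ)).op A φ :=
    (CosetSys.op_comp _ _ φ).symm
  rw [h1, h2]
  refine op_eq_of_reps ((uSysH θ hrN).comp (resSysH (r := ℓ) θ))
    ((resSysH (r := ℓ) θ).comp (uSysH (liftθ (r := ℓ) θ) (Dvd.dvd.mul_right hrN ℓ)))
    embR_injective (Equiv.prodComm _ _) 1 (fun x => by rw [one_mul, mul_one]) (fun _ => 1) ?_ φ
  rintro ⟨x, u⟩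
  show (1 : GL (Fin 2) ℝ) * ModularForm.heckeMatrix r x.val =
    1 * embR ((1 : GammaH θ) : SL(2, ℤ)) * (ModularForm.heckeMatrix r x.val * 1)
  simp only [Subgroup.coe_one, map_one, one_mul, mul_one]

/-- **`U_r ∘ (B_ℓ U_ℓ) = (B_ℓ U_ℓ) ∘ U_r`** (`(r, ℓ) = 1`), the unweighted twin of `Rpsi_UH` -/
theorem UH_twOp (hℓN : ℓ ∣ N) (hrN : r ∣ N) (hcop : Nat.Coprime r ℓ)
    (φ : Additive (GammaH θ) →+ A) :
    UH (liftθ (r := ℓ) θ) A (Dvd.dvd.mul_right hrN ℓ) ((twSys θ hℓN).op A φ) =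
      (twSys θ hℓN).op A (UH θ A hrN φ) := by
  have h1 : UH (liftθ (r := ℓ) θ) A (Dvd.dvd.mul_right hrN ℓ) ((twSys θ hℓN).op A φ) =
      (sysRU θ hℓN hrN).op A φ := (CosetSys.op_comp _ _ φ).symm
  have h2 : (twSys θ hℓN).op A (UH θ A hrN φ) = (sysUR θ hℓN hrN).op A φ :=
    (CosetSys.op_comp _ _ φ).symm
  rw [h1, h2]
  refine (CosetSys.op_eq_of_cosets (sysRU θ hℓN hrN) (sysUR θ hℓN hrN) embR_injective
    (sysUR_distinct θ hℓN hrN) (matchEquiv hcop) 1 (fun x => by rw [one_mul, mul_one])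
    (fun p => tnH θ (-(((p.2.val + carry r p.1) / r : ℕ) : ℤ))) ?_ φ).symm
  rintro ⟨x, j⟩
  exact rep_match hcop x j

/-- `(twSys θ hℓ).op = B_ℓ ∘ U_ℓ` -/
theorem twOp_eq (hℓN : ℓ ∣ N) (φ : Additive (GammaH θ) →+ A) :
    (twSys θ hℓN).op A φ = BrH (r := ℓ) θ A (UH θ A hℓN φ) := by
  refine AddMonoidHom.ext fun g => ?_
  obtain ⟨g, rfl⟩ : ∃ g' : GammaH (liftθ (r := ℓ) θ), Additive.ofMul g' = g :=
    ⟨Additive.toMul g, rfl⟩
  rw [BrH_UH_apply, CosetSys.op_apply]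
  rfl

end UComm

/-! ### eigenvectors -/

section EigenH

variable {K : Type*} [CommRing K] {A : Type*} [AddCommGroup A] [Module K A]

/-- the conjugation-eigenvector condition on `Hom(Γ_H, A)` (helper97's spelling) -/
def ConjEigen {M : ℕ} (θ' : (ZMod M)ˣ →* Δ) (ε : Δ → K) (φ : Additive (GammaH θ') →+ A) : Prop :=
  ∀ (x : Gamma0 M) (k : GammaH θ'),
    φ (Additive.ofMul (conjK (chi θ') x k)) = ε (chi θ' x) • φ (Additive.ofMul k)

theorem ResH_eigen (ε : Δ → K) (φ : Additive (GammaH θ) →+ A) (hφ : ConjEigen θ ε φ) :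
    ConjEigen (liftθ (r := ℓ) θ) ε (ResH (r := ℓ) θ A φ) :=
  fun δ k => kerSys₂_op_eigen (resSys N ℓ) (chi θ) (chi (liftθ (r := ℓ) θ)) (compat₂_resSys θ)
    ε φ hφ δ k

theorem BrH_eigen (ε : Δ → K) (φ : Additive (GammaH θ) →+ A) (hφ : ConjEigen θ ε φ) :
    ConjEigen (liftθ (r := ℓ) θ) ε (BrH (r := ℓ) θ A φ) :=
  fun δ k => kerSys₂_op_eigen (resDSys N ℓ) (chi θ) (chi (liftθ (r := ℓ) θ))
    (compat₂_resDSys θ) ε φ hφ δ k

theorem twOp_eigen (hℓN : ℓ ∣ N) (ε : Δ → K) (φ : Additive (GammaH θ) →+ A)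
    (hφ : ConjEigen θ ε φ) :
    ConjEigen (liftθ (r := ℓ) θ) ε ((twSys θ hℓN).op A φ) :=
  fun δ k => kerSys₂_op_eigen (twSys0 hℓN) (chi θ) (chi (liftθ (r := ℓ) θ))
    (compat₂_twSys0 θ hℓN) ε φ hφ δ k

theorem conjEigen_sub {M : ℕ} {θ' : (ZMod M)ˣ →* Δ} {ε : Δ → K}
    {φ ψ : Additive (GammaH θ') →+ A} (hφ : ConjEigen θ' ε φ) (hψ : ConjEigen θ' ε ψ) :
    ConjEigen θ' ε (φ - ψ) := by
  intro x k
  rw [AddMonoidHom.sub_apply, AddMonoidHom.sub_apply, hφ, hψ, smul_sub]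

theorem conjEigen_nsmul {M : ℕ} {θ' : (ZMod M)ˣ →* Δ} {ε : Δ → K}
    {φ : Additive (GammaH θ') →+ A} (n : ℕ) (hφ : ConjEigen θ' ε φ) :
    ConjEigen θ' ε (n • φ) := by
  intro x k
  rw [AddMonoidHom.smul_apply, AddMonoidHom.smul_apply, hφ, smul_comm]

end EigenH

/-! ### the class-level `ℓ`-depletion on `Γ_H` -/

section Depl

variable {A : Type*} [AddCommGroup A]

theorem deplOpH_eq (hℓN : ℓ ∣ N) (φ : Additive (GammaH θ) →+ A) :
    deplOpH θ hℓN A φ = ℓ • ResH (r := ℓ) θ A φ - (twSys θ hℓN).op A φ := rfl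

/-- `deplOpH` is the restriction to `Γ_H` of the depletion `ℓ • res - B_ℓ U_ℓ` on `Γ₀` -/
theorem deplOpH_resH (hℓN : ℓ ∣ N) (y : Additive (Gamma0 N) →+ A) :
    deplOpH θ hℓN A (resH θ A y) = resH (liftθ (r := ℓ) θ) A
      (ℓ • (resSys N ℓ).op A y - (resDSys N ℓ).op A (cohU hℓN A y)) := by
  rw [deplOpH_eq, twOp_eq, UH_resH, ResH_resH, BrH_resH, map_sub, map_nsmul]

variable {r : ℕ} [NeZero r]

/-- **`U_r` commutes with the `ℓ`-depletion** (`(r, ℓ) = 1`) -/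
theorem deplOpH_UH (hℓN : ℓ ∣ N) (hrN : r ∣ N) (hcop : Nat.Coprime r ℓ)
    (φ : Additive (GammaH θ) →+ A) :
    UH (liftθ (r := ℓ) θ) A (Dvd.dvd.mul_right hrN ℓ) (deplOpH θ hℓN A φ) =
      deplOpH θ hℓN A (UH θ A hrN φ) := by
  rw [deplOpH_eq, deplOpH_eq, map_sub, map_nsmul, UH_ResH, UH_twOp θ hℓN hrN hcop]

end Depl

section DeplK

variable {K : Type*} [CommRing K] {A : Type*} [AddCommGroup A] [Module K A]
  {r : ℕ} [NeZero r]

/-- the `ℓ`-depletion of a `U_r`-eigenvector is a `U_r`-eigenvector with the same eigenvalue -/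
theorem deplOpH_UH_eigen (hℓN : ℓ ∣ N) (hrN : r ∣ N) (hcop : Nat.Coprime r ℓ)
    (φ : Additive (GammaH θ) →+ A) (a : K) (ha : UH θ A hrN φ = a • φ) :
    UH (liftθ (r := ℓ) θ) A (Dvd.dvd.mul_right hrN ℓ) (deplOpH θ hℓN A φ) =
      a • deplOpH θ hℓN A φ := by
  rw [deplOpH_UH θ hℓN hrN hcop, ha, deplOpH_eq, deplOpH_eq, op_smul, smul_sub, smul_comm]
  congr 2
  exact op_smul _ a φ

/-- the `ℓ`-depletion preserves the eigenvectors of the conjugations -/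
theorem deplOpH_conjEigen (hℓN : ℓ ∣ N) (ε : Δ → K) (φ : Additive (GammaH θ) →+ A)
    (hφ : ConjEigen θ ε φ) : ConjEigen (liftθ (r := ℓ) θ) ε (deplOpH θ hℓN A φ) := by
  rw [deplOpH_eq]
  exact conjEigen_sub (conjEigen_nsmul ℓ (ResH_eigen θ ε φ hφ)) (twOp_eigen θ hℓN ε φ hφ)

/-- the conjugation-eigenvector condition in the `diaH` spelling of B4 -/
theorem conjEigen_iff_diaH {M : ℕ} (θ' : (ZMod M)ˣ →* Δ) (ε : Δ → K)
    (φ : Additive (GammaH θ') →+ A) :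
    ConjEigen θ' ε φ ↔ ∀ d : Gamma0 M, diaH θ' A d φ = ε (chi θ' d) • φ := by
  constructor
  · intro h d
    refine AddMonoidHom.ext fun k => ?_
    obtain ⟨k, rfl⟩ : ∃ k' : GammaH θ', Additive.ofMul k' = k := ⟨Additive.toMul k, rfl⟩
    rw [diaH_apply, AddMonoidHom.smul_apply]
    exact h d k
  · intro h d k
    have h1 := congrArg (fun ψ : Additive (GammaH θ') →+ A => ψ (Additive.ofMul k)) (h d)
    simp only [AddMonoidHom.smul_apply] at h1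
    rw [← h1, diaH_apply]

/-- **the `ℓ`-depletion preserves the eigenvectors of the diamond operators** (B4 spelling) -/
theorem deplOpH_diaH_eigen (hℓN : ℓ ∣ N) (ε : Δ → K) (φ : Additive (GammaH θ) →+ A)
    (hφ : ∀ d : Gamma0 N, diaH θ A d φ = ε (chi θ d) • φ) (d : Gamma0 (N * ℓ)) :
    diaH (liftθ (r := ℓ) θ) A d (deplOpH θ hℓN A φ) =
      ε (chi (liftθ (r := ℓ) θ) d) • deplOpH θ hℓN A φ :=
  (conjEigen_iff_diaH (liftθ (r := ℓ) θ) ε _).mp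
    (deplOpH_conjEigen θ hℓN ε φ ((conjEigen_iff_diaH θ ε φ).mpr hφ)) d

/-- the same for `Res_ℓ` -/
theorem ResH_diaH_eigen (ε : Δ → K) (φ : Additive (GammaH θ) →+ A)
    (hφ : ∀ d : Gamma0 N, diaH θ A d φ = ε (chi θ d) • φ) (d : Gamma0 (N * ℓ)) :
    diaH (liftθ (r := ℓ) θ) A d (ResH (r := ℓ) θ A φ) =
      ε (chi (liftθ (r := ℓ) θ) d) • ResH (r := ℓ) θ A φ :=
  (conjEigen_iff_diaH (liftθ (r := ℓ) θ) ε _).mp
    (ResH_eigen θ ε φ ((conjEigen_iff_diaH θ ε φ).mpr hφ)) d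

end DeplK

/-! ### from the `ε (chi θ d)` spelling to the binder of `UH_TrH_BrH` / `PhiH_of_twist` -/

section Binder

variable {K : Type*} [CommRing K] {A : Type*} [AddCommGroup A] [Module K A]

/-- **the diamond-eigenvector binder of `UH_TrH_BrH` / `PhiH_of_twist`** (and of helper41's
`package_concrete`) from the `ε' (chi θ d)` spelling: `ε u = ε' (θ v)` for the units `v` of
`ZMod (M * r)` with `v ≡ 1 mod M`, `v ≡ u mod r`. -/
theorem diaH_binder_of_eigen {M r : ℕ} (θ' : (ZMod (M * r))ˣ →* Δ) (ε' : Δ → K)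
    (ε : (ZMod r)ˣ → K)
    (hε : ∀ v : (ZMod (M * r))ˣ, ZMod.unitsMap (Nat.dvd_mul_right M r) v = 1 →
      ε' (θ' v) = ε (ZMod.unitsMap (Nat.dvd_mul_left r M) v))
    (φ : Additive (GammaH θ') →+ A)
    (hφ : ∀ d : Gamma0 (M * r), diaH θ' A d φ = ε' (chi θ' d) • φ)
    (d : Gamma0 (M * r)) (u : (ZMod r)ˣ)
    (hM : ((((d : SL(2, ℤ)) 1 1 : ℤ)) : ZMod M) = 1)
    (hr : ((((d : SL(2, ℤ)) 1 1 : ℤ)) : ZMod r) = (u : ZMod r)) :
    diaH θ' A d φ = ε u • φ := by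
  rw [hφ d, chi_apply, hε (dUnits (M * r) d)]
  · congr 2
    apply Units.ext
    rw [coe_unitsMap_dUnits, hr]
  · apply Units.ext
    rw [coe_unitsMap_dUnits, hM, Units.val_one]

/-- the special case of a character at `r` only: `θ' = θr ∘ (mod r)`, `ε = ε' ∘ θr` -/
theorem diaH_binder_of_eigen_at {M r : ℕ} (θr : (ZMod r)ˣ →* Δ) (ε' : Δ → K)
    (φ : Additive (GammaH (θr.comp (ZMod.unitsMap (Nat.dvd_mul_left r M)))) →+ A)
    (hφ : ∀ d : Gamma0 (M * r), diaH (θr.comp (ZMod.unitsMap (Nat.dvd_mul_left r M))) A d φ =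
      ε' (chi (θr.comp (ZMod.unitsMap (Nat.dvd_mul_left r M))) d) • φ)
    (d : Gamma0 (M * r)) (u : (ZMod r)ˣ)
    (hM : ((((d : SL(2, ℤ)) 1 1 : ℤ)) : ZMod M) = 1)
    (hr : ((((d : SL(2, ℤ)) 1 1 : ℤ)) : ZMod r) = (u : ZMod r)) :
    diaH (θr.comp (ZMod.unitsMap (Nat.dvd_mul_left r M))) A d φ = (ε' (θr u)) • φ :=
  diaH_binder_of_eigen (θr.comp (ZMod.unitsMap (Nat.dvd_mul_left r M))) ε' (fun u => ε' (θr u))
    (fun _ _ => rfl) φ hφ d u hM hr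

end Binder

end Fermat.Agent.GB.B5.Betti

end
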