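/-
GATE-B / B5, Betti side (helper65): the side conditions of `UH_TrH_BrH` / `PhiH_of_twist` /
helper41's `not_goodEigensystemOccursAt_of_class` for a character **at `r` only**.

`θ : (ZMod M)ˣ →* Δ` is *at `r`* through `θr : (ZMod r)ˣ →* Δ` (`r ∣ M`) when
`θ u = θr (u mod r)` for every unit `u` (`IsAt hr θ θr`).  This is stable under `liftθ`
(`isAt_liftθ`), so it survives the depletions of helper8's (C1) whatever the spelling of the level.

For `θ : (ZMod (N * r))ˣ →* Δ` at `r`: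
* `invStable_of_isAt` : `InvStable N r θ`;
* `sq_eq_one_of_isAt` : the binder `hν : ∀ g : Γ_H(N r²), ν (d_r g) ^ 2 = 1` from
  `θr u = 1 → ν u ^ 2 = 1`;
* `diaH_binder_of_isAt` : the diamond-eigenvector binder with `ε = ε' ∘ θr` from the B4 spelling
  `diaH θ A d φ = ε' (chi θ d) • φ`;
* `sum_comp_eq_zero` : `∑ u, ε' (θr u) = 0` for a character `ε'` of `Δ` with `ε' ∘ θr ≠ 1`.
-/
import Fermat.Agent.GB.B5.Betti.DeplComm

set_option autoImplicit false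
set_option linter.unusedSectionVars false

noncomputable section

namespace Fermat.Agent.GB.B5.Betti

open scoped MatrixGroups
open Matrix.SpecialLinearGroup CongruenceSubgroup
open Fermat.Agent.S16_helper49
open Fermat.Agent.GB.B5 Fermat.Agent.GM.B Fermat.Agent.GM.Amalgam Fermat.Agent.GM.EisClass
open Fermat.Agent.GM.B5
open Fermat.Agent.GB.B3 Fermat.Agent.GB.B3.EisGamma0 Fermat.Agent.GB.B3.GamH
open Fermat.Agent.GB.B4.Twist Fermat.Agent.GB.B4.Twist.KerSys2 Fermat.Agent.GB.B4.Twist.RPsi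

variable {Δ : Type} [CommGroup Δ]

/-- `θ` is a character at `r` only: `θ u = θr (u mod r)` -/
def IsAt {M r : ℕ} (hr : r ∣ M) (θ : (ZMod M)ˣ →* Δ) (θr : (ZMod r)ˣ →* Δ) : Prop :=
  ∀ u : (ZMod M)ˣ, θ u = θr (ZMod.unitsMap hr u)

theorem isAt_comp {M r : ℕ} (hr : r ∣ M) (θr : (ZMod r)ˣ →* Δ) :
    IsAt hr (θr.comp (ZMod.unitsMap hr)) θr := fun _ => rfl

/-- being at `r` is stable under `liftθ` -/
theorem isAt_liftθ {M r ℓ : ℕ} (hr : r ∣ M) (θ : (ZMod M)ˣ →* Δ) (θr : (ZMod r)ˣ →* Δ)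
    (h : IsAt hr θ θr) : IsAt (Dvd.dvd.mul_right hr ℓ) (liftθ (r := ℓ) θ) θr := by
  intro u
  rw [liftθ_apply, h]
  congr 1
  have := ZMod.unitsMap_comp hr (Nat.dvd_mul_right M ℓ)
  exact congrFun (congrArg DFunLike.coe this) u

/-- being at `r` does not depend on the spelling of the level -/
theorem isAt_cast {M M' r : ℕ} (hM : M' = M) (hr : r ∣ M) (θ : (ZMod M)ˣ →* Δ)
    (θr : (ZMod r)ˣ →* Δ) (h : IsAt hr θ θr) :
    IsAt (hM ▸ hr : r ∣ M') (hM ▸ θ : (ZMod M')ˣ →* Δ) θr := by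
  subst hM
  exact h

variable {N r : ℕ} (θ : (ZMod (N * r))ˣ →* Δ) (θr : (ZMod r)ˣ →* Δ)

/-- a character at `r` has a kernel stable under inverting the `r`-component -/
theorem invStable_of_isAt (h : IsAt (Nat.dvd_mul_left r N) θ θr) : InvStable N r θ := by
  intro u v hu _ hr
  rw [h] at hu ⊢
  have h1 := congrArg θr hr
  rw [map_mul, hu, mul_one, map_one] at h1
  exact h1

/-- the binder `hν` of the twist by `ν`: `ν² = 1` on the `d_r` of `Γ_H(N r²)` -/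
theorem sq_eq_one_of_isAt [Fact r.Prime] (h : IsAt (Nat.dvd_mul_left r N) θ θr)
    {K : Type*} [CommRing K] (ν : MulChar (ZMod r) K)
    (hfac : ∀ u : (ZMod r)ˣ, θr u = 1 → ν (u : ZMod r) ^ 2 = 1)
    (g : GammaH (liftθ (r := r) θ)) : ν (dr r (g : SL(2, ℤ))) ^ 2 = 1 := by
  obtain ⟨hg0, hg1⟩ := (mem_GammaH_iff (liftθ (r := r) θ) (g : SL(2, ℤ))).mp g.2
  rw [liftθ_apply, h] at hg1
  have h2 := hfac _ hg1
  have h3 : ((ZMod.unitsMap (Nat.dvd_mul_left r N)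
      (ZMod.unitsMap (Nat.dvd_mul_right (N * r) r) (dUnits (N * r * r) ⟨(g : SL(2, ℤ)), hg0⟩)) :
        (ZMod r)ˣ) : ZMod r) = dr r (g : SL(2, ℤ)) := by
    have := ZMod.unitsMap_comp (Nat.dvd_mul_left r N) (Nat.dvd_mul_right (N * r) r)
    have h4 := congrFun (congrArg DFunLike.coe this) (dUnits (N * r * r) ⟨(g : SL(2, ℤ)), hg0⟩)
    rw [MonoidHom.comp_apply] at h4
    rw [h4, coe_unitsMap_dUnits]
    rfl
  rw [h3] at h2
  exact h2

/-- **the diamond-eigenvector binder** of `UH_TrH_BrH` / `PhiH_of_twist` / `package_concrete`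
for a character at `r`: `ε = ε' ∘ θr` -/
theorem diaH_binder_of_isAt (h : IsAt (Nat.dvd_mul_left r N) θ θr)
    {K : Type*} [CommRing K] {A : Type*} [AddCommGroup A] [Module K A] (ε' : Δ → K)
    (φ : Additive (GammaH θ) →+ A)
    (hφ : ∀ d : Gamma0 (N * r), diaH θ A d φ = ε' (chi θ d) • φ)
    (d : Gamma0 (N * r)) (u : (ZMod r)ˣ)
    (hN : ((((d : SL(2, ℤ)) 1 1 : ℤ)) : ZMod N) = 1)
    (hr : ((((d : SL(2, ℤ)) 1 1 : ℤ)) : ZMod r) = (u : ZMod r)) :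
    diaH θ A d φ = ε' (θr u) • φ :=
  diaH_binder_of_eigen θ ε' (fun u => ε' (θr u)) (fun v _ => by rw [h]) φ hφ d u hN hr

/-- `∑ u, ε' (θr u) = 0` for a character `ε'` of `Δ` whose pull-back to `(ZMod r)ˣ` is not
trivial -/
theorem sum_comp_eq_zero [NeZero r] {K : Type*} [CommRing K] [IsDomain K] (ε' : Δ →* Kˣ)
    (hne : ∃ u : (ZMod r)ˣ, ε' (θr u) ≠ 1) :
    ∑ u : (ZMod r)ˣ, ((ε' (θr u) : Kˣ) : K) = 0 := by
  obtain ⟨u₀, hu₀⟩ := hne
  have h1 : ((ε' (θr u₀) : Kˣ) : K) * ∑ u : (ZMod r)ˣ, ((ε' (θr u) : Kˣ) : K) =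
      ∑ u : (ZMod r)ˣ, ((ε' (θr u) : Kˣ) : K) := by
    rw [Finset.mul_sum]
    refine Fintype.sum_equiv (Equiv.mulLeft u₀) _ _ fun u => ?_
    rw [Equiv.coe_mulLeft, map_mul, map_mul, Units.val_mul]
  have h2 : (((ε' (θr u₀) : Kˣ) : K) - 1) * ∑ u : (ZMod r)ˣ, ((ε' (θr u) : Kˣ) : K) = 0 := by
    rw [sub_mul, h1, one_mul, sub_self]
  rcases mul_eq_zero.mp h2 with h3 | h3
  · exfalso
    apply hu₀
    apply Units.ext
    rw [Units.val_one]
    exact sub_eq_zero.mp h3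
  · exact h3

end Fermat.Agent.GB.B5.Betti

end
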