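/-
GATE-B / B5, Betti side (helper65): the TRANSFER half of (C1) — **the transfer
`cores : Hom(Γ_H, A) → Hom(Γ₀, A)` commutes with the depletion**.

* `cores_kerSys₂_op` (generic): for a coset system `S : Γ₁ → Γ₂` compatible with characters
  `χ₁ : Γ₁ →* Δ`, `χ₂ : Γ₂ →* Δ` and ANY sections `r₁ : Δ → Γ₁`, `r₂ : Δ → Γ₂`,
  `cores_{χ₂} ∘ (kerSys₂ S).op = S.op ∘ cores_{χ₁}`;
* `coresH_ResH`, `coresH_BrH`, `coresH_twOp` : the instances `Res_ℓ`, `B_ℓ`, `B_ℓ U_ℓ`;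
* **`coresH_deplOpH`** : `coresH (liftθ θ) rep' hrep' A (deplOpH θ hℓN A ψ) =
  deplOp hℓ hℓN A (coresH θ rep hrep A ψ)` (helper8's `deplOpH` / `deplOp`).
-/
import Fermat.Agent.GB.B5.Betti.DeplComm
import Fermat.Agent.GB.B5.Depl.DepleteForm

set_option autoImplicit false
set_option linter.unusedSectionVars false

noncomputable section

namespace Fermat.Agent.GB.B5.Betti

open scoped MatrixGroups
open Matrix.SpecialLinearGroup CongruenceSubgroup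
open Fermat.Agent.S16_helper49
open Fermat.Agent.GB.B5 Fermat.Agent.GM.B Fermat.Agent.GM.Amalgam Fermat.Agent.GM.EisClass
open Fermat.Agent.GM.B5
open Fermat.Agent.GB.B3 Fermat.Agent.GB.B3.EisGamma0 Fermat.Agent.GB.B3.GamH
open Fermat.Agent.GB.B4.Twist Fermat.Agent.GB.B4.Twist.KerSys2 Fermat.Agent.GB.B4.Twist.RPsi
open Fermat.Agent.GB.B5.Depl

/-! ### generic: the transfer commutes with the kernel systems -/

section Generic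

variable {H G : Type*} [Group H] [Group G] {emb : H →* G} {Γ₁ Γ₂ : Subgroup H}
  {Δ : Type} [CommGroup Δ] [Fintype Δ]

/-- the reindexing `(δ, j) ↦ ((σ (r₂ δ))⁻¹ j, δ)` -/
def coresEquiv₂ (S : CosetSys emb Γ₁ Γ₂) (r₂ : Δ → Γ₂) : Δ × S.ι ≃ S.ι × Δ where
  toFun p := ((S.σ (r₂ p.1)).symm p.2, p.1)
  invFun q := (q.2, S.σ (r₂ q.2) q.1)
  left_inv p := by simp
  right_inv q := by simp

/-- the correcting elements of the kernel -/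
def coresGamma₂ (S : CosetSys emb Γ₁ Γ₂) (χ₁ : Γ₁ →* Δ) (χ₂ : Γ₂ →* Δ) (h : Compat₂ S χ₁ χ₂)
    (r₁ : Δ → Γ₁) (hr₁ : ∀ δ, χ₁ (r₁ δ) = δ) (r₂ : Δ → Γ₂) (hr₂ : ∀ δ, χ₂ (r₂ δ) = δ)
    (p : Δ × S.ι) : kerSub χ₁ :=
  kerMk χ₁ (S.c (r₂ p.1) ((S.σ (r₂ p.1)).symm p.2) * (r₁ p.1)⁻¹) (by
    rw [map_mul, h, map_inv, hr₁, hr₂, mul_inv_cancel])

/-- **the transfer commutes with the kernel systems between two groups** -/
theorem cores_kerSys₂_op (hemb : Function.Injective emb) (S : CosetSys emb Γ₁ Γ₂)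
    (χ₁ : Γ₁ →* Δ) (χ₂ : Γ₂ →* Δ) (h : Compat₂ S χ₁ χ₂)
    (r₁ : Δ → Γ₁) (hr₁ : ∀ δ, χ₁ (r₁ δ) = δ) (r₂ : Δ → Γ₂) (hr₂ : ∀ δ, χ₂ (r₂ δ) = δ)
    {A : Type*} [AddCommGroup A] (ψ : Additive (kerSub χ₁) →+ A) :
    (coresK χ₂ r₂ hr₂ emb).op A ((kerSys₂ S χ₁ χ₂ h).op A ψ) =
      S.op A ((coresK χ₁ r₁ hr₁ emb).op A ψ) := by
  rw [← CosetSys.op_comp, ← CosetSys.op_comp]
  refine op_eq_of_reps ((coresK χ₁ r₁ hr₁ emb).comp S)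
    ((kerSys₂ S χ₁ χ₂ h).comp (coresK χ₂ r₂ hr₂ emb)) hemb (coresEquiv₂ S r₂)
    1 (fun x => by rw [one_mul, mul_one])
    (coresGamma₂ S χ₁ χ₂ h r₁ hr₁ r₂ hr₂) ?_ ψ
  rintro ⟨(δ : Δ), (j : S.ι)⟩
  show S.a ((S.σ (r₂ δ)).symm j) * emb ((r₂ δ : Γ₂) : H)
    = 1 * emb (((S.c (r₂ δ) ((S.σ (r₂ δ)).symm j) * (r₁ δ)⁻¹ : Γ₁)) : H)
      * (emb ((r₁ δ : Γ₁) : H) * S.a j)
  rw [one_mul, S.rel (r₂ δ) ((S.σ (r₂ δ)).symm j), Equiv.apply_symm_apply, ← mul_assoc, ← map_mul,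
    ← Subgroup.coe_mul, inv_mul_cancel_right]

end Generic

/-! ### the instances on `Γ_H` -/

section Inst

variable {N ℓ : ℕ} [Fact ℓ.Prime] {Δ : Type} [CommGroup Δ] [Fintype Δ] (θ : (ZMod N)ˣ →* Δ)
  (rep : Δ → Gamma0 N) (hrep : ∀ δ, chi θ (rep δ) = δ)
  (rep' : Δ → Gamma0 (N * ℓ)) (hrep' : ∀ δ, chi (liftθ (r := ℓ) θ) (rep' δ) = δ)
  {A : Type*} [AddCommGroup A]

/-- **`cores ∘ Res_ℓ = res_ℓ ∘ cores`** -/
theorem coresH_ResH (ψ : Additive (GammaH θ) →+ A) :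
    coresH (liftθ (r := ℓ) θ) rep' hrep' A (ResH (r := ℓ) θ A ψ) =
      (resSys N ℓ).op A (coresH θ rep hrep A ψ) :=
  cores_kerSys₂_op embR_injective (resSys N ℓ) (chi θ) (chi (liftθ (r := ℓ) θ))
    (compat₂_resSys θ) rep hrep rep' hrep' ψ

/-- **`cores ∘ B_ℓ = B_ℓ ∘ cores`** -/
theorem coresH_BrH (ψ : Additive (GammaH θ) →+ A) :
    coresH (liftθ (r := ℓ) θ) rep' hrep' A (BrH (r := ℓ) θ A ψ) =
      (resDSys N ℓ).op A (coresH θ rep hrep A ψ) :=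
  cores_kerSys₂_op embR_injective (resDSys N ℓ) (chi θ) (chi (liftθ (r := ℓ) θ))
    (compat₂_resDSys θ) rep hrep rep' hrep' ψ

/-- **`cores ∘ (B_ℓ U_ℓ) = (B_ℓ U_ℓ) ∘ cores`** -/
theorem coresH_twOp (hℓN : ℓ ∣ N) (ψ : Additive (GammaH θ) →+ A) :
    coresH (liftθ (r := ℓ) θ) rep' hrep' A ((twSys θ hℓN).op A ψ) =
      (resDSys N ℓ).op A (cohU hℓN A (coresH θ rep hrep A ψ)) := by
  rw [twOp_eq, coresH_BrH θ rep hrep rep' hrep', coresH_UH]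

/-- **the transfer commutes with the depletion**:
`cores (D_ℓ^H ψ) = D_ℓ (cores ψ)` (helper8's `deplOpH`, `deplOp`) -/
theorem coresH_deplOpH (hℓN : ℓ ∣ N) (ψ : Additive (GammaH θ) →+ A) :
    coresH (liftθ (r := ℓ) θ) rep' hrep' A (deplOpH θ hℓN A ψ) =
      deplOp (Fact.out : ℓ.Prime) hℓN A (coresH θ rep hrep A ψ) := by
  rw [deplOpH_eq, deplOp_apply, map_sub, map_nsmul, coresH_ResH θ rep hrep rep' hrep',
    coresH_twOp θ rep hrep rep' hrep' hℓN]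

end Inst

end Fermat.Agent.GB.B5.Betti

end
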