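/-
GATE-B / B5, Betti side (helper65): **(C2) along a list** — helper8's iterated depletion
`Depl.deplOpHList A B θ ls hls : Hom(Γ_H(B), A) →+ Hom(Γ_H(lvl B ls), A)` (ClassDeplList.lean)
keeps the `U_r`-eigenvectors (`r` prime to the list) and the eigenvectors of the diamond
operators, in both spellings; and a character at `r` stays at `r` along `liftL`.

* `deplOpHList_UH_eigen`, `deplOpHList_conjEigen`, `deplOpHList_diaH_eigen`;
* `isAt_liftL`.
-/
import Fermat.Agent.GB.B5.Betti.AtR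
import Fermat.Agent.GB.B5.Depl.ClassDeplList

set_option autoImplicit false
set_option linter.unusedSectionVars false

noncomputable section

namespace Fermat.Agent.GB.B5.Betti

open scoped MatrixGroups
open Matrix.SpecialLinearGroup CongruenceSubgroup
open Fermat.Agent.S16_helper49
open Fermat.Agent.GB.B5 Fermat.Agent.GM.B Fermat.Agent.GM.Amalgam Fermat.Agent.GM.EisClass
open Fermat.Agent.GM.B5
open Fermat.Agent.GB.B3 Fermat.Agent.GB.B3.EisGamma0 Fermat.Agent.GB.B3.GamH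
open Fermat.Agent.GB.B4.Twist Fermat.Agent.GB.B4.Twist.KerSys2 Fermat.Agent.GB.B4.Twist.RPsi
open Fermat.Agent.GB.B5.Depl

variable {Δ : Type} [CommGroup Δ] {K : Type*} [CommRing K] {A : Type*} [AddCommGroup A]
  [Module K A]

/-- **the iterated depletion of a `U_r`-eigenvector is a `U_r`-eigenvector with the same
eigenvalue** (`r` prime to the primes of the list) -/
theorem deplOpHList_UH_eigen {r : ℕ} [NeZero r] (ls : List ℕ) {B : ℕ} (θ : (ZMod B)ˣ →* Δ)
    (hls : ∀ ℓ ∈ ls, ℓ.Prime ∧ ℓ ∣ B) (hcop : ∀ ℓ ∈ ls, Nat.Coprime r ℓ) (hrB : r ∣ B)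
    (φ : Additive (GammaH θ) →+ A) (a : K) (ha : UH θ A hrB φ = a • φ) :
    UH (liftL B θ ls) A (hrB.trans (dvd_lvl B ls)) (deplOpHList A B θ ls hls φ) =
      a • deplOpHList A B θ ls hls φ := by
  induction ls generalizing B with
  | nil => exact ha
  | cons ℓ ls ih =>
    have : Fact ℓ.Prime := ⟨(hls ℓ List.mem_cons_self).1⟩
    exact ih (liftθ (r := ℓ) θ) (hls_tail hls)
      (fun ℓ' h => hcop ℓ' (List.mem_cons_of_mem _ h)) (hrB.mul_right ℓ)
      (deplOpH θ (hls ℓ List.mem_cons_self).2 A φ)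
      (deplOpH_UH_eigen θ (hls ℓ List.mem_cons_self).2 hrB (hcop ℓ List.mem_cons_self) φ a ha)

/-- **the iterated depletion keeps the eigenvectors of the conjugations** -/
theorem deplOpHList_conjEigen (ls : List ℕ) {B : ℕ} (θ : (ZMod B)ˣ →* Δ)
    (hls : ∀ ℓ ∈ ls, ℓ.Prime ∧ ℓ ∣ B) (ε : Δ → K) (φ : Additive (GammaH θ) →+ A)
    (hφ : ConjEigen θ ε φ) :
    ConjEigen (liftL B θ ls) ε (deplOpHList A B θ ls hls φ) := by
  induction ls generalizing B with
  | nil => exact hφ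
  | cons ℓ ls ih =>
    have : Fact ℓ.Prime := ⟨(hls ℓ List.mem_cons_self).1⟩
    exact ih (liftθ (r := ℓ) θ) (hls_tail hls) (deplOpH θ (hls ℓ List.mem_cons_self).2 A φ)
      (deplOpH_conjEigen θ (hls ℓ List.mem_cons_self).2 ε φ hφ)

/-- the same in the `diaH` spelling of B4 -/
theorem deplOpHList_diaH_eigen (ls : List ℕ) {B : ℕ} (θ : (ZMod B)ˣ →* Δ)
    (hls : ∀ ℓ ∈ ls, ℓ.Prime ∧ ℓ ∣ B) (ε : Δ → K) (φ : Additive (GammaH θ) →+ A)
    (hφ : ∀ d : Gamma0 B, diaH θ A d φ = ε (chi θ d) • φ) (d : Gamma0 (lvl B ls)) :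
    diaH (liftL B θ ls) A d (deplOpHList A B θ ls hls φ) =
      ε (chi (liftL B θ ls) d) • deplOpHList A B θ ls hls φ :=
  (conjEigen_iff_diaH (liftL B θ ls) ε _).mp
    (deplOpHList_conjEigen ls θ hls ε φ ((conjEigen_iff_diaH θ ε φ).mpr hφ)) d

/-- a character at `r` stays at `r` along `liftL` -/
theorem isAt_liftL {r : ℕ} (ls : List ℕ) {B : ℕ} (hr : r ∣ B) (θ : (ZMod B)ˣ →* Δ)
    (θr : (ZMod r)ˣ →* Δ) (h : IsAt hr θ θr) :
    IsAt (hr.trans (dvd_lvl B ls)) (liftL B θ ls) θr := by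
  induction ls generalizing B with
  | nil => exact h
  | cons ℓ ls ih => exact ih (hr.mul_right ℓ) (liftθ (r := ℓ) θ) (isAt_liftθ hr θ θr h)

end Fermat.Agent.GB.B5.Betti

end
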