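/-
GATE-B / B5, Betti side (helper65): the matrices of (T2) inside `SL(2, ℤ)`.

* `zr r` : the central scalar matrix; `zr_comm`;
* `gp N J B = [1 B; N J, 1 + N J B] ∈ SL(2, ℤ)`;
* `triple_eq` : `[r 0; 0 1] [1 0; N r J 1] [1 B; 0 r] = zr r * emb (gp N J B)`;
* `gp_eq_mul` : `gp N J B = dl * gp N 1 B0` with `dl ∈ Γ₀(N r)`, `d(dl) = 1 + N J (B - B0)`,
  when `(J - 1) + N J (B0 - B) = r e`;
* `exists_delta` : elements of `Γ₀(N r)` with `d ≡ 1 mod N`, `d ≡ u mod r`.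
-/
import Fermat.Agent.GB.B5.Adapter

set_option autoImplicit false

noncomputable section

namespace Fermat.Agent.GB.B5.Betti

open scoped MatrixGroups
open Matrix.SpecialLinearGroup CongruenceSubgroup
open Fermat.Agent.GB.B5

/-- the scalar matrix `r` -/
def zr (r : ℤ) : GL (Fin 2) ℝ := glOf r 0 0 r

theorem zr_comm {r : ℤ} (hr : r ≠ 0) (x : GL (Fin 2) ℝ) : zr r * x = x * zr r := by
  have h0 : r * r - 0 * 0 ≠ 0 := by simpa using mul_ne_zero hr hr
  apply Matrix.GeneralLinearGroup.ext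
  intro i j
  rw [Matrix.GeneralLinearGroup.coe_mul, Matrix.GeneralLinearGroup.coe_mul, zr, val_glOf h0]
  fin_cases i <;> fin_cases j <;> simp [Matrix.mul_apply, Fin.sum_univ_two, mul_comm]

theorem glOf_scale_eq {r a b c d : ℤ} (hr : r ≠ 0) (h : a * d - b * c ≠ 0) :
    glOf (r * a) (r * b) (r * c) (r * d) = zr r * glOf a b c d := by
  have h0 : r * r - 0 * 0 ≠ 0 := by simpa using mul_ne_zero hr hr
  rw [zr, glOf_mul_glOf h0 h]
  apply glOf_eq_of_eq <;> ring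

/-- `[1 B; N J, 1 + N J B]` -/
def gp (N J B : ℤ) : SL(2, ℤ) := slOf 1 B (N * J) (1 + N * J * B) (det_gammaPrime N J B)

theorem mapGL_gp (N J B : ℤ) :
    (mapGL ℝ (gp N J B) : GL (Fin 2) ℝ) = glOf 1 B (N * J) (1 + N * J * B) :=
  mapGL_slOf _ _ _ _ _

@[simp] theorem gp_apply_10 (N J B : ℤ) : (gp N J B) 1 0 = N * J := rfl
@[simp] theorem gp_apply_11 (N J B : ℤ) : (gp N J B) 1 1 = 1 + N * J * B := rfl
@[simp] theorem gp_apply_00 (N J B : ℤ) : (gp N J B) 0 0 = 1 := rfl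
@[simp] theorem gp_apply_01 (N J B : ℤ) : (gp N J B) 0 1 = B := rfl

/-- the triple product of (T2) -/
theorem triple_eq {r : ℤ} (hr : r ≠ 0) (N J B : ℤ) :
    glOf r 0 0 1 * glOf 1 0 (N * r * J) 1 * glOf 1 B 0 r = zr r * mapGL ℝ (gp N J B) := by
  rw [triple_mul hr, mapGL_gp, glOf_scale_eq hr (by rw [det_gammaPrime]; norm_num)]

/-- the connecting element of `Γ₀(N r)` -/
def dl (N r J B B0 e : ℤ) (h : (J - 1) + N * J * (B0 - B) = r * e) : SL(2, ℤ) :=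
  slOf (1 + N * (B0 - B)) (B - B0) (N * r * e) (1 + N * J * (B - B0))
    (by linear_combination (N * (B - B0)) * h)

@[simp] theorem dl_apply_10 (N r J B B0 e : ℤ) (h : (J - 1) + N * J * (B0 - B) = r * e) :
    (dl N r J B B0 e h) 1 0 = N * r * e := rfl
@[simp] theorem dl_apply_11 (N r J B B0 e : ℤ) (h : (J - 1) + N * J * (B0 - B) = r * e) :
    (dl N r J B B0 e h) 1 1 = 1 + N * J * (B - B0) := rfl

theorem gp_eq_mul (N r J B B0 e : ℤ) (h : (J - 1) + N * J * (B0 - B) = r * e) :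
    gp N J B = dl N r J B B0 e h * gp N 1 B0 := by
  apply mapGL_injective (R := ℤ) (S := ℝ)
  rw [map_mul, mapGL_gp, mapGL_gp, dl, mapGL_slOf]
  have hδ : (1 + N * (B0 - B)) * (1 + N * J * (B - B0)) - (B - B0) * (N * r * e) ≠ 0 := by
    have : (1 + N * (B0 - B)) * (1 + N * J * (B - B0)) - (B - B0) * (N * r * e) = 1 := by
      linear_combination (N * (B - B0)) * h
    rw [this]; norm_num
  have h0 : (1 : ℤ) * (1 + N * 1 * B0) - B0 * (N * 1) ≠ 0 := by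
    rw [det_gammaPrime]; norm_num
  rw [glOf_mul_glOf hδ h0]
  apply glOf_eq_of_eq
  · ring
  · ring
  · linear_combination N * h
  · linear_combination (N * B0) * h

/-- elements of `Γ₀(N r)` with prescribed lower right entry `≡ 1 mod N`, `≡ u mod r` -/
theorem exists_delta {N r : ℕ} [Fact r.Prime] (hrN : ¬ r ∣ N) (u : (ZMod r)ˣ) :
    ∃ δ : SL(2, ℤ), δ ∈ Gamma0 (N * r) ∧ ((δ 1 1 : ℤ) : ZMod N) = 1 ∧
      ((δ 1 1 : ℤ) : ZMod r) = (u : ZMod r) := by
  have : NeZero r := ⟨(Fact.out : r.Prime).ne_zero⟩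
  have hN : (N : ZMod r) ≠ 0 := by
    rw [Ne, ZMod.natCast_eq_zero_iff]
    exact hrN
  set k : ℤ := (((((u : ZMod r) - 1) / (N : ZMod r)).val : ℕ) : ℤ) with hk
  set d : ℤ := 1 + (N : ℤ) * k with hd
  have hdN : ((d : ℤ) : ZMod N) = 1 := by
    rw [hd]
    push_cast
    rw [ZMod.natCast_self, zero_mul, add_zero]
  have hdr : ((d : ℤ) : ZMod r) = (u : ZMod r) := by
    rw [hd, hk]
    push_cast
    rw [ZMod.natCast_zmod_val]
    field_simp
    ring
  have hcN : IsCoprime d (N : ℤ) := ⟨1, -k, by rw [hd]; ring⟩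
  have hcr : IsCoprime d (r : ℤ) := by
    set v : ℤ := ((((u⁻¹ : (ZMod r)ˣ) : ZMod r).val : ℕ) : ℤ) with hv
    have hz : (((d * v - 1 : ℤ)) : ZMod r) = 0 := by
      push_cast
      rw [hdr, hv]
      push_cast
      rw [ZMod.natCast_zmod_val, mul_inv_cancel₀ (Units.ne_zero u), sub_self]
    obtain ⟨m, hm⟩ := (ZMod.intCast_zmod_eq_zero_iff_dvd _ _).mp hz
    exact ⟨v, -m, by linarith⟩
  obtain ⟨a, b, hab⟩ := IsCoprime.mul_right hcN hcr
  refine ⟨slOf a (-b) ((N : ℤ) * (r : ℤ)) d (by linarith), ?_, hdN, hdr⟩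
  rw [slOf_mem_Gamma0]
  exact ⟨1, by push_cast; ring⟩

end Fermat.Agent.GB.B5.Betti

end
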