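/-
GATE-B / B5, Betti side (helper65): **`U_r` kills the twists at `r`**.

`θ : (ZMod N)ˣ →* Δ`, `r` prime, `r ∣ N`, `ψ` a character of `ZMod r` with `∑ x, ψ x = 0`
(e.g. `ψ ≠ 1` over a domain).

* `twA_mul_heckeMatrix` : `[r x; 0 r] [1 j; 0 r] = r · T^carry · [1 (x+j); 0 r]`;
* `heckeMatrix_distinct` : the cosets `SL₂(ℤ) [1 s; 0 r]`, `s ∈ ZMod r`, are distinct;
* **`UH_Rpsi`** : `U_r (R_ψ φ) = 0` on `Hom(Γ_H(N r), A)`;
* `cohU_coresH_Rpsi` : `U_r (cores (R_ψ φ)) = 0` on `Hom(Γ₀(N r), A)` (the one-prime `chainD`);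
* `UH_Rpsi_of_ne_one`.
-/
import Fermat.Agent.GB.B5.Betti.TwJacobi

set_option autoImplicit false
set_option linter.unusedSectionVars false

noncomputable section

namespace Fermat.Agent.GB.B5.Betti

open scoped MatrixGroups
open Matrix.SpecialLinearGroup CongruenceSubgroup
open Fermat.Agent.S16_helper49
open Fermat.Agent.GB.B5 Fermat.Agent.GM.B Fermat.Agent.GM.Amalgam Fermat.Agent.GM.EisClass
open Fermat.Agent.GM.B5
open Fermat.Agent.GB.B3 Fermat.Agent.GB.B3.EisGamma0 Fermat.Agent.GB.B3.GamH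
open Fermat.Agent.GB.B4.Twist Fermat.Agent.GB.B4.Twist.KerSys2 Fermat.Agent.GB.B4.Twist.RPsi
open Fermat.Agent.GB.B4.Twist.RPsiU

variable {N r : ℕ} [Fact r.Prime] {Δ : Type} [CommGroup Δ]

/-- `[r x; 0 r] [1 j; 0 r] = r · T^carry · [1 (x+j); 0 r]` -/
theorem twA_mul_heckeMatrix (x j : ZMod r) :
    twA r x * ModularForm.heckeMatrix r j.val =
      zr r * embR (Tn ((carryAdd x j : ℕ) : ℤ)) * ModularForm.heckeMatrix r (x + j).val := by
  have h := twA_mul_twA x j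
  have h2 : twA r x * ModularForm.heckeMatrix r j.val * dlt r =
      zr r * embR (Tn ((carryAdd x j : ℕ) : ℤ)) * ModularForm.heckeMatrix r (x + j).val * dlt r := by
    calc twA r x * ModularForm.heckeMatrix r j.val * dlt r
        = twA r x * twA r j := by rw [mul_assoc]; rfl
      _ = zr r * embR (Tn ((carryAdd x j : ℕ) : ℤ)) * twA r (x + j) := h
      _ = _ := by rw [mul_assoc (zr r * embR (Tn ((carryAdd x j : ℕ) : ℤ)))]; rfl
  exact mul_right_cancel h2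

/-- the cosets `SL₂(ℤ) [1 s; 0 r]` are distinct -/
theorem heckeMatrix_distinct (p q : ZMod r) (μ : SL(2, ℤ))
    (h : ModularForm.heckeMatrix r p.val = embR μ * ModularForm.heckeMatrix r q.val) : p = q := by
  refine twA_distinct p q μ ?_
  show ModularForm.heckeMatrix r p.val * dlt r = embR μ * (ModularForm.heckeMatrix r q.val * dlt r)
  rw [h, mul_assoc]

variable (θ : (ZMod N)ˣ →* Δ) {K : Type*} [CommRing K] {A : Type*} [AddCommGroup A] [Module K A]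

/-- **`U_r ∘ R_ψ = 0`** for a character `ψ` of `ZMod r` with `∑ ψ = 0`. -/
theorem UH_Rpsi (hrN : r ∣ N) (ψ : MulChar (ZMod r) K) (hsum : ∑ x : ZMod r, ψ x = 0)
    (hψ : ∀ g : GammaH (liftθ (r := r) θ), ψ (dr r (g : SL(2, ℤ))) ^ 2 = 1)
    (hr' : r ∣ N * r) (φ : Additive (GammaH θ) →+ A) :
    UH (liftθ (r := r) θ) A hr' (Rpsi θ hrN ψ hψ φ) = 0 := by
  have hr0 : (r : ℤ) ≠ 0 := by exact_mod_cast (Fact.out : r.Prime).ne_zero
  have h1 := WSys.op_wop (twSys θ hrN) (uSysH (liftθ (r := r) θ) hr') (inv_wψ θ hrN ψ hψ) φ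
  refine Eq.trans h1 ?_
  refine AddMonoidHom.ext fun g => ?_
  obtain ⟨g, rfl⟩ : ∃ g' : GammaH (liftθ (r := r) θ), Additive.ofMul g' = g :=
    ⟨Additive.toMul g, rfl⟩
  rw [WSys.wop_apply, AddMonoidHom.zero_apply]
  obtain ⟨Φ, hΦ⟩ := weighted_sum_eq_fibre_sum
    ((twSys θ hrN).comp (uSysH (liftθ (r := r) θ) hr')) embR_injective (zr r) (zr_comm hr0)
    (P := ZMod r) (fun p : ZMod r × ZMod r => p.1 + p.2)
    (fun s : ZMod r => ModularForm.heckeMatrix r s.val)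
    (fun p : ZMod r × ZMod r => tnH θ ((carryAdd p.1 p.2 : ℕ) : ℤ))
    (fun p : ZMod r × ZMod r => twA_mul_heckeMatrix p.1 p.2)
    (fun p q μ h => heckeMatrix_distinct p q (μ : SL(2, ℤ)) h) g
    (WSys.prodW (twSys θ hrN) (uSysH (liftθ (r := r) θ) hr') (wψ ψ) (fun _ => (1 : K)))
    (fun i => WSys.inv_prodW (twSys θ hrN) (uSysH (liftθ (r := r) θ) hr')
      (inv_wψ θ hrN ψ hψ) (WSys.inv_one _) g i) φ
  refine hΦ.trans ?_
  show ∑ p : ZMod r × ZMod r, (ψ p.1 * 1) • Φ (p.1 + p.2) = 0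
  rw [Fintype.sum_prod_type]
  have h2 : ∀ x : ZMod r, ∑ j : ZMod r, (ψ x * 1) • Φ (x + j) = ψ x • ∑ s : ZMod r, Φ s := by
    intro x
    rw [mul_one, ← Finset.smul_sum]
    congr 1
    exact Equiv.sum_comp (Equiv.addLeft x) Φ
  simp_rw [h2]
  rw [← Finset.sum_smul, hsum, zero_smul]

/-- `U_r ∘ R_ψ = 0` for `ψ ≠ 1` over a domain -/
theorem UH_Rpsi_of_ne_one [IsDomain K] (hrN : r ∣ N) (ψ : MulChar (ZMod r) K) (hψ1 : ψ ≠ 1)
    (hψ : ∀ g : GammaH (liftθ (r := r) θ), ψ (dr r (g : SL(2, ℤ))) ^ 2 = 1)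
    (hr' : r ∣ N * r) (φ : Additive (GammaH θ) →+ A) :
    UH (liftθ (r := r) θ) A hr' (Rpsi θ hrN ψ hψ φ) = 0 :=
  UH_Rpsi θ hrN ψ (MulChar.sum_eq_zero_of_ne_one hψ1) hψ hr' φ

/-- **`U_r` kills the descended twist** `cores (R_ψ φ)` on `Γ₀(N r)` (one-prime `chainD`) -/
theorem cohU_coresH_Rpsi [Fintype Δ] (hrN : r ∣ N) (ψ : MulChar (ZMod r) K)
    (hsum : ∑ x : ZMod r, ψ x = 0)
    (hψ : ∀ g : GammaH (liftθ (r := r) θ), ψ (dr r (g : SL(2, ℤ))) ^ 2 = 1)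
    (hr' : r ∣ N * r) (rep : Δ → Gamma0 (N * r))
    (hrep : ∀ δ, chi (liftθ (r := r) θ) (rep δ) = δ) (φ : Additive (GammaH θ) →+ A) :
    cohU hr' A (coresH (liftθ (r := r) θ) rep hrep A (Rpsi θ hrN ψ hψ φ)) = 0 := by
  rw [← coresH_UH, UH_Rpsi θ hrN ψ hsum hψ hr' φ, map_zero]

end Fermat.Agent.GB.B5.Betti

end
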