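/-
GATE-B / B5, Betti side (helper65): **`U_r` kills the twist chain at every twisting prime**.

`L : List (TwDatum R Δ)` admissible for `(N, θ)` with pairwise coprime primes, `d₀ ∈ L` with
`∑ x, d₀.ψ x = 0`:

* `isUnit_chainPsi` : `chainPsi L q` is a unit when `q` is prime to the primes of `L`;
* **`UH_chainR_eq_zero`** : `U_{d₀.r} (chainR N θ L h φ) = 0` on `Hom(Γ_H(chainθ N θ L), A)`;
* **`cohU_chainD_eq_zero`** : `U_{d₀.r} (chainD N θ L h rep hrep φ) = 0` on
  `Hom(Γ₀(chainLevel N L), A)`.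
-/
import Fermat.Agent.GB.B5.Betti.UHRpsi
import Fermat.Agent.GB.B4.Twist.ChainD

set_option autoImplicit false
set_option linter.unusedSectionVars false

noncomputable section

namespace Fermat.Agent.GB.B5.Betti

open scoped MatrixGroups
open Matrix.SpecialLinearGroup CongruenceSubgroup
open Fermat.Agent.S16_helper49
open Fermat.Agent.GB.B5 Fermat.Agent.GM.B Fermat.Agent.GM.Amalgam Fermat.Agent.GM.EisClass
open Fermat.Agent.GM.B5
open Fermat.Agent.GB.B3 Fermat.Agent.GB.B3.EisGamma0 Fermat.Agent.GB.B3.GamH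
open Fermat.Agent.GB.B4.Twist Fermat.Agent.GB.B4.Twist.KerSys2 Fermat.Agent.GB.B4.Twist.RPsi
open Fermat.Agent.GB.B4.Twist.Chain Fermat.Agent.GB.B4.Twist.ChainD

variable {R : Type*} [CommRing R] {Δ : Type} [CommGroup Δ] {A : Type*} [AddCommGroup A]
  [Module R A]

/-- `chainPsi L q` is a unit when `q` is prime to all the primes of `L` -/
theorem isUnit_chainPsi (L : List (TwDatum R Δ)) (q : ℕ) (hq : ∀ d ∈ L, Nat.Coprime q d.r) :
    IsUnit (chainPsi L q) := by
  induction L with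
  | nil => rw [chainPsi_nil]; exact isUnit_one
  | cons d L ih =>
    rw [chainPsi_cons]
    refine IsUnit.mul ?_ (ih fun e he => hq e (List.mem_cons_of_mem d he))
    exact IsUnit.map d.ψ ((ZMod.isUnit_iff_coprime q d.r).mpr (hq d (List.mem_cons_self ..)))

/-- **`U_r` kills the chain of twists at every twisting prime `r = d₀.r`** -/
theorem UH_chainR_eq_zero (N : ℕ) (θ : (ZMod N)ˣ →* Δ) (L : List (TwDatum R Δ)) (h : Adm N θ L)
    (hL : L.Pairwise (fun d e => Nat.Coprime d.r e.r)) (d₀ : TwDatum R Δ) (hd₀ : d₀ ∈ L)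
    (hsum : ∑ x : ZMod d₀.r, d₀.ψ x = 0) (hqN : d₀.r ∣ chainLevel N L)
    (φ : Additive (GammaH θ) →+ A) :
    UH (chainθ N θ L) A hqN (chainR N θ L h φ) = 0 := by
  induction L generalizing N with
  | nil => exact absurd hd₀ (List.not_mem_nil)
  | cons d L ih =>
    rw [chainR_cons]
    rcases List.mem_cons.mp hd₀ with rfl | hmem
    · -- the head
      have hq : ∀ e ∈ L, Nat.Coprime d₀.r e.r := (List.pairwise_cons.mp hL).1
      have h0 : UH (liftθ (r := d₀.r) θ) A (Dvd.intro_left N rfl)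
          (RpsiL θ (adm_head h).1 d₀.ψ (hψ_of_adm h) φ) = 0 :=
        UH_Rpsi θ (adm_head h).1 d₀.ψ hsum (hψ_of_adm h) (Dvd.intro_left N rfl) φ
      have h1 := chainR_UH (N * d₀.r) (liftθ (r := d₀.r) θ) L (adm_tail h)
        (Dvd.intro_left N rfl : d₀.r ∣ N * d₀.r) hq
        (RpsiL θ (adm_head h).1 d₀.ψ (hψ_of_adm h) φ)
      rw [h0, map_zero] at h1
      exact ((isUnit_chainPsi L d₀.r hq).smul_eq_zero).mp h1.symm
    · exact ih (N * d.r) (liftθ (r := d.r) θ) (adm_tail h) (List.pairwise_cons.mp hL).2 hmem hqN _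

/-- **`U_r` kills the descended chain `chainD` at every twisting prime `r = d₀.r`** -/
theorem cohU_chainD_eq_zero [Fintype Δ] (N : ℕ) (θ : (ZMod N)ˣ →* Δ) (L : List (TwDatum R Δ))
    (h : Adm N θ L) (rep : Δ → Gamma0 (chainLevel N L))
    (hrep : ∀ δ, chi (chainθ N θ L) (rep δ) = δ)
    (hL : L.Pairwise (fun d e => Nat.Coprime d.r e.r)) (d₀ : TwDatum R Δ) (hd₀ : d₀ ∈ L)
    (hsum : ∑ x : ZMod d₀.r, d₀.ψ x = 0) (hqN : d₀.r ∣ chainLevel N L)
    (φ : Additive (GammaH θ) →+ A) :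
    cohU hqN A (chainD N θ L h rep hrep φ) = 0 := by
  rw [chainD_apply, ← coresH_UH, UH_chainR_eq_zero N θ L h hL d₀ hd₀ hsum hqN φ, map_zero]

end Fermat.Agent.GB.B5.Betti

end
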