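/-
GATE-B / B5, Betti side (helper65): **`U_r` is injective on the `ε`-part** (`ε` ramified at `r`),
hence **the `U_r`-eigenvalue of a nonzero `ε`-eigenclass is nonzero**.

`θ : (ZMod (N * r))ˣ →* Δ`, `r ∤ N`, `InvStable N r θ`; `K` a field with `(r : K) ≠ 0`;
`Hom(Γ_H, A)` finite-dimensional (`StageGroups.homFinite_GammaH θ K` for `A = K`).
`ε' : Δ → K` is the eigen-function of the conjugations (`ConjEigen θ ε' φ`), `ε : (ZMod r)ˣ → K`
its restriction to the units `≡ 1 mod N` (`hε`), with `∑ u, ε u = 0`.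

`U_r ∘ (Tr ∘ B_r) = r` on the `ε`-part (`UH_TrH_BrH`) and `Tr ∘ B_r` preserves the `ε`-part
(`kerSys₂_op_eigen`), so `U_r` is surjective, hence injective, on the finite-dimensional `ε`-part.

* `TrH_eigen`, `UH_conjEigen`, `conjEigenSub` (the `ε`-part as a submodule);
* **`UH_eq_zero_of_conjEigen`** : `U_r φ = 0 → φ = 0` on the `ε`-part;
* **`UH_eigenvalue_ne_zero`** : `φ ≠ 0`, `U_r φ = a • φ` on the `ε`-part `⟹ a ≠ 0`;
* `UH_eigenvalue_ne_zero_of_isAt` : the same for a character at `r` only.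
-/
import Fermat.Agent.GB.B5.Betti.AtR

set_option autoImplicit false
set_option linter.unusedSectionVars false

noncomputable section

namespace Fermat.Agent.GB.B5.Betti

open scoped MatrixGroups
open Matrix.SpecialLinearGroup CongruenceSubgroup
open Fermat.Agent.S16_helper49
open Fermat.Agent.GB.B5 Fermat.Agent.GM.B Fermat.Agent.GM.Amalgam Fermat.Agent.GM.EisClass
open Fermat.Agent.GM.B5
open Fermat.Agent.GB.B3 Fermat.Agent.GB.B3.EisGamma0 Fermat.Agent.GB.B3.GamH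
open Fermat.Agent.GB.B4.Twist Fermat.Agent.GB.B4.Twist.KerSys2 Fermat.Agent.GB.B4.Twist.RPsi

variable {Δ : Type} [CommGroup Δ] {K : Type*} [CommRing K] {A : Type*} [AddCommGroup A]
  [Module K A]

/-! ### the `ε`-part -/

section Part

variable {M : ℕ} (θ' : (ZMod M)ˣ →* Δ)

/-- the trace preserves the eigenvectors of the conjugations -/
theorem TrH_eigen {r : ℕ} [NeZero r] [NeZero M] (hr : r ∣ M) (ε : Δ → K)
    (ψ : Additive (GammaH (liftθ (r := r) θ')) →+ A) (hψ : ConjEigen (liftθ (r := r) θ') ε ψ) :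
    ConjEigen θ' ε (TrH θ' hr A ψ) :=
  fun δ k => kerSys₂_op_eigen (trSys0 hr) (chi (liftθ (r := r) θ')) (chi θ')
    (compat₂_trSys0 θ' hr) ε ψ hψ δ k

/-- `U_r` preserves the eigenvectors of the conjugations -/
theorem UH_conjEigen {r : ℕ} [NeZero r] (hr : r ∣ M) (ε : Δ → K)
    (φ : Additive (GammaH θ') →+ A) (hφ : ConjEigen θ' ε φ) :
    ConjEigen θ' ε (UH θ' A hr φ) := by
  rw [conjEigen_iff_diaH] at hφ ⊢
  intro d
  rw [diaH_UH, hφ d]
  exact op_smul _ _ _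

theorem conjEigen_zero (ε : Δ → K) : ConjEigen θ' ε (0 : Additive (GammaH θ') →+ A) := by
  intro x k
  rw [AddMonoidHom.zero_apply, AddMonoidHom.zero_apply, smul_zero]

theorem conjEigen_add {ε : Δ → K} {φ ψ : Additive (GammaH θ') →+ A}
    (hφ : ConjEigen θ' ε φ) (hψ : ConjEigen θ' ε ψ) : ConjEigen θ' ε (φ + ψ) := by
  intro x k
  rw [AddMonoidHom.add_apply, AddMonoidHom.add_apply, hφ, hψ, smul_add]

theorem conjEigen_smul {ε : Δ → K} {φ : Additive (GammaH θ') →+ A} (c : K)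
    (hφ : ConjEigen θ' ε φ) : ConjEigen θ' ε (c • φ) := by
  intro x k
  rw [AddMonoidHom.smul_apply, AddMonoidHom.smul_apply, hφ, smul_comm]

/-- **the `ε`-part** of `Hom(Γ_H, A)` as a submodule -/
def conjEigenSub (ε : Δ → K) : Submodule K (Additive (GammaH θ') →+ A) where
  carrier := {φ | ConjEigen θ' ε φ}
  add_mem' := fun hφ hψ => conjEigen_add θ' hφ hψ
  zero_mem' := conjEigen_zero θ' ε
  smul_mem' := fun c _ hφ => conjEigen_smul θ' c hφ

theorem mem_conjEigenSub (ε : Δ → K) (φ : Additive (GammaH θ') →+ A) :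
    φ ∈ conjEigenSub (A := A) θ' ε ↔ ConjEigen θ' ε φ := Iff.rfl

end Part

/-! ### injectivity of `U_r` on the `ε`-part -/

section Inj

variable {N r : ℕ} [Fact r.Prime] [NeZero N] (θ : (ZMod (N * r))ˣ →* Δ)
  {F : Type*} [Field F] {B : Type*} [AddCommGroup B] [Module F B]

/-- `U_r` as a linear map -/
def UHlin : (Additive (GammaH θ) →+ B) →ₗ[F] (Additive (GammaH θ) →+ B) where
  toFun := UH θ B (Nat.dvd_mul_left r N)
  map_add' := map_add _
  map_smul' c φ := op_smul _ c φ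

/-- `Tr ∘ B_r` as a linear map -/
def TrBrLin : (Additive (GammaH θ) →+ B) →ₗ[F] (Additive (GammaH θ) →+ B) where
  toFun φ := TrH θ (Nat.dvd_mul_left r N) B (BrH (r := r) θ B φ)
  map_add' φ ψ := by rw [map_add, map_add]
  map_smul' c φ := by
    have h1 : BrH (r := r) θ B (c • φ) = c • BrH (r := r) θ B φ := op_smul _ c φ
    have h2 : TrH θ (Nat.dvd_mul_left r N) B (c • BrH (r := r) θ B φ) =
        c • TrH θ (Nat.dvd_mul_left r N) B (BrH (r := r) θ B φ) := op_smul _ c _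
    rw [h1, h2]
    rfl

/-- **`U_r` is injective on the `ε`-part**. -/
theorem UH_eq_zero_of_conjEigen (hrN : ¬ r ∣ N) (hθ : InvStable N r θ) (hrF : (r : F) ≠ 0)
    [Module.Finite F (Additive (GammaH θ) →+ B)]
    (ε' : Δ → F) (ε : (ZMod r)ˣ → F)
    (hε : ∀ v : (ZMod (N * r))ˣ, ZMod.unitsMap (Nat.dvd_mul_right N r) v = 1 →
      ε' (θ v) = ε (ZMod.unitsMap (Nat.dvd_mul_left r N) v))
    (hsum : ∑ u, ε u = 0) (φ : Additive (GammaH θ) →+ B) (hφ : ConjEigen θ ε' φ)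
    (h0 : UH θ B (Nat.dvd_mul_left r N) φ = 0) : φ = 0 := by
  set V : Submodule F (Additive (GammaH θ) →+ B) := conjEigenSub θ ε' with hV
  have hT : ∀ x ∈ V, UHlin (F := F) θ x ∈ V := fun x hx =>
    UH_conjEigen θ (Nat.dvd_mul_left r N) ε' x hx
  have hS : ∀ x ∈ V, TrBrLin (F := F) θ x ∈ V := fun x hx =>
    TrH_eigen θ (Nat.dvd_mul_left r N) ε' _ (BrH_eigen θ ε' x hx)
  have hTS : ∀ x ∈ V, UHlin (F := F) θ (TrBrLin (F := F) θ x) = (r : F) • x := by
    intro x hx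
    have h1 := UH_TrH_BrH θ hrN hθ ε hsum x
      (diaH_binder_of_eigen θ ε' ε hε x ((conjEigen_iff_diaH θ ε' x).mp hx))
    rw [Nat.cast_smul_eq_nsmul F r x]
    exact h1
  set T' : V →ₗ[F] V := (UHlin (F := F) θ).restrict hT with hT'
  set S' : V →ₗ[F] V := (TrBrLin (F := F) θ).restrict hS with hS'
  have hsurj : Function.Surjective T' := by
    intro v
    refine ⟨(r : F)⁻¹ • S' v, ?_⟩
    rw [map_smul]
    apply Subtype.ext
    rw [Submodule.coe_smul, LinearMap.coe_restrict_apply, LinearMap.coe_restrict_apply,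
      hTS v.1 v.2, smul_smul, inv_mul_cancel₀ hrF, one_smul]
  have hinj : Function.Injective T' := LinearMap.injective_iff_surjective.mpr hsurj
  have h1 : T' ⟨φ, hφ⟩ = 0 := by
    apply Subtype.ext
    rw [LinearMap.coe_restrict_apply]
    exact h0
  have h2 := hinj (h1.trans (map_zero T').symm)
  exact congrArg Subtype.val h2

/-- **the `U_r`-eigenvalue of a nonzero class of the `ε`-part is nonzero** -/
theorem UH_eigenvalue_ne_zero (hrN : ¬ r ∣ N) (hθ : InvStable N r θ) (hrF : (r : F) ≠ 0)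
    [Module.Finite F (Additive (GammaH θ) →+ B)]
    (ε' : Δ → F) (ε : (ZMod r)ˣ → F)
    (hε : ∀ v : (ZMod (N * r))ˣ, ZMod.unitsMap (Nat.dvd_mul_right N r) v = 1 →
      ε' (θ v) = ε (ZMod.unitsMap (Nat.dvd_mul_left r N) v))
    (hsum : ∑ u, ε u = 0) (φ : Additive (GammaH θ) →+ B) (hφ : ConjEigen θ ε' φ)
    (hφ0 : φ ≠ 0) (a : F) (ha : UH θ B (Nat.dvd_mul_left r N) φ = a • φ) : a ≠ 0 := by
  rintro rfl
  rw [zero_smul] at ha
  exact hφ0 (UH_eq_zero_of_conjEigen θ hrN hθ hrF ε' ε hε hsum φ hφ ha)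

/-- the same for a character at `r` only (`ε = ε' ∘ θr`) -/
theorem UH_eigenvalue_ne_zero_of_isAt (hrN : ¬ r ∣ N) (θr : (ZMod r)ˣ →* Δ)
    (hat : IsAt (Nat.dvd_mul_left r N) θ θr) (hrF : (r : F) ≠ 0)
    [Module.Finite F (Additive (GammaH θ) →+ B)]
    (ε' : Δ → F) (hsum : ∑ u : (ZMod r)ˣ, ε' (θr u) = 0)
    (φ : Additive (GammaH θ) →+ B) (hφ : ConjEigen θ ε' φ)
    (hφ0 : φ ≠ 0) (a : F) (ha : UH θ B (Nat.dvd_mul_left r N) φ = a • φ) : a ≠ 0 :=
  UH_eigenvalue_ne_zero θ hrN (invStable_of_isAt θ θr hat) hrF ε' (fun u => ε' (θr u))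
    (fun v _ => by rw [hat]) hsum φ hφ hφ0 a ha

end Inj

end Fermat.Agent.GB.B5.Betti

end
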